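/-
S59lib / RT / NumInd  (helper9) — Project I, block RT: **the numerical induction** (pure bookkeeping in `ℕ∞`) and its
**closing step** (one application of the Wiles–Lenstra criterion `NumCrit.numCrit_ring`).

The numerical state at a stage is `d • length Φ_R ≤ Ω` (`Ω` = the length of the congruence module of the Hecke module,
`d` = the rank of the eigen-lattice).

* `numState_step` : `Φ' ≤ Φ + c`, `Ω + d • c ≤ Ω'`, `d • Φ ≤ Ω` ⟹ `d • Φ' ≤ Ω'` (ΣSTEP: N2 + N3; PSTEP: PS2 + PS3);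
* `numState_base` : the base of the induction from MIN (`T` a complete intersection, `M` free over `T`);
* `bijective_of_numState` : if `d • length Φ_R ≤ Ω` and `Ω ≤ d • length 𝒪/(π s₀)` for every `s₀ ∈ Ann (ker π)`
  (helper2's `N3.length_cong_tors_le`), then `φ : R ↠ T` is bijective, `T` is a complete intersection.
-/
import Mathlib
import Fermat.Agent.S59lib.NumCrit.DiamondMain

set_option autoImplicit false
set_option linter.unusedSectionVars false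
set_option linter.style.haveILetI false

namespace Fermat.Agent.S59lib.RT

open IsLocalRing Fermat.Agent.S59lib.NumCrit

/-! ### Bookkeeping -/

section ENat

theorem numState_step {d : ℕ} {Φ Φ' Ω Ω' c : ℕ∞} (hΦ : Φ' ≤ Φ + c) (hΩ : Ω + d • c ≤ Ω')
    (h : d • Φ ≤ Ω) : d • Φ' ≤ Ω' := by
  calc d • Φ' ≤ d • (Φ + c) := nsmul_le_nsmul_right hΦ d
    _ = d • Φ + d • c := nsmul_add Φ c d
    _ ≤ Ω + d • c := add_le_add_left h _
    _ ≤ Ω' := hΩ

theorem ne_top_of_le_add {Φ Φ' c : ℕ∞} (hΦ : Φ' ≤ Φ + c) (h : Φ ≠ ⊤) (hc : c ≠ ⊤) : Φ' ≠ ⊤ :=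
  ne_top_of_le_ne_top (WithTop.add_ne_top.mpr ⟨h, hc⟩) hΦ

end ENat

/-! ### The closing step -/

section Close

universe u v w

variable {𝒪 : Type v} [CommRing 𝒪] [IsDomain 𝒪] [IsDiscreteValuationRing 𝒪]
  [IsAdicComplete (maximalIdeal 𝒪) 𝒪]
variable {R : Type w} [CommRing R] [IsLocalRing R] [IsNoetherianRing R]
  [IsAdicComplete (maximalIdeal R) R] [Algebra 𝒪 R]
variable {T : Type u} [CommRing T] [IsLocalRing T] [Algebra 𝒪 T] [Module.Finite 𝒪 T]
  [Module.IsTorsionFree 𝒪 T]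

/-- **The closing step of the numerical induction.** -/
theorem bijective_of_numState (φ : R →ₐ[𝒪] T) (hφ : Function.Surjective φ) (π : T →ₐ[𝒪] 𝒪) {ϖ : 𝒪}
    (hϖ : Irreducible ϖ) {d : ℕ} (hd : 0 < d) {Ω : ℕ∞}
    (hfin : Module.length 𝒪 (RingHom.ker ((π.comp φ : R →ₐ[𝒪] 𝒪) : R →+* 𝒪)).Cotangent ≠ ⊤)
    (hstate : d • Module.length 𝒪 (RingHom.ker ((π.comp φ : R →ₐ[𝒪] 𝒪) : R →+* 𝒪)).Cotangent ≤ Ω)
    (hΩ : ∀ s₀ : T, (∀ t : T, π t = 0 → s₀ * t = 0) →
      Ω ≤ d • Module.length 𝒪 (𝒪 ⧸ (Ideal.span {π s₀} : Ideal 𝒪))) :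
    Function.Bijective φ ∧ IsCI 𝒪 T ∧ (∃ e₀ : T, GorAug π ϖ e₀) ∧
      Module.length 𝒪 (RingHom.ker ((π.comp φ : R →ₐ[𝒪] 𝒪) : R →+* 𝒪)).Cotangent =
        Module.length 𝒪 (𝒪 ⧸ congIdeal π) := by
  have hring : Module.length 𝒪 (RingHom.ker ((π.comp φ : R →ₐ[𝒪] 𝒪) : R →+* 𝒪)).Cotangent ≤
      Module.length 𝒪 (𝒪 ⧸ congIdeal π) := by
    by_cases hη : congIdeal π = ⊥
    · rw [hη, length_quotient_bot]; exact le_top
    · obtain ⟨e, hAnn⟩ := exists_isAnnGen π hη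
      rw [hAnn.congIdeal_eq]
      exact enat_le_of_nsmul_le hd hfin (hstate.trans (hΩ e hAnn.mul_eq_zero))
  obtain ⟨hinj, hCI, hG, hR, -⟩ := numCrit_ring φ hφ π hϖ hfin hring
  exact ⟨⟨hinj, hφ⟩, hCI, hG, hR⟩

end Close

/-! ### The base of the induction -/

section Base

universe u v w x

variable {𝒪 : Type v} [CommRing 𝒪] [IsDomain 𝒪] [IsDiscreteValuationRing 𝒪]
variable {R : Type w} [CommRing R] [Algebra 𝒪 R]
variable {T : Type u} [CommRing T] [IsLocalRing T] [Algebra 𝒪 T] [Module.Finite 𝒪 T]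
  [Module.IsTorsionFree 𝒪 T]
variable {M : Type x} [AddCommGroup M] [Module 𝒪 M] [Module T M] [IsScalarTower 𝒪 T M]
  [Module.Finite 𝒪 M] [Module.IsTorsionFree 𝒪 M]

/-- an isomorphism of augmented algebras identifies the cotangent spaces -/
theorem length_cotangent_eq_of_bijective (φ : R →ₐ[𝒪] T) (hφ : Function.Bijective φ)
    (π : T →ₐ[𝒪] 𝒪) :
    Module.length 𝒪 (RingHom.ker ((π.comp φ : R →ₐ[𝒪] 𝒪) : R →+* 𝒪)).Cotangent =
      Module.length 𝒪 (RingHom.ker (π : T →+* 𝒪)).Cotangent := by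
  let e : R ≃ₐ[𝒪] T := AlgEquiv.ofBijective φ hφ
  have h1 : RingHom.ker ((π.comp φ : R →ₐ[𝒪] 𝒪) : R →+* 𝒪) ≤
      (RingHom.ker (π : T →+* 𝒪)).comap (e : R →ₐ[𝒪] T) := fun x hx => hx
  have h2 : RingHom.ker (π : T →+* 𝒪) ≤
      (RingHom.ker ((π.comp φ : R →ₐ[𝒪] 𝒪) : R →+* 𝒪)).comap (e.symm : T →ₐ[𝒪] R) := by
    intro y hy
    rw [Ideal.mem_comap, RingHom.mem_ker]
    show π (φ (e.symm y)) = 0
    have : φ (e.symm y) = y := e.apply_symm_apply y
    rw [this]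
    exact hy
  let f := Ideal.mapCotangent _ _ (e : R →ₐ[𝒪] T) h1
  let g := Ideal.mapCotangent _ _ (e.symm : T →ₐ[𝒪] R) h2
  have hgf : ∀ z, g (f z) = z := by
    intro z
    obtain ⟨⟨x, hx⟩, rfl⟩ := Ideal.toCotangent_surjective _ z
    show g (f (Ideal.toCotangent _ ⟨x, hx⟩)) = _
    rw [Ideal.mapCotangent_toCotangent, Ideal.mapCotangent_toCotangent]
    congr 1
    exact Subtype.ext (e.symm_apply_apply x)
  have hfg : ∀ z, f (g z) = z := by
    intro z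
    obtain ⟨⟨y, hy⟩, rfl⟩ := Ideal.toCotangent_surjective _ z
    show f (g (Ideal.toCotangent _ ⟨y, hy⟩)) = _
    rw [Ideal.mapCotangent_toCotangent, Ideal.mapCotangent_toCotangent]
    congr 1
    exact Subtype.ext (e.apply_symm_apply y)
  exact (LinearEquiv.ofBijective f ⟨Function.LeftInverse.injective hgf,
    Function.RightInverse.surjective hfg⟩).length_eq

/-- **The base of the numerical induction** (the output of MIN): `R ≅ T` a complete intersection with finite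
cotangent space, `M` free over `T`: `length Ω_M = rank_T M • length Φ_R`, and `rank_𝒪 M[𝔭] = rank_T M`. -/
theorem numState_base (φ : R →ₐ[𝒪] T) (hφ : Function.Bijective φ) (hCI : IsCI 𝒪 T) (π : T →ₐ[𝒪] 𝒪)
    {ϖ : 𝒪} (hϖ : Irreducible ϖ)
    (hfin : Module.length 𝒪 (RingHom.ker (π : T →+* 𝒪)).Cotangent ≠ ⊤)
    {ι : Type*} [Fintype ι] (b : Module.Basis ι T M) :
    Module.length 𝒪 (congModule π M) = Fintype.card ι •
        Module.length 𝒪 (RingHom.ker ((π.comp φ : R →ₐ[𝒪] 𝒪) : R →+* 𝒪)).Cotangent ∧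
      Module.finrank 𝒪 (augTorsion π M) = Fintype.card ι ∧
      Module.length 𝒪 (RingHom.ker ((π.comp φ : R →ₐ[𝒪] 𝒪) : R →+* 𝒪)).Cotangent ≠ ⊤ := by
  obtain ⟨h1, h2, -⟩ := length_congModule_of_isCI hCI π hϖ hfin b
  rw [length_cotangent_eq_of_bijective φ hφ π]
  exact ⟨h1, h2, hfin⟩

end Base

end Fermat.Agent.S59lib.RT
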