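/-
S59lib / RT / GalStep  (helper9) — Project I, block RT: **the Galois side of the steps ΣSTEP and PSTEP** for universal
deformation rings (`GaloisRep.DeformationRingData`).

`DQ` universal for the SMALL type `𝒟` (ring `R`), `DQ'` universal for the BIG type `𝒟'` (ring `R'`), `ψ : R' → R` the
classifying map of `DQ.ρ` (as a deformation of type `𝒟'`), `lam : R →ₐ[𝒪] 𝒪` an augmentation (a point of type `𝒟`).

* `length_cotangent_le_of_universal` : if `κ : R' ↠ R''` is a quotient through which `lam ∘ ψ` factors and such that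
  `DQ'.ρ ⊗_κ R''` is of type `𝒟` (and `𝒟'`), then
  `length Φ_{lam ∘ ψ} ≤ length Φ_lam + length (image of ker κ in Φ_{lam ∘ ψ})`.
  (No surjectivity of `ψ` is needed: the universal property of `DQ` gives `u : R → R''` with `u ∘ ψ = κ`, so `u` is
  surjective, and `π'' ∘ u = lam` by the uniqueness part at the point `lam`.)
-/
import Mathlib
import Fermat.Agent.S59lib.N2.Main
import Fermat.Agent.S43lib.B3.Taut
import Fermat.Agent.S43lib.B3.EndGal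
import Fermat.Agent.TeamA.QuotInst
import Fermat.Agent.S56lib.Dict.CondBaseChange
import Fermat.Prelude.Def_GaloisRep_DeformationRingData

set_option autoImplicit false
set_option linter.unusedSectionVars false
set_option linter.style.haveILetI false

noncomputable section

namespace Fermat.Agent.S59lib.RT

open IsLocalRing Fermat.Agent.TeamA Fermat.Agent.TeamA.Rep Fermat.Agent.S43lib.B3 GaloisRep
  Fermat.Agent.S59lib.N2

local notation "Qb" => AlgebraicClosure ℚ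
local notation "GQ" => (AlgebraicClosure ℚ ≃ₐ[ℚ] AlgebraicClosure ℚ)

/-! ### The residual representation of a base change -/

section Residual

variable {𝒪 : Type} [CommRing 𝒪] [IsLocalRing 𝒪]
  {ρbar : ResidualGaloisRep (ResidueField 𝒪)}
  {R A : Type} [CommRing R] [IsLocalRing R] [Algebra 𝒪 R] [IsLocalHom (algebraMap 𝒪 R)]
  [CommRing A] [IsLocalRing A] [Algebra 𝒪 A] [IsLocalHom (algebraMap 𝒪 A)]

theorem residueField_map_algHom (x : R →ₐ[𝒪] A) [IsLocalHom (x : R →+* A)] (y : ResidueField 𝒪) :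
    ResidueField.map (x : R →+* A) (ResidueField.map (algebraMap 𝒪 R) y) =
      ResidueField.map (algebraMap 𝒪 A) y := by
  obtain ⟨o, rfl⟩ := residue_surjective y
  rw [ResidueField.map_residue, ResidueField.map_residue, ResidueField.map_residue]
  congr 1
  exact x.commutes o

/-- **the residual representation of a base change along an `𝒪`-algebra map** -/
theorem residual_isEquiv_baseChangeAlong (x : R →ₐ[𝒪] A) (hx : IsLocalHom (x : R →+* A))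
    (ρ : GaloisRepAdic R)
    (h : ρ.residual.IsEquiv (ρbar.baseChangeAlong (ResidueField.map (algebraMap 𝒪 R)))) :
    (ρ.baseChangeAlong (x : R →+* A) hx).residual.IsEquiv
      (ρbar.baseChangeAlong (ResidueField.map (algebraMap 𝒪 A))) := by
  haveI := hx
  obtain ⟨b⟩ := exists_basis_adic ρ
  let bbar : Module.Basis (Fin 2) (ResidueField 𝒪) ρbar.V :=
    Module.finBasisOfFinrankEq _ _ ρbar.finrank_eq
  obtain ⟨M, M', h1, h2, hc⟩ := res_exists_conj_of_isEquiv _ _ (residualBasis ρ b)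
    (resBcBasis (ResidueField.map (algebraMap 𝒪 R)) ρbar bbar) h
  have hone : (1 : Matrix (Fin 2) (Fin 2) (ResidueField R)).map (ResidueField.map (x : R →+* A)) = 1 :=
    Matrix.map_one _ (map_zero _) (map_one _)
  refine res_isEquiv_of_conj _ _ (residualBasis _ (bcBasis (x : R →+* A) hx ρ b))
    (resBcBasis (ResidueField.map (algebraMap 𝒪 A)) ρbar bbar)
    (M.map (ResidueField.map (x : R →+* A))) (M'.map (ResidueField.map (x : R →+* A))) ?_ ?_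
    fun g => ?_
  · rw [← Matrix.map_mul, h1, hone]
  · rw [← Matrix.map_mul, h2, hone]
  · rw [matOfRes_residual_baseChangeAlong, ← Matrix.map_mul, hc g, Matrix.map_mul,
      matOfRes_baseChangeAlong, matOfRes_baseChangeAlong, Matrix.map_map]
    congr 2
    ext y
    rw [Function.comp_apply, residueField_map_algHom]

end Residual

/-! ### Generalities -/

section Gen

variable {A B : Type} [CommRing A] [IsLocalRing A] [CommRing B] [IsLocalRing B]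

theorem isEquiv_baseChangeAlong_congr (ρ : GaloisRepAdic A) {φ φ' : A →+* B} (h : φ = φ')
    (hφ : IsLocalHom φ) (hφ' : IsLocalHom φ') :
    (ρ.baseChangeAlong φ hφ).IsEquiv (ρ.baseChangeAlong φ' hφ') := by
  subst h
  exact ⟨GaloisRepAdic.Equiv.refl _⟩

theorem IsEquiv.trans' {ρ₁ ρ₂ ρ₃ : GaloisRepAdic A} (h : ρ₁.IsEquiv ρ₂) (h' : ρ₂.IsEquiv ρ₃) :
    ρ₁.IsEquiv ρ₃ := by
  obtain ⟨e⟩ := h
  obtain ⟨e'⟩ := h'
  exact ⟨e.trans e'⟩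

theorem IsEquiv.symm' {ρ₁ ρ₂ : GaloisRepAdic A} (h : ρ₁.IsEquiv ρ₂) : ρ₂.IsEquiv ρ₁ := by
  obtain ⟨e⟩ := h
  exact ⟨e.symm⟩

theorem IsEquiv.bc {ρ₁ ρ₂ : GaloisRepAdic A} (h : ρ₁.IsEquiv ρ₂) (φ : A →+* B) (hφ : IsLocalHom φ) :
    (ρ₁.baseChangeAlong φ hφ).IsEquiv (ρ₂.baseChangeAlong φ hφ) := by
  obtain ⟨e⟩ := h
  exact ⟨e.baseChangeAlong φ hφ⟩

end Gen

section Cot

variable {𝒪 : Type*} [CommRing 𝒪] {R : Type*} [CommRing R] [Algebra 𝒪 R]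
  {R'' : Type*} [CommRing R''] [Algebra 𝒪 R'']

/-- a surjection of augmented algebras induces a surjection of cotangent spaces -/
theorem length_cotangent_le_of_surjective (π : R →ₐ[𝒪] 𝒪) (π'' : R'' →ₐ[𝒪] 𝒪) (u : R →ₐ[𝒪] R'')
    (hu : Function.Surjective u) (hπ : π''.comp u = π) :
    Module.length 𝒪 (RingHom.ker (π'' : R'' →+* 𝒪)).Cotangent ≤
      Module.length 𝒪 (RingHom.ker (π : R →+* 𝒪)).Cotangent := by
  have hπ' : ∀ x, π'' (u x) = π x := fun x => by rw [← hπ]; rfl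
  have hcomap : RingHom.ker (π : R →+* 𝒪) ≤ (RingHom.ker (π'' : R'' →+* 𝒪)).comap u := by
    intro x hx
    rw [Ideal.mem_comap, RingHom.mem_ker]
    rw [RingHom.mem_ker] at hx
    exact (hπ' x).trans hx
  set f := Ideal.mapCotangent (RingHom.ker (π : R →+* 𝒪)) (RingHom.ker (π'' : R'' →+* 𝒪)) u hcomap
    with hf
  have hfs : Function.Surjective f := by
    intro z
    obtain ⟨⟨y, hy⟩, rfl⟩ := Ideal.toCotangent_surjective _ z
    obtain ⟨x, rfl⟩ := hu y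
    have hx : x ∈ RingHom.ker (π : R →+* 𝒪) := by
      rw [RingHom.mem_ker] at hy ⊢
      exact (hπ' x).symm.trans hy
    exact ⟨(RingHom.ker (π : R →+* 𝒪)).toCotangent ⟨x, hx⟩, rfl⟩
  exact Module.length_le_of_surjective f hfs

end Cot

/-! ### The abstract step -/

section Step

variable {𝒪 : Type} [CommRing 𝒪] [IsDomain 𝒪] [IsDiscreteValuationRing 𝒪]
  [IsAdicComplete (maximalIdeal 𝒪) 𝒪]
  {ρbar : ResidualGaloisRep (ResidueField 𝒪)}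
  {𝒟 𝒟' : ∀ ⦃A : Type⦄ [CommRing A] [IsLocalRing A] [Algebra 𝒪 A], GaloisRepAdic A → Prop}

theorem isLocalHom_comp' {A B C : Type} [CommRing A] [CommRing B] [CommRing C] (f : A →+* B) (g : B →+* C)
    (hf : IsLocalHom f) (hg : IsLocalHom g) : IsLocalHom (g.comp f) :=
  ⟨fun a ha => hf.map_nonunit a (hg.map_nonunit _ ha)⟩

/-- the residue field of a quotient of `R` is still generated by `𝒪` -/
theorem residue_surjective_of_surjective {R R'' : Type} [CommRing R] [IsLocalRing R] [Algebra 𝒪 R]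
    [CommRing R''] [IsLocalRing R''] [Algebra 𝒪 R''] (κ : R →ₐ[𝒪] R'') (hκ : Function.Surjective κ)
    (hκloc : IsLocalHom (κ : R →+* R''))
    (h : Function.Surjective (residue R ∘ algebraMap 𝒪 R)) :
    Function.Surjective (residue R'' ∘ algebraMap 𝒪 R'') := by
  haveI := hκloc
  intro y
  obtain ⟨z, rfl⟩ := residue_surjective y
  obtain ⟨w, rfl⟩ := hκ z
  obtain ⟨a, ha⟩ := h (residue R w)
  refine ⟨a, ?_⟩
  rw [Function.comp_apply] at ha ⊢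
  rw [← sub_eq_zero, ← map_sub, residue_eq_zero_iff] at ha ⊢
  have h1 : algebraMap 𝒪 R'' a - κ w = (κ : R →+* R'') (algebraMap 𝒪 R a - w) := by
    rw [map_sub]
    show _ = κ (algebraMap 𝒪 R a) - κ w
    rw [AlgHom.commutes]
  rw [h1]
  exact map_nonunit (κ : R →+* R'') _ ha

/-- **The abstract Galois-side step.** -/
theorem length_cotangent_le_of_universal
    (DQ : DeformationRingData 𝒪 ρbar 𝒟) (DQ' : DeformationRingData 𝒪 ρbar 𝒟')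
    (ψ : DQ'.R →ₐ[𝒪] DQ.R) (hψ : IsLocalHom (ψ : DQ'.R →+* DQ.R))
    (hψρ : (DQ'.ρ.baseChangeAlong (ψ : DQ'.R →+* DQ.R) hψ).IsEquiv DQ.ρ)
    (lam : DQ.R →ₐ[𝒪] 𝒪) (hlam : IsLocalHom (lam : DQ.R →+* 𝒪))
    (h𝒟lam : 𝒟 (DQ.ρ.baseChangeAlong (lam : DQ.R →+* 𝒪) hlam))
    {R'' : Type} [CommRing R''] [IsLocalRing R''] [IsNoetherianRing R'']
    [IsAdicComplete (maximalIdeal R'') R''] [Algebra 𝒪 R''] [IsLocalHom (algebraMap 𝒪 R'')]
    (κ : DQ'.R →ₐ[𝒪] R'') (hκ : Function.Surjective κ) (hκloc : IsLocalHom (κ : DQ'.R →+* R''))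
    (hκlam : RingHom.ker (κ : DQ'.R →+* R'') ≤
      RingHom.ker ((lam.comp ψ : DQ'.R →ₐ[𝒪] 𝒪) : DQ'.R →+* 𝒪))
    (h𝒟κ : 𝒟 (DQ'.ρ.baseChangeAlong (κ : DQ'.R →+* R'') hκloc))
    (h𝒟'κ : 𝒟' (DQ'.ρ.baseChangeAlong (κ : DQ'.R →+* R'') hκloc)) :
    Module.length 𝒪 (RingHom.ker ((lam.comp ψ : DQ'.R →ₐ[𝒪] 𝒪) : DQ'.R →+* 𝒪)).Cotangent ≤
      Module.length 𝒪 (RingHom.ker (lam : DQ.R →+* 𝒪)).Cotangent +
        Module.length 𝒪 (cotImage (lam.comp ψ) (RingHom.ker (κ : DQ'.R →+* R''))) := by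
  -- the deformation over `R''`
  have hsurj'' : Function.Surjective (residue R'' ∘ algebraMap 𝒪 R'') :=
    residue_surjective_of_surjective κ hκ hκloc DQ'.residue_surjective
  have hres'' := residual_isEquiv_baseChangeAlong κ hκloc DQ'.ρ DQ'.residual_isEquiv
  -- the classifying map of `DQ`
  obtain ⟨u, ⟨hu_loc, hu_eq⟩, -⟩ := DQ.universal R'' hsurj'' _ h𝒟κ hres''
  -- `u ∘ ψ = κ`
  have huψ_loc : IsLocalHom ((u.comp ψ : DQ'.R →ₐ[𝒪] R'') : DQ'.R →+* R'') :=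
    isLocalHom_comp' (ψ : DQ'.R →+* DQ.R) (u : DQ.R →+* R'') hψ hu_loc
  have huψ : u.comp ψ = κ := by
    refine (DQ'.universal R'' hsurj'' _ h𝒟'κ hres'').unique ⟨huψ_loc, ?_⟩
      ⟨hκloc, ⟨GaloisRepAdic.Equiv.refl _⟩⟩
    exact IsEquiv.trans' (IsEquiv.symm' (baseChangeAlong_comp_isEquiv DQ'.ρ (ψ : DQ'.R →+* DQ.R) hψ
      (u : DQ.R →+* R'') hu_loc huψ_loc)) (IsEquiv.trans' (IsEquiv.bc hψρ _ hu_loc) hu_eq)
  have hu : Function.Surjective u := by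
    intro y
    obtain ⟨x, rfl⟩ := hκ y
    exact ⟨ψ x, by rw [← huψ]; rfl⟩
  -- the augmentation of `R''`
  let π'' : R'' →ₐ[𝒪] 𝒪 := AlgHom.liftOfSurjective κ hκ (lam.comp ψ) hκlam
  have hπ''κ : π''.comp κ = lam.comp ψ := AlgHom.liftOfSurjective_comp κ hκ (lam.comp ψ) hκlam
  have hπ''loc : IsLocalHom (π'' : R'' →+* 𝒪) :=
    IsLocalHom.of_surjective _ (fun o => ⟨algebraMap 𝒪 R'' o, by
      show π'' (algebraMap 𝒪 R'' o) = o
      rw [AlgHom.commutes]; rfl⟩)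
  -- `π'' ∘ u = lam`
  haveI : IsLocalHom (algebraMap 𝒪 𝒪) := by rw [Algebra.algebraMap_self]; infer_instance
  have hsurj𝒪 : Function.Surjective (residue 𝒪 ∘ algebraMap 𝒪 𝒪) := fun y => by
    obtain ⟨o, rfl⟩ := residue_surjective y
    exact ⟨o, rfl⟩
  have hreslam := residual_isEquiv_baseChangeAlong lam hlam DQ.ρ DQ.residual_isEquiv
  have hπ''u_loc : IsLocalHom ((π''.comp u : DQ.R →ₐ[𝒪] 𝒪) : DQ.R →+* 𝒪) :=
    isLocalHom_comp' (u : DQ.R →+* R'') (π'' : R'' →+* 𝒪) hu_loc hπ''loc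
  have hlamψ_loc : IsLocalHom ((lam.comp ψ : DQ'.R →ₐ[𝒪] 𝒪) : DQ'.R →+* 𝒪) :=
    isLocalHom_comp' (ψ : DQ'.R →+* DQ.R) (lam : DQ.R →+* 𝒪) hψ hlam
  have hπ''κ_loc : IsLocalHom ((π''.comp κ : DQ'.R →ₐ[𝒪] 𝒪) : DQ'.R →+* 𝒪) :=
    isLocalHom_comp' (κ : DQ'.R →+* R'') (π'' : R'' →+* 𝒪) hκloc hπ''loc
  have hπ''u : π''.comp u = lam := by
    refine (DQ.universal 𝒪 hsurj𝒪 _ h𝒟lam hreslam).unique ⟨hπ''u_loc, ?_⟩
      ⟨hlam, ⟨GaloisRepAdic.Equiv.refl _⟩⟩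
    -- `DQ.ρ ⊗_{π'' ∘ u} ≅ (DQ.ρ ⊗_u) ⊗_{π''} ≅ (DQ'.ρ ⊗_κ) ⊗_{π''} ≅ DQ'.ρ ⊗_{π'' ∘ κ} = DQ'.ρ ⊗_{lam ∘ ψ}`
    -- `≅ (DQ'.ρ ⊗_ψ) ⊗_lam ≅ DQ.ρ ⊗_lam`
    have e1 := IsEquiv.symm' (baseChangeAlong_comp_isEquiv DQ.ρ (u : DQ.R →+* R'') hu_loc
      (π'' : R'' →+* 𝒪) hπ''loc hπ''u_loc)
    have e2 := IsEquiv.bc hu_eq (π'' : R'' →+* 𝒪) hπ''loc
    have e3 := baseChangeAlong_comp_isEquiv DQ'.ρ (κ : DQ'.R →+* R'') hκloc
      (π'' : R'' →+* 𝒪) hπ''loc hπ''κ_loc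
    have e4 := isEquiv_baseChangeAlong_congr DQ'.ρ
      (congrArg (fun f : DQ'.R →ₐ[𝒪] 𝒪 => (f : DQ'.R →+* 𝒪)) hπ''κ) hπ''κ_loc hlamψ_loc
    have e5 := IsEquiv.symm' (baseChangeAlong_comp_isEquiv DQ'.ρ (ψ : DQ'.R →+* DQ.R) hψ
      (lam : DQ.R →+* 𝒪) hlam hlamψ_loc)
    have e6 := IsEquiv.bc hψρ (lam : DQ.R →+* 𝒪) hlam
    exact IsEquiv.trans' e1 (IsEquiv.trans' e2 (IsEquiv.trans' e3 (IsEquiv.trans' e4
      (IsEquiv.trans' e5 e6))))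
  -- the two inequalities
  have h1 := length_cotangent_le_add (lam.comp ψ) π'' κ hκ hπ''κ
    (RingHom.ker (κ : DQ'.R →+* R'')) le_rfl
  have h2 := length_cotangent_le_of_surjective lam π'' u hu hπ''u
  rw [add_comm] at h1
  exact h1.trans (add_le_add_left h2 _)

end Step

/-! ### Equivalent representations -/

section Equiv

variable {A : Type} [CommRing A] [IsLocalRing A]

theorem isUnramifiedAt_of_isEquiv {ρ₁ ρ₂ : GaloisRepAdic A} (h : ρ₁.IsEquiv ρ₂) {q : ℕ}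
    (hq : ρ₂.IsUnramifiedAt q) : ρ₁.IsUnramifiedAt q := by
  obtain ⟨e⟩ := h
  intro P hP σ hσ
  ext x
  apply e.toLinearEquiv.injective
  rw [e.map_apply, hq P hP σ hσ]
  rfl

theorem trace_eq_of_isEquiv {ρ₁ ρ₂ : GaloisRepAdic A} (h : ρ₁.IsEquiv ρ₂) (g : GQ) :
    ρ₁.trace g = ρ₂.trace g := by
  obtain ⟨e⟩ := h
  have h1 : ρ₂.ρ g = e.toLinearEquiv.conj (ρ₁.ρ g) := by
    ext x
    rw [LinearEquiv.conj_apply_apply, e.map_apply, LinearEquiv.apply_symm_apply]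
  unfold GaloisRepAdic.trace
  rw [h1, LinearMap.trace_conj']

theorem res_isUnramifiedAt_of_isEquiv_bc {k k' : Type} [Field k] [Field k'] (φ : k →+* k')
    (ρ₁ : ResidualGaloisRep k') (ρb : ResidualGaloisRep k)
    (h : ρ₁.IsEquiv (ρb.baseChangeAlong φ)) {q : ℕ} (hq : ρb.IsUnramifiedAt q) :
    ρ₁.IsUnramifiedAt q := by
  obtain ⟨e⟩ := h
  intro A hA σ hσ
  have h1 : (ρb.baseChangeAlong φ).ρ σ = 1 := by
    letI : Algebra k k' := φ.toAlgebra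
    show (ρb.ρ σ).baseChange k' = 1
    rw [hq A hA σ hσ, LinearMap.baseChange_one]
  ext x
  apply e.toLinearEquiv.injective
  rw [e.map_apply, h1]
  rfl

end Equiv

/-! ### ΣSTEP, Galois side -/

section Sigma

variable {𝒪 : Type} [CommRing 𝒪] [IsDomain 𝒪] [IsDiscreteValuationRing 𝒪]
  [IsAdicComplete (maximalIdeal 𝒪) 𝒪]
  {ρbar : ResidualGaloisRep (ResidueField 𝒪)}
  {𝒟 𝒟' : ∀ ⦃A : Type⦄ [CommRing A] [IsLocalRing A] [Algebra 𝒪 A], GaloisRepAdic A → Prop}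

/-- **ΣSTEP, Galois side.**  `DQ` universal for the type `𝒟` (unramified at `v`), `DQ'` universal for the type `𝒟'`
(no condition at `v`, `v ≠ p` a prime at which `ρ̄` is unramified), `lam` a point of `DQ`, `a = lam (tr ρ(Frob_v))`.
Then the classifying map `ψ : DQ'.R → DQ.R` satisfies
`length Φ_{lam ∘ ψ} ≤ length Φ_lam + length 𝒪/((v − 1)(a² − (v + 1)²))`. -/
theorem length_cotangent_le_sigmaStep (p : ℕ) [hp : Fact p.Prime] (hp𝒪 : (p : 𝒪) ∈ maximalIdeal 𝒪)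
    (DQ : DeformationRingData 𝒪 ρbar 𝒟) (DQ' : DeformationRingData 𝒪 ρbar 𝒟')
    (h𝒟𝒟' : 𝒟' DQ.ρ) (hdet' : DQ'.ρ.DetIsCyclotomic p)
    (v : Nat.Primes) (hpv : p ≠ (v : ℕ)) (hur : ρbar.IsUnramifiedAt (v : ℕ))
    (hunrDQ : DQ.ρ.IsUnramifiedAt (v : ℕ))
    (hquot : ∀ (R'' : Type) [CommRing R''] [IsLocalRing R''] [Algebra 𝒪 R'']
      (κ : DQ'.R →ₐ[𝒪] R'') (_ : Function.Surjective κ) (hκloc : IsLocalHom (κ : DQ'.R →+* R'')),
      𝒟' (DQ'.ρ.baseChangeAlong (κ : DQ'.R →+* R'') hκloc))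
    (hunr : ∀ (R'' : Type) [CommRing R''] [IsLocalRing R''] [Algebra 𝒪 R'']
      (κ : DQ'.R →ₐ[𝒪] R'') (_ : Function.Surjective κ) (hκloc : IsLocalHom (κ : DQ'.R →+* R'')),
      (DQ'.ρ.baseChangeAlong (κ : DQ'.R →+* R'') hκloc).IsUnramifiedAt (v : ℕ) →
      𝒟 (DQ'.ρ.baseChangeAlong (κ : DQ'.R →+* R'') hκloc))
    (lam : DQ.R →ₐ[𝒪] 𝒪) (hlam : IsLocalHom (lam : DQ.R →+* 𝒪))
    (h𝒟lam : 𝒟 (DQ.ρ.baseChangeAlong (lam : DQ.R →+* 𝒪) hlam))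
    (a : 𝒪) (ha : lam (DQ.ρ.trace (globFrobAt v)) = a)
    (hc : (((v : ℕ) : 𝒪) - 1) * (a ^ 2 - (((v : ℕ) : 𝒪) + 1) ^ 2) ≠ 0) :
    ∃ (ψ : DQ'.R →ₐ[𝒪] DQ.R) (hψ : IsLocalHom (ψ : DQ'.R →+* DQ.R)),
      (DQ'.ρ.baseChangeAlong (ψ : DQ'.R →+* DQ.R) hψ).IsEquiv DQ.ρ ∧
      Module.length 𝒪 (RingHom.ker ((lam.comp ψ : DQ'.R →ₐ[𝒪] 𝒪) : DQ'.R →+* 𝒪)).Cotangent ≤
        Module.length 𝒪 (RingHom.ker (lam : DQ.R →+* 𝒪)).Cotangent +
          Module.length 𝒪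
            (𝒪 ⧸ Ideal.span {(((v : ℕ) : 𝒪) - 1) * (a ^ 2 - (((v : ℕ) : 𝒪) + 1) ^ 2)}) := by
  obtain ⟨ψ, ⟨hψ, hψρ⟩, -⟩ := DQ'.universal DQ.R DQ.residue_surjective DQ.ρ h𝒟𝒟' DQ.residual_isEquiv
  refine ⟨ψ, hψ, hψρ, ?_⟩
  obtain ⟨b'⟩ := exists_basis_adic DQ'.ρ
  set 𝔫 : Ideal DQ'.R := tameIdeal DQ'.ρ b' v p with h𝔫
  have hlamψ_loc : IsLocalHom ((lam.comp ψ : DQ'.R →ₐ[𝒪] 𝒪) : DQ'.R →+* 𝒪) :=
    isLocalHom_comp' (ψ : DQ'.R →+* DQ.R) (lam : DQ.R →+* 𝒪) hψ hlam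
  -- the point `lam ∘ ψ` is unramified at `v`
  have hunr₀ : (DQ'.ρ.baseChangeAlong ((lam.comp ψ : DQ'.R →ₐ[𝒪] 𝒪) : DQ'.R →+* 𝒪)
      hlamψ_loc).IsUnramifiedAt (v : ℕ) := by
    refine isUnramifiedAt_of_isEquiv (IsEquiv.trans' (IsEquiv.symm' (baseChangeAlong_comp_isEquiv DQ'.ρ
      (ψ : DQ'.R →+* DQ.R) hψ (lam : DQ.R →+* 𝒪) hlam hlamψ_loc)) (IsEquiv.bc hψρ _ hlam)) ?_
    exact Fermat.Agent.S56lib.Dict.isUnramifiedAt_baseChangeAlong _ hlam DQ.ρ hunrDQ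
  have h𝔫lam : 𝔫 ≤ RingHom.ker ((lam.comp ψ : DQ'.R →ₐ[𝒪] 𝒪) : DQ'.R →+* 𝒪) :=
    tameIdeal_le_ker_of_isUnramifiedAt p DQ'.ρ b' v _ hlamψ_loc hunr₀
  have h𝔫top : 𝔫 ≠ ⊤ := fun h => (RingHom.ker_ne_top _) (top_le_iff.mp (h ▸ h𝔫lam))
  -- the quotient
  letI := isLocalRing_quotient 𝔫 h𝔫top
  haveI := isAdicComplete_quotient 𝔫 h𝔫top
  haveI := isLocalHom_algebraMap_quotient (𝒪 := 𝒪) 𝔫 h𝔫top
  let κ : DQ'.R →ₐ[𝒪] (DQ'.R ⧸ 𝔫) := Ideal.Quotient.mkₐ 𝒪 𝔫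
  have hκ : Function.Surjective κ := Ideal.Quotient.mkₐ_surjective 𝒪 𝔫
  have hκloc : IsLocalHom (κ : DQ'.R →+* DQ'.R ⧸ 𝔫) := isLocalHom_quotient_mk 𝔫 h𝔫top
  have hkerκ : RingHom.ker (κ : DQ'.R →+* DQ'.R ⧸ 𝔫) = 𝔫 := Ideal.Quotient.mkₐ_ker 𝒪 𝔫
  have hres' : DQ'.ρ.residual.IsUnramifiedAt (v : ℕ) :=
    res_isUnramifiedAt_of_isEquiv_bc _ _ _ DQ'.residual_isEquiv hur
  have hpR'' : (p : DQ'.R ⧸ 𝔫) ∈ maximalIdeal (DQ'.R ⧸ 𝔫) := by
    have h1 := map_nonunit (algebraMap 𝒪 (DQ'.R ⧸ 𝔫)) _ hp𝒪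
    rwa [map_natCast] at h1
  have hunrκ : (DQ'.ρ.baseChangeAlong (κ : DQ'.R →+* DQ'.R ⧸ 𝔫) hκloc).IsUnramifiedAt (v : ℕ) :=
    isUnramifiedAt_of_tameIdeal_le_ker p hpR'' DQ'.ρ b' v hpv _ hκloc
      (residual_isUnramifiedAt_baseChangeAlong _ hκloc DQ'.ρ hres') (le_of_eq hkerκ.symm)
  have h1 := length_cotangent_le_of_universal DQ DQ' ψ hψ hψρ lam hlam h𝒟lam κ hκ hκloc
    (by rw [hkerκ]; exact h𝔫lam) (hunr _ κ hκ hκloc hunrκ) (hquot _ κ hκ hκloc)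
  refine h1.trans (add_le_add_right ?_ _)
  rw [hkerκ]
  refine length_cotImage_tameIdeal_le (lam.comp ψ) p hp𝒪 DQ'.ρ b' hdet' v hpv hres' (fun i j => ?_) a ?_ hc
  · exact (RingHom.mem_ker).mp (h𝔫lam (sub_one_mem_tameIdeal p DQ'.ρ b' v i j))
  · rw [trace_matOf]
    show lam (ψ (DQ'.ρ.trace (globFrobAt v))) = a
    rw [← ha]
    congr 1
    have h2 := trace_eq_of_isEquiv hψρ (globFrobAt v)
    rw [trace_baseChangeAlong'] at h2
    exact h2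

end Sigma

end Fermat.Agent.S59lib.RT
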