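/-
S59lib / RT / TrQuot  (helper9) — Project I, block RT on trace rings (JOIN architecture).

Operations on trace rings (`Hub.TrRingG`):
* `TrRingG.retype` : the same ring and representation, seen with another type;
* `TrRingG.quot`   : the quotient by a proper ideal, with the pushed-forward representation.
-/
import Mathlib
import Fermat.Agent.S59lib.Hub.Ctx
import Fermat.Agent.S59lib.RT.GalStep
import Fermat.Agent.TeamA.QuotInst
import Fermat.Agent.S56lib.Dict.CondBaseChange

set_option autoImplicit false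
set_option linter.unusedSectionVars false
set_option linter.style.haveILetI false

noncomputable section

namespace Fermat.Agent.S59lib.RT

open IsLocalRing Fermat.Agent.TeamA Fermat.Agent.TeamA.Rep Fermat.Agent.S43lib.B3
  Fermat.Agent.S59lib.Hub Fermat.Agent.S56lib.Dict

local notation "Qb" => AlgebraicClosure ℚ
local notation "GQ" => (AlgebraicClosure ℚ ≃ₐ[ℚ] AlgebraicClosure ℚ)

variable {𝒪 : Type} [CommRing 𝒪] [IsDomain 𝒪] [IsDiscreteValuationRing 𝒪]
  [IsAdicComplete (maximalIdeal 𝒪) 𝒪] {ρbar : ResidualGaloisRep (ResidueField 𝒪)} {p : ℕ}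
  {𝒟S 𝒟S' : ∀ ⦃A : Type⦄ [CommRing A] [IsLocalRing A] [Algebra 𝒪 A], GaloisRepAdic A → Prop}

/-- the same trace ring, seen with another type -/
def trRetype (R : TrRingG 𝒪 ρbar p 𝒟S) (h : 𝒟S' R.ρ) : TrRingG 𝒪 ρbar p 𝒟S' where
  R := R.R
  residue_surjective := R.residue_surjective
  ρ := R.ρ
  isType := h
  detCyc := R.detCyc
  residual_isEquiv := R.residual_isEquiv
  trace_gen := R.trace_gen

/-- the quotient map as a local homomorphism -/
theorem isLocalHom_mkₐ {S : Type} [CommRing S] [IsLocalRing S] [Algebra 𝒪 S] (I : Ideal S) (hI : I ≠ ⊤) :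
    IsLocalHom ((Ideal.Quotient.mkₐ 𝒪 I : S →ₐ[𝒪] S ⧸ I) : S →+* S ⧸ I) :=
  isLocalHom_quotient_mk I hI

/-- **the quotient of a trace ring by a proper ideal** -/
def trQuot (R : TrRingG 𝒪 ρbar p 𝒟S) (I : Ideal R.R) (hI : I ≠ ⊤)
    (h : haveI := isLocalRing_quotient I hI
      𝒟S' (R.ρ.baseChangeAlong ((Ideal.Quotient.mkₐ 𝒪 I : R.R →ₐ[𝒪] R.R ⧸ I) : R.R →+* R.R ⧸ I)
        (isLocalHom_mkₐ I hI))) : TrRingG 𝒪 ρbar p 𝒟S' :=
  haveI := isLocalRing_quotient I hI
  { R := R.R ⧸ I
    instIsLocalRing := isLocalRing_quotient I hI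
    instIsAdicComplete := isAdicComplete_quotient I hI
    instIsLocalHom := isLocalHom_algebraMap_quotient I hI
    residue_surjective := residue_algebraMap_quotient_surjective I hI R.residue_surjective
    ρ := R.ρ.baseChangeAlong ((Ideal.Quotient.mkₐ 𝒪 I : R.R →ₐ[𝒪] R.R ⧸ I) : R.R →+* R.R ⧸ I)
      (isLocalHom_mkₐ I hI)
    isType := h
    detCyc := detIsCyclotomic_baseChangeAlong _ _ _ R.detCyc
    residual_isEquiv := by
      haveI := isLocalHom_algebraMap_quotient (𝒪 := 𝒪) I hI
      exact residual_isEquiv_baseChangeAlong (Ideal.Quotient.mkₐ 𝒪 I) (isLocalHom_mkₐ I hI) R.ρ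
        R.residual_isEquiv
    trace_gen := by
      intro A _ _ φ φ' hφ
      have h1 : φ.comp (Ideal.Quotient.mkₐ 𝒪 I) = φ'.comp (Ideal.Quotient.mkₐ 𝒪 I) := by
        refine R.trace_gen A _ _ fun σ => ?_
        have := hφ σ
        rw [trace_baseChangeAlong'] at this
        exact this
      refine AlgHom.ext fun x => ?_
      obtain ⟨y, rfl⟩ := Ideal.Quotient.mk_surjective x
      exact congrArg (fun f => f y) h1 }

end Fermat.Agent.S59lib.RT
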