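/-
S59lib / RT / Sigma  (helper9) — Project I, block RT on trace rings: **the Σ-chain**.

A BASE POINT is `(T₀, ρ₀ : GaloisRepAdic T₀, π₀ : T₀ →ₐ[𝒪] 𝒪)` (in the application: the minimal Hecke ring `T_∅`, its
representation, and the augmentation of the eigenform `f₀`).  A TRACE RING OVER THE BASE POINT is a trace ring
`R : Hub.TrRingG 𝒪 ρbar p 𝒟S`, finite over `𝒪`, with a local `𝒪`-algebra map `μ : R.R → T₀` such that `μ_* R.ρ ≅ ρ₀`.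

* `QuotClosed 𝒟` : the types `𝒟 S'` are stable under surjective base change, and `𝒟 (insert q S')` becomes `𝒟 S'` when
  the pushforward is unramified at `q`;
* `MinOut 𝒟 Smin ρ₀ π₀ c₀` : **(MIN-out)** every trace ring of type `𝒟 Smin` over the base point has
  `length Φ ≤ c₀`;
* **`length_cotangent_le_sigma`** : every trace ring of type `𝒟 (Smin ∪ Σ)` over the base point has
  `length Φ ≤ c₀ + ∑_{q ∈ Σ} length 𝒪/((q − 1)(a_q² − (q + 1)²))`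
  (induction on `Σ`: the quotient by the tame ideal at `q` + N2).
-/
import Mathlib
import Fermat.Agent.S59lib.RT.TrQuot
import Fermat.Agent.S59lib.RT.NumInd
import Fermat.Agent.S59lib.N2.Main

set_option autoImplicit false
set_option linter.unusedSectionVars false
set_option linter.style.haveILetI false

noncomputable section

namespace Fermat.Agent.S59lib.RT

open IsLocalRing Fermat.Agent.TeamA Fermat.Agent.TeamA.Rep Fermat.Agent.S43lib.B3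
  Fermat.Agent.S59lib.Hub Fermat.Agent.S56lib.Dict Fermat.Agent.S59lib.N2

local notation "Qb" => AlgebraicClosure ℚ
local notation "GQ" => (AlgebraicClosure ℚ ≃ₐ[ℚ] AlgebraicClosure ℚ)

variable {𝒪 : Type} [CommRing 𝒪] [IsDomain 𝒪] [IsDiscreteValuationRing 𝒪]
  [IsAdicComplete (maximalIdeal 𝒪) 𝒪] {ρbar : ResidualGaloisRep (ResidueField 𝒪)} {p : ℕ}

/-- a family of deformation types indexed by the ramification sets -/
abbrev TypeFam (𝒪 : Type) [CommRing 𝒪] : Type 1 :=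
  Finset ℕ → ∀ ⦃A : Type⦄ [CommRing A] [IsLocalRing A] [Algebra 𝒪 A], GaloisRepAdic A → Prop

/-- **closure of the types under unramified quotients** -/
def QuotClosed (𝒟 : TypeFam 𝒪) : Prop :=
  ∀ (S' : Finset ℕ) (q : ℕ) {A B : Type} [CommRing A] [IsLocalRing A] [Algebra 𝒪 A] [CommRing B]
    [IsLocalRing B] [Algebra 𝒪 B] (ψ : A →ₐ[𝒪] B) (hψ : IsLocalHom (ψ : A →+* B)),
    Function.Surjective ψ → ∀ ρ : GaloisRepAdic A, 𝒟 (insert q S') ρ →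
      (ρ.baseChangeAlong (ψ : A →+* B) hψ).IsUnramifiedAt q →
      𝒟 S' (ρ.baseChangeAlong (ψ : A →+* B) hψ)

variable {T₀ : Type} [CommRing T₀] [IsLocalRing T₀] [Algebra 𝒪 T₀]

/-- **(MIN-out)**: the cotangent bound for the trace rings of minimal type over the base point -/
def MinOut (ρbar : ResidualGaloisRep (ResidueField 𝒪)) (p : ℕ) (𝒟 : TypeFam 𝒪) (Smin : Finset ℕ)
    (ρ₀ : GaloisRepAdic T₀) (π₀ : T₀ →ₐ[𝒪] 𝒪) (c₀ : ℕ∞) : Prop :=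
  ∀ (R₀ : TrRingG 𝒪 ρbar p (𝒟 Smin)) [Module.Finite 𝒪 R₀.R] (μ : R₀.R →ₐ[𝒪] T₀)
    (hμ : IsLocalHom (μ : R₀.R →+* T₀)),
    (R₀.ρ.baseChangeAlong (μ : R₀.R →+* T₀) hμ).IsEquiv ρ₀ →
    Module.length 𝒪 (RingHom.ker ((π₀.comp μ : R₀.R →ₐ[𝒪] 𝒪) : R₀.R →+* 𝒪)).Cotangent ≤ c₀

/-- the constant `(q − 1)(a_q² − (q + 1)²)` -/
def cTame (a : ℕ → 𝒪) (q : ℕ) : 𝒪 := ((q : 𝒪) - 1) * (a q ^ 2 - ((q : 𝒪) + 1) ^ 2)

/-- an `𝒪`-algebra map to `𝒪` from a local ring is a local homomorphism -/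
theorem isLocalHom_aug {S : Type} [CommRing S] [IsLocalRing S] [Algebra 𝒪 S] (π : S →ₐ[𝒪] 𝒪) :
    IsLocalHom (π : S →+* 𝒪) :=
  IsLocalHom.of_surjective _ (fun o => ⟨algebraMap 𝒪 S o, by simp⟩)

theorem natCast_mem_maximalIdeal_of_algebra {S : Type} [CommRing S] [IsLocalRing S] [Algebra 𝒪 S]
    [IsLocalHom (algebraMap 𝒪 S)] (hp𝒪 : (p : 𝒪) ∈ maximalIdeal 𝒪) : (p : S) ∈ maximalIdeal S := by
  have h1 : (p : S) = algebraMap 𝒪 S (p : 𝒪) := (map_natCast _ p).symm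
  rw [h1]
  exact map_nonunit (algebraMap 𝒪 S) _ hp𝒪

section Step

variable [hpf : Fact p.Prime] {𝒟S : ∀ ⦃A : Type⦄ [CommRing A] [IsLocalRing A] [Algebra 𝒪 A], GaloisRepAdic A → Prop}

/-- **one step of the Σ-chain**: the quotient of a trace ring over the base point by the tame ideal at `q`. -/
theorem exists_tame_quotient (hp𝒪 : (p : 𝒪) ∈ maximalIdeal 𝒪) (𝒟 : TypeFam 𝒪) (hquot : QuotClosed 𝒟)
    (ρ₀ : GaloisRepAdic T₀) (π₀ : T₀ →ₐ[𝒪] 𝒪) (S' : Finset ℕ) (v : Nat.Primes) (hpv : p ≠ (v : ℕ))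
    (hρbar : ρbar.IsUnramifiedAt (v : ℕ)) (hρ₀ : ρ₀.IsUnramifiedAt (v : ℕ))
    (a : 𝒪) (ha : π₀ (ρ₀.trace (globFrobAt v)) = a)
    (hc : (((v : ℕ) : 𝒪) - 1) * (a ^ 2 - (((v : ℕ) : 𝒪) + 1) ^ 2) ≠ 0)
    (R : TrRingG 𝒪 ρbar p 𝒟S) [Module.Finite 𝒪 R.R] (hty : 𝒟 (insert (v : ℕ) S') R.ρ)
    (μ : R.R →ₐ[𝒪] T₀) (hμ : IsLocalHom (μ : R.R →+* T₀))
    (hμρ : (R.ρ.baseChangeAlong (μ : R.R →+* T₀) hμ).IsEquiv ρ₀) :
    ∃ (R' : TrRingG 𝒪 ρbar p (𝒟 S')) (_ : Module.Finite 𝒪 R'.R) (μ' : R'.R →ₐ[𝒪] T₀)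
      (hμ' : IsLocalHom (μ' : R'.R →+* T₀)),
      (R'.ρ.baseChangeAlong (μ' : R'.R →+* T₀) hμ').IsEquiv ρ₀ ∧
      Module.length 𝒪 (RingHom.ker ((π₀.comp μ : R.R →ₐ[𝒪] 𝒪) : R.R →+* 𝒪)).Cotangent ≤
        Module.length 𝒪 (RingHom.ker ((π₀.comp μ' : R'.R →ₐ[𝒪] 𝒪) : R'.R →+* 𝒪)).Cotangent +
          Module.length 𝒪
            (𝒪 ⧸ Ideal.span {(((v : ℕ) : 𝒪) - 1) * (a ^ 2 - (((v : ℕ) : 𝒪) + 1) ^ 2)}) := by
  obtain ⟨b⟩ := exists_basis_adic R.ρ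
  set π : R.R →ₐ[𝒪] 𝒪 := π₀.comp μ with hπ
  have hπloc : IsLocalHom (π : R.R →+* 𝒪) := isLocalHom_aug π
  have hπ₀loc : IsLocalHom (π₀ : T₀ →+* 𝒪) := isLocalHom_aug π₀
  -- `π_* ρ` is unramified at `v`
  have hur₀ : (R.ρ.baseChangeAlong (π : R.R →+* 𝒪) hπloc).IsUnramifiedAt (v : ℕ) := by
    have h1 : (R.ρ.baseChangeAlong (π : R.R →+* 𝒪) hπloc).IsEquiv
        ((R.ρ.baseChangeAlong (μ : R.R →+* T₀) hμ).baseChangeAlong (π₀ : T₀ →+* 𝒪) hπ₀loc) :=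
      IsEquiv.symm' (baseChangeAlong_comp_isEquiv R.ρ (μ : R.R →+* T₀) hμ (π₀ : T₀ →+* 𝒪) hπ₀loc hπloc)
    exact isUnramifiedAt_of_isEquiv (IsEquiv.trans' h1 (IsEquiv.bc hμρ _ hπ₀loc))
      (isUnramifiedAt_baseChangeAlong _ hπ₀loc ρ₀ hρ₀)
  -- the tame ideal
  set I := tameIdeal R.ρ b v p with hI
  have hIπ : I ≤ RingHom.ker (π : R.R →+* 𝒪) :=
    tameIdeal_le_ker_of_isUnramifiedAt p R.ρ b v _ hπloc hur₀
  have hIμ : I ≤ RingHom.ker (μ : R.R →+* T₀) :=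
    tameIdeal_le_ker_of_isUnramifiedAt p R.ρ b v _ hμ (isUnramifiedAt_of_isEquiv hμρ hρ₀)
  have hItop : I ≠ ⊤ := by
    intro h
    have h1 : (1 : R.R) ∈ RingHom.ker (π : R.R →+* 𝒪) := hIπ (h ▸ Submodule.mem_top)
    rw [RingHom.mem_ker, map_one] at h1
    exact one_ne_zero h1
  haveI hlocQ : IsLocalRing (R.R ⧸ I) := isLocalRing_quotient I hItop
  haveI : IsLocalHom (algebraMap 𝒪 (R.R ⧸ I)) := isLocalHom_algebraMap_quotient I hItop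
  haveI hcQ : IsAdicComplete (maximalIdeal (R.R ⧸ I)) (R.R ⧸ I) := isAdicComplete_quotient I hItop
  haveI : IsHausdorff (maximalIdeal (R.R ⧸ I)) (R.R ⧸ I) := hcQ.toIsHausdorff
  haveI : IsHausdorff (maximalIdeal R.R) R.R := R.instIsAdicComplete.toIsHausdorff
  set κ : R.R →ₐ[𝒪] R.R ⧸ I := Ideal.Quotient.mkₐ 𝒪 I with hκ
  have hκloc : IsLocalHom (κ : R.R →+* R.R ⧸ I) := isLocalHom_mkₐ I hItop
  have hκsurj : Function.Surjective κ := Ideal.Quotient.mkₐ_surjective 𝒪 I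
  -- residual unramifiedness
  have hresR : R.ρ.residual.IsUnramifiedAt (v : ℕ) :=
    res_isUnramifiedAt_of_isEquiv_bc _ _ ρbar R.residual_isEquiv hρbar
  have hresQ : (R.ρ.baseChangeAlong (κ : R.R →+* R.R ⧸ I) hκloc).residual.IsUnramifiedAt (v : ℕ) :=
    res_isUnramifiedAt_of_isEquiv_bc _ _ ρbar
      (residual_isEquiv_baseChangeAlong κ hκloc R.ρ R.residual_isEquiv) hρbar
  -- the quotient is unramified at `v`
  have hunrQ : (R.ρ.baseChangeAlong (κ : R.R →+* R.R ⧸ I) hκloc).IsUnramifiedAt (v : ℕ) := by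
    refine isUnramifiedAt_of_tameIdeal_le_ker p (natCast_mem_maximalIdeal_of_algebra hp𝒪) R.ρ b v hpv
      (κ : R.R →+* R.R ⧸ I) hκloc hresQ ?_
    intro x hx
    rw [RingHom.mem_ker]
    exact Ideal.Quotient.eq_zero_iff_mem.mpr hx
  have htyQ : 𝒟 S' (R.ρ.baseChangeAlong (κ : R.R →+* R.R ⧸ I) hκloc) :=
    hquot S' (v : ℕ) κ hκloc hκsurj R.ρ hty hunrQ
  -- the quotient trace ring
  let R' : TrRingG 𝒪 ρbar p (𝒟 S') := trQuot R I hItop htyQ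
  have hfin : Module.Finite 𝒪 R'.R :=
    Module.Finite.of_surjective κ.toLinearMap hκsurj
  -- the induced map to `T₀`
  let μ' : R'.R →ₐ[𝒪] T₀ := Ideal.Quotient.liftₐ I μ (fun x hx => hIμ hx)
  have hμ'κ : ∀ x, μ' (κ x) = μ x := fun x => rfl
  have hμ'loc : IsLocalHom (μ' : R'.R →+* T₀) := by
    constructor
    intro x hx
    obtain ⟨y, rfl⟩ := hκsurj x
    have h1 : IsUnit (μ y) := hx
    exact (hμ.map_nonunit y h1).map κ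
  have hcomploc : IsLocalHom ((μ' : R'.R →+* T₀).comp (κ : R.R →+* R.R ⧸ I)) :=
    isLocalHom_comp' _ _ hκloc hμ'loc
  have hμ'ρ : (R'.ρ.baseChangeAlong (μ' : R'.R →+* T₀) hμ'loc).IsEquiv ρ₀ := by
    have h1 := baseChangeAlong_comp_isEquiv R.ρ (κ : R.R →+* R.R ⧸ I) hκloc (μ' : R'.R →+* T₀) hμ'loc
      hcomploc
    have h2 : (μ' : R'.R →+* T₀).comp (κ : R.R →+* R.R ⧸ I) = (μ : R.R →+* T₀) :=
      RingHom.ext fun x => hμ'κ x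
    exact IsEquiv.trans' (IsEquiv.trans' h1 (isEquiv_baseChangeAlong_congr R.ρ h2 hcomploc hμ)) hμρ
  refine ⟨R', hfin, μ', hμ'loc, hμ'ρ, ?_⟩
  -- N2
  have hπ'' : (π₀.comp μ').comp κ = π := AlgHom.ext fun x => rfl
  have haπ : π (R.ρ.trace (globFrobAt v)) = a := by
    show π₀ (μ (R.ρ.trace (globFrobAt v))) = a
    have h1 : μ (R.ρ.trace (globFrobAt v)) =
        (R.ρ.baseChangeAlong (μ : R.R →+* T₀) hμ).trace (globFrobAt v) :=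
      (trace_baseChangeAlong' (μ : R.R →+* T₀) hμ R.ρ (globFrobAt v)).symm
    rw [h1, trace_eq_of_isEquiv hμρ, ha]
  refine length_cotangent_le_of_isUnramifiedAt π p hp𝒪 R.ρ b R.detCyc v hpv hresR hπloc hur₀ a haπ hc
    (π₀.comp μ') κ hκsurj hπ'' ?_
  intro x hx
  have : (Ideal.Quotient.mk I) x = 0 := hx
  exact Ideal.Quotient.eq_zero_iff_mem.mp this

end Step

/-! ### The chain -/

section Chain

variable [hpf : Fact p.Prime]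

/-- the hypotheses at one prime `q` of `Σ` -/
structure SigmaOK (ρbar : ResidualGaloisRep (ResidueField 𝒪)) (p : ℕ) (ρ₀ : GaloisRepAdic T₀)
    (π₀ : T₀ →ₐ[𝒪] 𝒪) (a : ℕ → 𝒪) (q : ℕ) : Prop where
  prime : q.Prime
  ne : p ≠ q
  resUnr : ρbar.IsUnramifiedAt q
  unr : ρ₀.IsUnramifiedAt q
  trace : ∀ hq : q.Prime, π₀ (ρ₀.trace (globFrobAt ⟨q, hq⟩)) = a q
  ne_zero : cTame a q ≠ 0

/-- **the Σ-chain**: the cotangent bound for the trace rings of type `𝒟 (Smin ∪ Σ)` over the base point. -/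
theorem length_cotangent_le_sigma (hp𝒪 : (p : 𝒪) ∈ maximalIdeal 𝒪) (𝒟 : TypeFam 𝒪)
    (hquot : QuotClosed 𝒟) (ρ₀ : GaloisRepAdic T₀) (π₀ : T₀ →ₐ[𝒪] 𝒪) (Smin : Finset ℕ) (c₀ : ℕ∞)
    (hmin : MinOut ρbar p 𝒟 Smin ρ₀ π₀ c₀) (a : ℕ → 𝒪) :
    ∀ (Sg : Finset ℕ), (∀ q ∈ Sg, SigmaOK ρbar p ρ₀ π₀ a q) →
      ∀ {𝒟S : ∀ ⦃A : Type⦄ [CommRing A] [IsLocalRing A] [Algebra 𝒪 A], GaloisRepAdic A → Prop}
        (R : TrRingG 𝒪 ρbar p 𝒟S) [Module.Finite 𝒪 R.R] (_ : 𝒟 (Smin ∪ Sg) R.ρ)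
        (μ : R.R →ₐ[𝒪] T₀) (hμ : IsLocalHom (μ : R.R →+* T₀)),
        (R.ρ.baseChangeAlong (μ : R.R →+* T₀) hμ).IsEquiv ρ₀ →
        Module.length 𝒪 (RingHom.ker ((π₀.comp μ : R.R →ₐ[𝒪] 𝒪) : R.R →+* 𝒪)).Cotangent ≤
          c₀ + ∑ q ∈ Sg, Module.length 𝒪 (𝒪 ⧸ Ideal.span {cTame a q}) := by
  classical
  intro Sg
  induction Sg using Finset.induction_on with
  | empty =>
    intro _ 𝒟S R hfin hty μ hμ hμρ
    rw [Finset.union_empty] at hty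
    rw [Finset.sum_empty, add_zero]
    exact @hmin (trRetype R hty) hfin μ hμ hμρ
  | insert q Sg hqS ih =>
    intro h 𝒟S R hfin hty μ hμ hμρ
    have hq := h q (Finset.mem_insert_self q Sg)
    have hty' : 𝒟 (insert q (Smin ∪ Sg)) R.ρ := by rwa [Finset.union_insert] at hty
    obtain ⟨R', hfin', μ', hμ', hμ'ρ, hle⟩ :=
      exists_tame_quotient hp𝒪 𝒟 hquot ρ₀ π₀ (Smin ∪ Sg) ⟨q, hq.prime⟩ hq.ne hq.resUnr hq.unr (a q)
        (hq.trace _) hq.ne_zero R hty' μ hμ hμρ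
    have h2 := @ih (fun q' hq' => h q' (Finset.mem_insert_of_mem hq')) _ R' hfin' R'.isType μ' hμ' hμ'ρ
    rw [Finset.sum_insert hqS]
    refine hle.trans ((add_le_add h2 le_rfl).trans (le_of_eq ?_))
    unfold cTame
    ring

/-- the bound of the Σ-chain is finite -/
theorem sigma_bound_ne_top {c₀ : ℕ∞} (hc₀ : c₀ ≠ ⊤) (a : ℕ → 𝒪) (Sg : Finset ℕ)
    (h : ∀ q ∈ Sg, cTame a q ≠ 0) :
    c₀ + ∑ q ∈ Sg, Module.length 𝒪 (𝒪 ⧸ Ideal.span {cTame a q}) ≠ ⊤ := by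
  classical
  refine WithTop.add_ne_top.mpr ⟨hc₀, ?_⟩
  induction Sg using Finset.induction_on with
  | empty => rw [Finset.sum_empty]; exact ENat.zero_ne_top
  | insert q s hq ih =>
    rw [Finset.sum_insert hq]
    exact WithTop.add_ne_top.mpr
      ⟨NumCrit.length_quotient_span_singleton_ne_top (h q (Finset.mem_insert_self q s)),
        ih fun q' hq' => h q' (Finset.mem_insert_of_mem hq')⟩

/-- **Σ(R₁)**: a trace ring of type `𝒟 (Smin ∪ Σ)` over the base point surjecting onto `T_Σ`, with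
(MIN-out) at the bottom and (HS-Σ) at the top, is isomorphic to `T_Σ`, and `T_Σ` is a complete intersection. -/
theorem bijective_of_sigma (hp𝒪 : (p : 𝒪) ∈ maximalIdeal 𝒪) (𝒟 : TypeFam 𝒪)
    (hquot : QuotClosed 𝒟) (ρ₀ : GaloisRepAdic T₀) (π₀ : T₀ →ₐ[𝒪] 𝒪) (Smin : Finset ℕ) (c₀ : ℕ∞)
    (hc₀ : c₀ ≠ ⊤) (hmin : MinOut ρbar p 𝒟 Smin ρ₀ π₀ c₀) (a : ℕ → 𝒪) (Sg : Finset ℕ)
    (hSg : ∀ q ∈ Sg, SigmaOK ρbar p ρ₀ π₀ a q)
    {𝒟S : ∀ ⦃A : Type⦄ [CommRing A] [IsLocalRing A] [Algebra 𝒪 A], GaloisRepAdic A → Prop}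
    (R : TrRingG 𝒪 ρbar p 𝒟S) [Module.Finite 𝒪 R.R] (hty : 𝒟 (Smin ∪ Sg) R.ρ)
    (μ : R.R →ₐ[𝒪] T₀) (hμ : IsLocalHom (μ : R.R →+* T₀))
    (hμρ : (R.ρ.baseChangeAlong (μ : R.R →+* T₀) hμ).IsEquiv ρ₀)
    {TS : Type} [CommRing TS] [IsLocalRing TS] [Algebra 𝒪 TS] [Module.Finite 𝒪 TS]
    [Module.IsTorsionFree 𝒪 TS] (φ : R.R →ₐ[𝒪] TS) (hφ : Function.Surjective φ) (πS : TS →ₐ[𝒪] 𝒪)
    (hπ : πS.comp φ = π₀.comp μ) {ϖ : 𝒪} (hϖ : Irreducible ϖ)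
    (hHS : c₀ + ∑ q ∈ Sg, Module.length 𝒪 (𝒪 ⧸ Ideal.span {cTame a q}) ≤
      Module.length 𝒪 (𝒪 ⧸ NumCrit.congIdeal πS)) :
    Function.Bijective φ ∧ NumCrit.IsCI 𝒪 TS ∧
      Module.length 𝒪 (RingHom.ker ((πS.comp φ : R.R →ₐ[𝒪] 𝒪) : R.R →+* 𝒪)).Cotangent =
        Module.length 𝒪 (𝒪 ⧸ NumCrit.congIdeal πS) := by
  have hle := length_cotangent_le_sigma hp𝒪 𝒟 hquot ρ₀ π₀ Smin c₀ hmin a Sg hSg R hty μ hμ hμρ
  rw [← hπ] at hle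
  have hfin : Module.length 𝒪 (RingHom.ker ((πS.comp φ : R.R →ₐ[𝒪] 𝒪) : R.R →+* 𝒪)).Cotangent ≠ ⊤ :=
    ne_top_of_le_ne_top (sigma_bound_ne_top hc₀ a Sg fun q hq => (hSg q hq).ne_zero) hle
  obtain ⟨hinj, hCI, -, hR, -⟩ := NumCrit.numCrit_ring φ hφ πS hϖ hfin (hle.trans hHS)
  exact ⟨⟨hinj, hφ⟩, hCI, hR⟩

end Chain

end Fermat.Agent.S59lib.RT
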