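/-
S59lib / RT / Aug  (helper9) — Project I, block RT on trace rings: **the Σ-chain for augmented trace rings**, via JOINS.

`HasJoins ρbar p 𝒟S` : two finite trace rings of type `𝒟S` have a JOIN (a finite trace ring of type `𝒟S` surjecting onto
both, compatibly with the representations) — the output of the bricks JOIN-core/JOIN-flat/JOIN-strict.

With joins, a trace ring does not need a map to the base ring `T₀`: an AUGMENTATION `lam : R.R →ₐ[𝒪] 𝒪` with the traces of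
the base point (`lam (tr ρ_R σ) = π₀ (tr ρ₀ σ)`) is enough — replace `R` by `join(R, T₀)`.

* `length_cotangent_le_sigma_aug` : `length Φ_lam ≤ c₀ + ∑_{q ∈ Σ} length 𝒪/(c_q)` for every augmented trace ring of type
  `𝒟 (Smin ∪ Σ)` with the traces of the base point;
* `exists_point_of_sigma` : **the R = T theorem at `Σ` and its consequence**: if `T_Σ` (a trace ring of type
  `𝒟 (Smin ∪ Σ)`, finite and torsion free over `𝒪`, with an augmentation `π_Σ` having the traces of the base point)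
  satisfies (HS-Σ), then EVERY representation `ρ_W` over `𝒪` of type `𝒟 (Smin ∪ Σ)` with residual representation `ρbar`
  is a point of `T_Σ`: there is `χ : T_Σ →ₐ[𝒪] 𝒪` with `χ (tr ρ_Σ σ) = tr ρ_W σ`.
-/
import Mathlib
import Fermat.Agent.S59lib.RT.Sigma

set_option autoImplicit false
set_option linter.unusedSectionVars false
set_option linter.style.haveILetI false

noncomputable section

namespace Fermat.Agent.S59lib.RT

open IsLocalRing Fermat.Agent.TeamA Fermat.Agent.TeamA.Rep Fermat.Agent.S43lib.B3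
  Fermat.Agent.S59lib.Hub Fermat.Agent.S56lib.Dict Fermat.Agent.S59lib.N2

local notation "Qb" => AlgebraicClosure ℚ
local notation "GQ" => (AlgebraicClosure ℚ ≃ₐ[ℚ] AlgebraicClosure ℚ)

variable {𝒪 : Type} [CommRing 𝒪] [IsDomain 𝒪] [IsDiscreteValuationRing 𝒪]
  [IsAdicComplete (maximalIdeal 𝒪) 𝒪] {ρbar : ResidualGaloisRep (ResidueField 𝒪)} {p : ℕ}

/-- **joins exist** for the finite trace rings of type `𝒟S` -/
def HasJoins (ρbar : ResidualGaloisRep (ResidueField 𝒪)) (p : ℕ)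
    (𝒟S : ∀ ⦃A : Type⦄ [CommRing A] [IsLocalRing A] [Algebra 𝒪 A], GaloisRepAdic A → Prop) : Prop :=
  ∀ (A B : TrRingG 𝒪 ρbar p 𝒟S) [Module.Finite 𝒪 A.R] [Module.Finite 𝒪 B.R],
    ∃ (J : TrRingG 𝒪 ρbar p 𝒟S) (_ : Module.Finite 𝒪 J.R) (prA : J.R →ₐ[𝒪] A.R)
      (prB : J.R →ₐ[𝒪] B.R) (hA : IsLocalHom (prA : J.R →+* A.R))
      (hB : IsLocalHom (prB : J.R →+* B.R)),
      Function.Surjective prA ∧ Function.Surjective prB ∧
      (J.ρ.baseChangeAlong (prA : J.R →+* A.R) hA).IsEquiv A.ρ ∧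
      (J.ρ.baseChangeAlong (prB : J.R →+* B.R) hB).IsEquiv B.ρ

/-- the image of a trace under a map compatible with the representations -/
theorem map_trace_of_isEquiv {R S : Type} [CommRing R] [IsLocalRing R] [CommRing S] [IsLocalRing S]
    (ρ : GaloisRepAdic R) (ρ' : GaloisRepAdic S) (f : R →+* S) (hf : IsLocalHom f)
    (h : (ρ.baseChangeAlong f hf).IsEquiv ρ') (σ : GQ) : f (ρ.trace σ) = ρ'.trace σ := by
  rw [← trace_baseChangeAlong' f hf ρ σ, trace_eq_of_isEquiv h]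

section

variable [hpf : Fact p.Prime]

/-- **the Σ-chain for augmented trace rings** -/
theorem length_cotangent_le_sigma_aug (hp𝒪 : (p : 𝒪) ∈ maximalIdeal 𝒪) (𝒟 : TypeFam 𝒪)
    (hquot : QuotClosed 𝒟) (Smin Sg : Finset ℕ) (B₀ : TrRingG 𝒪 ρbar p (𝒟 Smin))
    [Module.Finite 𝒪 B₀.R] (hmono : 𝒟 (Smin ∪ Sg) B₀.ρ) (π₀ : B₀.R →ₐ[𝒪] 𝒪) (c₀ : ℕ∞)
    (hmin : MinOut ρbar p 𝒟 Smin B₀.ρ π₀ c₀) (a : ℕ → 𝒪)
    (hSg : ∀ q ∈ Sg, SigmaOK ρbar p B₀.ρ π₀ a q)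
    (hjoin : HasJoins ρbar p (𝒟 (Smin ∪ Sg)))
    (R : TrRingG 𝒪 ρbar p (𝒟 (Smin ∪ Sg))) [Module.Finite 𝒪 R.R] (lam : R.R →ₐ[𝒪] 𝒪)
    (hlam : ∀ σ : GQ, lam (R.ρ.trace σ) = π₀ (B₀.ρ.trace σ)) :
    Module.length 𝒪 (RingHom.ker (lam : R.R →+* 𝒪)).Cotangent ≤
      c₀ + ∑ q ∈ Sg, Module.length 𝒪 (𝒪 ⧸ Ideal.span {cTame a q}) := by
  let B₀' : TrRingG 𝒪 ρbar p (𝒟 (Smin ∪ Sg)) := trRetype B₀ hmono
  haveI : Module.Finite 𝒪 B₀'.R := ‹Module.Finite 𝒪 B₀.R›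
  obtain ⟨J, hJfin, prA, prB, hA, hB, hsA, -, hEA, hEB⟩ := hjoin R B₀'
  have h1 := length_cotangent_le_sigma hp𝒪 𝒟 hquot B₀.ρ π₀ Smin c₀ hmin a Sg hSg J J.isType prB hB hEB
  have h2 : π₀.comp prB = lam.comp prA := by
    refine J.trace_gen 𝒪 _ _ fun σ => ?_
    show π₀ (prB (J.ρ.trace σ)) = lam (prA (J.ρ.trace σ))
    have e1 : prB (J.ρ.trace σ) = B₀.ρ.trace σ :=
      map_trace_of_isEquiv J.ρ B₀'.ρ (prB : J.R →+* B₀'.R) hB hEB σ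
    have e2 : prA (J.ρ.trace σ) = R.ρ.trace σ :=
      map_trace_of_isEquiv J.ρ R.ρ (prA : J.R →+* R.R) hA hEA σ
    rw [e1, e2, hlam]
  rw [h2] at h1
  exact (length_cotangent_le_of_surjective (lam.comp prA) lam prA hsA rfl).trans h1

end

/-- a representation over `𝒪` as a trace ring -/
def trOfPoint {𝒟S : ∀ ⦃A : Type⦄ [CommRing A] [IsLocalRing A] [Algebra 𝒪 A], GaloisRepAdic A → Prop}
    (ρ : GaloisRepAdic 𝒪) (hty : 𝒟S ρ) (hdet : ρ.DetIsCyclotomic p)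
    (hres : ρ.residual.IsEquiv (ρbar.baseChangeAlong (ResidueField.map (algebraMap 𝒪 𝒪)))) :
    TrRingG 𝒪 ρbar p 𝒟S where
  R := 𝒪
  instIsLocalHom := ⟨fun _ h => h⟩
  residue_surjective := IsLocalRing.residue_surjective
  ρ := ρ
  isType := hty
  detCyc := hdet
  residual_isEquiv := hres
  trace_gen := fun A _ _ φ φ' _ => AlgHom.ext fun x => by
    have h1 : x = algebraMap 𝒪 𝒪 x := rfl
    rw [h1, φ.commutes, φ'.commutes]

section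

variable [hpf : Fact p.Prime]

/-- **R = T at `Σ`, and every representation of type `𝒟 (Smin ∪ Σ)` (any trace ring `W` with an augmentation `ε`) is a
point of `T_Σ`.** -/
theorem exists_point_of_sigma (hp𝒪 : (p : 𝒪) ∈ maximalIdeal 𝒪) (𝒟 : TypeFam 𝒪)
    (hquot : QuotClosed 𝒟) (Smin Sg : Finset ℕ) (B₀ : TrRingG 𝒪 ρbar p (𝒟 Smin))
    [Module.Finite 𝒪 B₀.R] (hmono : 𝒟 (Smin ∪ Sg) B₀.ρ) (π₀ : B₀.R →ₐ[𝒪] 𝒪) (c₀ : ℕ∞)
    (hc₀ : c₀ ≠ ⊤) (hmin : MinOut ρbar p 𝒟 Smin B₀.ρ π₀ c₀) (a : ℕ → 𝒪)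
    (hSg : ∀ q ∈ Sg, SigmaOK ρbar p B₀.ρ π₀ a q)
    (hjoin : HasJoins ρbar p (𝒟 (Smin ∪ Sg)))
    (TS : TrRingG 𝒪 ρbar p (𝒟 (Smin ∪ Sg))) [Module.Finite 𝒪 TS.R] [Module.IsTorsionFree 𝒪 TS.R]
    (πS : TS.R →ₐ[𝒪] 𝒪) (hπS : ∀ σ : GQ, πS (TS.ρ.trace σ) = π₀ (B₀.ρ.trace σ))
    {ϖ : 𝒪} (hϖ : Irreducible ϖ)
    (hHS : c₀ + ∑ q ∈ Sg, Module.length 𝒪 (𝒪 ⧸ Ideal.span {cTame a q}) ≤
      Module.length 𝒪 (𝒪 ⧸ NumCrit.congIdeal πS))
    (W : TrRingG 𝒪 ρbar p (𝒟 (Smin ∪ Sg))) [Module.Finite 𝒪 W.R] (ε : W.R →ₐ[𝒪] 𝒪) :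
    ∃ χ : TS.R →ₐ[𝒪] 𝒪, ∀ σ : GQ, χ (TS.ρ.trace σ) = ε (W.ρ.trace σ) := by
  obtain ⟨J, hJfin, prA, prB, hA, hB, hsA, -, hEA, hEB⟩ := hjoin TS W
  have e1 : ∀ σ, prA (J.ρ.trace σ) = TS.ρ.trace σ :=
    map_trace_of_isEquiv J.ρ TS.ρ (prA : J.R →+* TS.R) hA hEA
  have e2 : ∀ σ, prB (J.ρ.trace σ) = W.ρ.trace σ :=
    map_trace_of_isEquiv J.ρ W.ρ (prB : J.R →+* W.R) hB hEB
  have hle := length_cotangent_le_sigma_aug hp𝒪 𝒟 hquot Smin Sg B₀ hmono π₀ c₀ hmin a hSg hjoin J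
    (πS.comp prA) (fun σ => by
      show πS (prA (J.ρ.trace σ)) = _
      rw [e1, hπS])
  have hfin : Module.length 𝒪 (RingHom.ker ((πS.comp prA : J.R →ₐ[𝒪] 𝒪) : J.R →+* 𝒪)).Cotangent ≠ ⊤ :=
    ne_top_of_le_ne_top (sigma_bound_ne_top hc₀ a Sg fun q hq => (hSg q hq).ne_zero) hle
  obtain ⟨hinj, -⟩ := NumCrit.numCrit_ring prA hsA πS hϖ hfin (hle.trans hHS)
  let e : J.R ≃ₐ[𝒪] TS.R := AlgEquiv.ofBijective prA ⟨hinj, hsA⟩
  refine ⟨(ε.comp prB).comp (e.symm : TS.R →ₐ[𝒪] J.R), fun σ => ?_⟩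
  show ε (prB (e.symm (TS.ρ.trace σ))) = _
  have h3 : e.symm (TS.ρ.trace σ) = J.ρ.trace σ := by
    rw [AlgEquiv.symm_apply_eq]
    exact (e1 σ).symm
  rw [h3, e2]

end

end Fermat.Agent.S59lib.RT
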