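/-
S59lib / RT / Iface  (helper9) — Project I, block RT on trace rings: **the consumer interface** of the abstract wiring
(for the final assembly of `RTBlock`).

Data: a family of types `𝒟 : TypeFam 𝒪` closed under unramified quotients; the minimal Hecke trace ring `B₀` (type
`𝒟 Smin`, finite over `𝒪`) with a point `π₀ : B₀.R →ₐ[𝒪] 𝒪` (the base eigenform `f₀`); `Σ = Sg`, a finite set of primes
`q ≠ p` at which `ρ̄` and `ρ_{B₀}` are unramified; the Hecke trace ring `TS` of type `𝒟 (Smin ∪ Σ)` (finite, torsion free)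
with a point `πS` with the traces of the base point.  `baseTr B₀ π₀ q = π₀ (tr ρ_{B₀} (Frob_q)) = a_q(f₀)`.

* `exists_char_of_sigma` : (MIN-out) + F1 (for `π₀` and `πS`) + (HS-Σ)
    `length 𝒪/η_{π₀} + ∑_{q ∈ Σ} length 𝒪/((q − 1)(a_q(f₀)² − (q + 1)²)) ≤ length 𝒪/η_{πS}`
  ⟹ EVERY representation `ρ_W` over `𝒪` of type `𝒟 (Smin ∪ Σ)` lifting `ρ̄` is a point of `TS`:
  `∃ χ : TS.R →ₐ[𝒪] 𝒪, ∀ σ, χ (tr ρ_TS σ) = tr ρ_W σ`.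
  (`c_q ≠ 0` is NOT a hypothesis: if `c_q = 0` the left side of (HS-Σ) is `⊤`, contradicting F1 for `πS`.)
* `exists_char_of_pStep` : the same at the ordinary level (`W` multiplicative at `p`, `p ∤ N`), with `T'` of the ordinary
  type `𝒟o`, the unit root `α` (`UnitRootAt`) and (HS-p)
    `length 𝒪/(α² − 1) + (length 𝒪/η_{π₀} + ∑_{q ∈ Σ} …) ≤ length 𝒪/η_{π'}`.
-/
import Mathlib
import Fermat.Agent.S59lib.RT.PStep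

set_option autoImplicit false
set_option linter.unusedSectionVars false
set_option linter.style.haveILetI false

noncomputable section

namespace Fermat.Agent.S59lib.RT

open IsLocalRing Fermat.Agent.S59lib.Hub Fermat.Agent.S19lib Fermat.Agent.S43lib.B3

local notation "Qb" => AlgebraicClosure ℚ
local notation "GQ" => (AlgebraicClosure ℚ ≃ₐ[ℚ] AlgebraicClosure ℚ)

variable {𝒪 : Type} [CommRing 𝒪] [IsDomain 𝒪] [IsDiscreteValuationRing 𝒪]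
  [IsAdicComplete (maximalIdeal 𝒪) 𝒪] {ρbar : ResidualGaloisRep (ResidueField 𝒪)} {p : ℕ}

/-- the length of `𝒪` is infinite -/
theorem length_self_eq_top : Module.length 𝒪 𝒪 = ⊤ := by
  by_contra h
  rw [← Ne, Module.length_ne_top_iff, isFiniteLength_iff_isNoetherian_isArtinian] at h
  haveI : IsArtinianRing 𝒪 := h.2
  exact IsDiscreteValuationRing.not_isField 𝒪 (IsArtinianRing.isField_of_isDomain 𝒪)

/-- the length of `𝒪 ⧸ (0)` is infinite -/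
theorem length_quotient_span_zero_eq_top :
    Module.length 𝒪 (𝒪 ⧸ Ideal.span {(0 : 𝒪)}) = ⊤ := by
  have e : (𝒪 ⧸ Ideal.span {(0 : 𝒪)}) ≃ₗ[𝒪] 𝒪 := by
    rw [Ideal.span_singleton_zero]
    exact Submodule.quotEquivOfEqBot ⊥ rfl
  rw [e.length_eq, length_self_eq_top]

/-- a finite sum of lengths with an infinite term is infinite -/
theorem sum_eq_top_of_mem {ι : Type*} {s : Finset ι} {f : ι → ℕ∞} {i : ι} (hi : i ∈ s)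
    (h : f i = ⊤) : ∑ j ∈ s, f j = ⊤ := by
  have := Finset.single_le_sum (f := f) (fun j _ => zero_le) hi
  rw [h] at this
  exact top_le_iff.mp this

/-- the Frobenius traces of the base point: `a_q(f₀)` -/
def baseTr {𝒟S : ∀ ⦃A : Type⦄ [CommRing A] [IsLocalRing A] [Algebra 𝒪 A], GaloisRepAdic A → Prop}
    (B₀ : TrRingG 𝒪 ρbar p 𝒟S) (π₀ : B₀.R →ₐ[𝒪] 𝒪) (q : ℕ) : 𝒪 :=
  if hq : q.Prime then π₀ (B₀.ρ.trace (globFrobAt ⟨q, hq⟩)) else 0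

/-- the hypotheses on the primes of `Σ`, without the non-vanishing of the constants -/
def SigmaPrimes {𝒟S : ∀ ⦃A : Type⦄ [CommRing A] [IsLocalRing A] [Algebra 𝒪 A], GaloisRepAdic A → Prop}
    (B₀ : TrRingG 𝒪 ρbar p 𝒟S) (Sg : Finset ℕ) : Prop :=
  ∀ q ∈ Sg, q.Prime ∧ p ≠ q ∧ ρbar.IsUnramifiedAt q ∧ B₀.ρ.IsUnramifiedAt q

/-- **the constants of the Σ-chain do not vanish**, because the bound of (HS-Σ) is finite -/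
theorem sigmaOK_of_le {𝒟S : ∀ ⦃A : Type⦄ [CommRing A] [IsLocalRing A] [Algebra 𝒪 A], GaloisRepAdic A → Prop}
    (B₀ : TrRingG 𝒪 ρbar p 𝒟S) (π₀ : B₀.R →ₐ[𝒪] 𝒪) (Sg : Finset ℕ) (hSg : SigmaPrimes B₀ Sg)
    {c₀ c : ℕ∞} (hc : c ≠ ⊤)
    (hle : c₀ + ∑ q ∈ Sg, Module.length 𝒪 (𝒪 ⧸ Ideal.span {cTame (baseTr B₀ π₀) q}) ≤ c) :
    ∀ q ∈ Sg, SigmaOK ρbar p B₀.ρ π₀ (baseTr B₀ π₀) q := by
  intro q hq
  obtain ⟨hqp, hne, hres, hunr⟩ := hSg q hq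
  refine ⟨hqp, hne, hres, hunr, fun hq' => ?_, fun h0 => hc ?_⟩
  · unfold baseTr
    rw [dif_pos hq']
  · have h1 : ∑ q ∈ Sg, Module.length 𝒪 (𝒪 ⧸ Ideal.span {cTame (baseTr B₀ π₀) q}) = ⊤ :=
      sum_eq_top_of_mem hq (by rw [h0]; exact length_quotient_span_zero_eq_top)
    rw [h1, add_top] at hle
    exact top_le_iff.mp hle

section

variable [hpf : Fact p.Prime]

/-- **RT, flat / strict modes: every representation over `𝒪` of type `𝒟 (Smin ∪ Σ)` lifting `ρ̄` is a point of `T_Σ`.** -/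
theorem exists_char_of_sigma (hp𝒪 : (p : 𝒪) ∈ maximalIdeal 𝒪) (𝒟 : TypeFam 𝒪)
    (hquot : QuotClosed 𝒟) (Smin Sg : Finset ℕ) (B₀ : TrRingG 𝒪 ρbar p (𝒟 Smin))
    [Module.Finite 𝒪 B₀.R] (hmono : 𝒟 (Smin ∪ Sg) B₀.ρ) (π₀ : B₀.R →ₐ[𝒪] 𝒪)
    (hF1₀ : Module.length 𝒪 (𝒪 ⧸ NumCrit.congIdeal π₀) ≠ ⊤)
    (hmin : MinOut ρbar p 𝒟 Smin B₀.ρ π₀ (Module.length 𝒪 (𝒪 ⧸ NumCrit.congIdeal π₀)))
    (hSg : SigmaPrimes B₀ Sg) (hjoin : HasJoins ρbar p (𝒟 (Smin ∪ Sg)))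
    (TS : TrRingG 𝒪 ρbar p (𝒟 (Smin ∪ Sg))) [Module.Finite 𝒪 TS.R] [Module.IsTorsionFree 𝒪 TS.R]
    (πS : TS.R →ₐ[𝒪] 𝒪) (hπS : ∀ σ : GQ, πS (TS.ρ.trace σ) = π₀ (B₀.ρ.trace σ))
    (hF1 : Module.length 𝒪 (𝒪 ⧸ NumCrit.congIdeal πS) ≠ ⊤)
    (hHS : Module.length 𝒪 (𝒪 ⧸ NumCrit.congIdeal π₀) +
        ∑ q ∈ Sg, Module.length 𝒪 (𝒪 ⧸ Ideal.span {cTame (baseTr B₀ π₀) q}) ≤
      Module.length 𝒪 (𝒪 ⧸ NumCrit.congIdeal πS))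
    (ρW : GaloisRepAdic 𝒪) (hty : 𝒟 (Smin ∪ Sg) ρW) (hdet : ρW.DetIsCyclotomic p)
    (hres : ρW.residual.IsEquiv (ρbar.baseChangeAlong (ResidueField.map (algebraMap 𝒪 𝒪)))) :
    ∃ χ : TS.R →ₐ[𝒪] 𝒪, ∀ σ : GQ, χ (TS.ρ.trace σ) = ρW.trace σ := by
  obtain ⟨ϖ, hϖ⟩ := IsDiscreteValuationRing.exists_irreducible 𝒪
  have hOK := sigmaOK_of_le B₀ π₀ Sg hSg hF1 hHS
  let W : TrRingG 𝒪 ρbar p (𝒟 (Smin ∪ Sg)) := trOfPoint ρW hty hdet hres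
  haveI : Module.Finite 𝒪 W.R := Module.Finite.self 𝒪
  obtain ⟨χ, hχ⟩ := exists_point_of_sigma hp𝒪 𝒟 hquot Smin Sg B₀ hmono π₀ _ hF1₀ hmin
    (baseTr B₀ π₀) hOK hjoin TS πS hπS hϖ hHS W (AlgHom.id 𝒪 𝒪)
  exact ⟨χ, fun σ => hχ σ⟩

end

section PStep

variable [Finite (ResidueField 𝒪)] [hpf : Fact p.Prime]

/-- **RT, the step at `p`: every representation over `𝒪` of the ordinary type `𝒟o` lifting `ρ̄` is a point of `T'`.** -/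
theorem exists_char_of_pStep (hp𝒪 : (p : 𝒪) ∈ maximalIdeal 𝒪) (𝒟 : TypeFam 𝒪)
    (hquot : QuotClosed 𝒟) (Smin Sg : Finset ℕ) (B₀ : TrRingG 𝒪 ρbar p (𝒟 Smin))
    [Module.Finite 𝒪 B₀.R] (hmono : 𝒟 (Smin ∪ Sg) B₀.ρ) (π₀ : B₀.R →ₐ[𝒪] 𝒪)
    (hF1₀ : Module.length 𝒪 (𝒪 ⧸ NumCrit.congIdeal π₀) ≠ ⊤)
    (hmin : MinOut ρbar p 𝒟 Smin B₀.ρ π₀ (Module.length 𝒪 (𝒪 ⧸ NumCrit.congIdeal π₀)))
    (hSg : SigmaPrimes B₀ Sg) (hjoin : HasJoins ρbar p (𝒟 (Smin ∪ Sg)))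
    {𝒟o : ∀ ⦃A : Type⦄ [CommRing A] [IsLocalRing A] [Algebra 𝒪 A], GaloisRepAdic A → Prop}
    (hwild : WildClosed p 𝒟o (𝒟 (Smin ∪ Sg))) (hjoinO : HasJoins ρbar p 𝒟o)
    (α : 𝒪) (hroot : UnitRootAt ρbar p 𝒟o (fun σ => π₀ (B₀.ρ.trace σ)) α)
    (T' : TrRingG 𝒪 ρbar p 𝒟o) [Module.Finite 𝒪 T'.R] [Module.IsTorsionFree 𝒪 T'.R]
    (π' : T'.R →ₐ[𝒪] 𝒪) (hπ' : ∀ σ : GQ, π' (T'.ρ.trace σ) = π₀ (B₀.ρ.trace σ))
    (hF1 : Module.length 𝒪 (𝒪 ⧸ NumCrit.congIdeal π') ≠ ⊤)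
    (hHS : Module.length 𝒪 (𝒪 ⧸ Ideal.span {α ^ 2 - 1}) +
        (Module.length 𝒪 (𝒪 ⧸ NumCrit.congIdeal π₀) +
          ∑ q ∈ Sg, Module.length 𝒪 (𝒪 ⧸ Ideal.span {cTame (baseTr B₀ π₀) q})) ≤
      Module.length 𝒪 (𝒪 ⧸ NumCrit.congIdeal π'))
    (ρW : GaloisRepAdic 𝒪) (hty : 𝒟o ρW) (hdet : ρW.DetIsCyclotomic p)
    (hres : ρW.residual.IsEquiv (ρbar.baseChangeAlong (ResidueField.map (algebraMap 𝒪 𝒪)))) :
    ∃ χ : T'.R →ₐ[𝒪] 𝒪, ∀ σ : GQ, χ (T'.ρ.trace σ) = ρW.trace σ := by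
  obtain ⟨ϖ, hϖ⟩ := IsDiscreteValuationRing.exists_irreducible 𝒪
  have hle2 : Module.length 𝒪 (𝒪 ⧸ NumCrit.congIdeal π₀) +
      ∑ q ∈ Sg, Module.length 𝒪 (𝒪 ⧸ Ideal.span {cTame (baseTr B₀ π₀) q}) ≤
        Module.length 𝒪 (𝒪 ⧸ NumCrit.congIdeal π') := le_trans le_add_self hHS
  have hOK := sigmaOK_of_le B₀ π₀ Sg hSg hF1 hle2
  have hα : α ^ 2 ≠ 1 := by
    intro h1
    apply hF1
    have h0 : α ^ 2 - 1 = 0 := by rw [h1, sub_self]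
    rw [h0, length_quotient_span_zero_eq_top, top_add] at hHS
    exact top_le_iff.mp hHS
  let W : TrRingG 𝒪 ρbar p 𝒟o := trOfPoint ρW hty hdet hres
  haveI : Module.Finite 𝒪 W.R := Module.Finite.self 𝒪
  obtain ⟨χ, hχ⟩ := exists_point_of_pStep hp𝒪 𝒟 hquot Smin Sg B₀ hmono π₀ _ hF1₀ hmin
    (baseTr B₀ π₀) hOK hjoin hwild hjoinO α hα hroot T' π' hπ' hϖ hHS W (AlgHom.id 𝒪 𝒪)
  exact ⟨χ, fun σ => hχ σ⟩

end PStep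

end Fermat.Agent.S59lib.RT
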