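/-
S59lib / RT / GalStepP  (helper9) — Project I, block RT: **the Galois side of PSTEP** for universal deformation rings.

`DQ` universal for the FLAT type `𝒟` (ring `R`), `DQ'` universal for the ORDINARY type `𝒟'` (ring `R'`),
`ψ : R' → R` the classifying map of `DQ.ρ` (the consumer proves that the universal flat deformation is ordinary),
`lam` a point of `DQ`, `b` an ordinary basis of `DQ'.ρ` at a place `A ∣ p`, `φ ∈ D_A`, `u := lam (ψ (z φ))` the scalar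
by which `φ` acts on the unramified quotient at the point.  If `u² ≠ 1`:

  `length Φ_{lam ∘ ψ} ≤ length Φ_lam + length 𝒪/(u² − 1)`.

(The wild element `m` of `R3/Main`: `(z(φ)² − 1) m = 0`, and `DQ'.ρ ⊗ R'/(m)` is flat.)
-/
import Mathlib
import Fermat.Agent.S59lib.RT.GalStep
import Fermat.Agent.S59lib.R3.Cot
import Fermat.Agent.S59lib.R3.Strict

set_option autoImplicit false
set_option linter.unusedSectionVars false
set_option linter.style.haveILetI false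

noncomputable section

namespace Fermat.Agent.S59lib.RT

open IsLocalRing Fermat.Agent.TeamA Fermat.Agent.TeamA.Rep Fermat.Agent.S43lib.B3 GaloisRep
  Fermat.Agent.S59lib.N2 Fermat.Agent.S59lib.R3 Fermat.Agent.S19lib Fermat.Agent.S56lib.Dict
open scoped TensorProduct

local notation "Qb" => AlgebraicClosure ℚ
local notation "GQ" => (AlgebraicClosure ℚ ≃ₐ[ℚ] AlgebraicClosure ℚ)

/-! ### Flat levels of a quotient -/

section FlatLevel

variable {A B : Type} [CommRing A] [IsLocalRing A] [CommRing B] [IsLocalRing B]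

/-- a flat level of `ρ` at the preimage of `I'` gives a flat level of the base change at `I'`
(the level-wise content of `S56lib.Dict.isFlatAt_baseChangeAlong_of_surjective`) -/
theorem flatLevel_baseChangeAlong_of_surjective (φ : A →+* B) (hφ : IsLocalHom φ)
    (hsurj : Function.Surjective φ) (ρ : GaloisRepAdic A) {p : ℕ} (I' : Ideal B)
    (h : Fermat.Agent.S32lib.FlatLevel p ρ (I'.comap φ)) :
    Fermat.Agent.S32lib.FlatLevel p (ρ.baseChangeAlong φ hφ) I' := by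
  letI : Algebra A B := φ.toAlgebra
  haveI := hφ
  let I : Ideal A := I'.comap φ
  obtain ⟨H, i1, i2, hf, hfl, hco, e, hadd, hequiv⟩ := h
  let b : Module.Basis (Fin 2) A ρ.V := Module.finBasisOfFinrankEq A ρ.V ρ.finrank_eq
  let b' : Module.Basis (Fin 2) B (B ⊗[A] ρ.V) := Algebra.TensorProduct.basis B b
  have hle : (I • ⊤ : Submodule A ρ.V) ≤
      (I' • ⊤ : Submodule B (B ⊗[A] ρ.V)).comap (tmulOne φ ρ.V) := by
    rw [Submodule.smul_le]
    intro a ha v _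
    rw [Submodule.mem_comap, map_smulₛₗ]
    exact Submodule.smul_mem_smul ha Submodule.mem_top
  let Ψ : (ρ.V ⧸ (I • ⊤ : Submodule A ρ.V)) →ₛₗ[φ]
      ((B ⊗[A] ρ.V) ⧸ (I' • ⊤ : Submodule B (B ⊗[A] ρ.V))) :=
    Submodule.mapQ _ _ (tmulOne φ ρ.V) hle
  have hΨmk : ∀ v : ρ.V, Ψ (Submodule.Quotient.mk v) = Submodule.Quotient.mk (tmulOne φ ρ.V v) :=
    fun v => rfl
  have hinj : Function.Injective Ψ := by
    rw [injective_iff_map_eq_zero]
    intro x hx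
    obtain ⟨v, rfl⟩ := Submodule.Quotient.mk_surjective _ x
    rw [hΨmk, Submodule.Quotient.mk_eq_zero] at hx
    rw [Submodule.Quotient.mk_eq_zero]
    have hcoord : ∀ i, b.repr v i ∈ I := by
      intro i
      have h1 := Fermat.Agent.TeamA.Rep.repr_mem_of_mem_smul_top b' I' hx i
      rw [tmulOne_apply, Algebra.TensorProduct.basis_repr_tmul, one_smul,
        Finsupp.mapRange_apply] at h1
      exact h1
    rw [← b.sum_repr v]
    exact Submodule.sum_mem _ fun i _ => Submodule.smul_mem_smul (hcoord i) Submodule.mem_top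
  have hsur : Function.Surjective Ψ := by
    intro y
    obtain ⟨w, rfl⟩ := Submodule.Quotient.mk_surjective _ y
    obtain ⟨v, rfl⟩ := tmulOne_surjective φ hsurj ρ.V w
    exact ⟨Submodule.Quotient.mk v, hΨmk v⟩
  have hΨequiv : ∀ (σ : GQ) (x : ρ.V ⧸ (I • ⊤ : Submodule A ρ.V)),
      Ψ (ρ.levelAction I σ x) = (ρ.baseChangeAlong φ hφ).levelAction I' σ (Ψ x) := by
    intro σ x
    obtain ⟨v, rfl⟩ := Submodule.Quotient.mk_surjective _ x
    change Ψ (Submodule.Quotient.mk (ρ.ρ σ v)) =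
      Submodule.Quotient.mk ((ρ.ρ σ).baseChange B ((1 : B) ⊗ₜ[A] v))
    rw [hΨmk, tmulOne_apply, LinearMap.baseChange_tmul]
  refine ⟨H, i1, i2, hf, hfl, hco, e.trans (Equiv.ofBijective Ψ ⟨hinj, hsur⟩), ?_, ?_⟩
  · intro f g
    change Ψ (e (f * g)) = Ψ (e f) + Ψ (e g)
    rw [hadd, map_add]
  · intro σ f g hfg
    change Ψ (e g) = (ρ.baseChangeAlong φ hφ).levelAction I' σ (Ψ (e f))
    rw [hequiv σ f g hfg, hΨequiv]

/-- a quotient of `ρ` all of whose finite levels are flat is flat -/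
theorem isFlatAt_baseChangeAlong_of_levels (φ : A →+* B) (hφ : IsLocalHom φ)
    (hsurj : Function.Surjective φ) (ρ : GaloisRepAdic A) {p : ℕ} (hfin : Finite (ResidueField A))
    (h : ∀ I : Ideal A, RingHom.ker φ ≤ I → Finite (A ⧸ I) → Fermat.Agent.S32lib.FlatLevel p ρ I) :
    (ρ.baseChangeAlong φ hφ).IsFlatAt p := by
  haveI := hφ
  refine ⟨?_, fun I' hI' => ?_⟩
  · haveI := hfin
    refine Finite.of_surjective (ResidueField.map φ) fun y => ?_
    obtain ⟨β, rfl⟩ := residue_surjective y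
    obtain ⟨a, rfl⟩ := hsurj β
    exact ⟨residue A a, ResidueField.map_residue φ a⟩
  · haveI : Finite (A ⧸ I'.comap φ) :=
      Finite.of_injective (Ideal.quotientMap I' φ le_rfl) (Ideal.quotientMap_injective' le_rfl)
    exact flatLevel_baseChangeAlong_of_surjective φ hφ hsurj ρ I'
      (h _ (fun x hx => by
        rw [Ideal.mem_comap, (RingHom.mem_ker).mp hx]; exact I'.zero_mem) inferInstance)

end FlatLevel

/-! ### PSTEP, Galois side -/

section PStep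

variable {𝒪 : Type} [CommRing 𝒪] [IsDomain 𝒪] [IsDiscreteValuationRing 𝒪]
  [IsAdicComplete (maximalIdeal 𝒪) 𝒪] [Finite (ResidueField 𝒪)]
  {ρbar : ResidualGaloisRep (ResidueField 𝒪)}
  {𝒟 𝒟' : ∀ ⦃A : Type⦄ [CommRing A] [IsLocalRing A] [Algebra 𝒪 A], GaloisRepAdic A → Prop}

/-- the residue field of a deformation ring is finite -/
theorem finite_residueField_of_surjective {R : Type} [CommRing R] [IsLocalRing R] [Algebra 𝒪 R]
    [IsLocalHom (algebraMap 𝒪 R)] (h : Function.Surjective (residue R ∘ algebraMap 𝒪 R)) :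
    Finite (ResidueField R) := by
  refine Finite.of_surjective (ResidueField.map (algebraMap 𝒪 R)) fun y => ?_
  obtain ⟨o, ho⟩ := h y
  exact ⟨residue 𝒪 o, by rw [ResidueField.map_residue]; exact ho⟩

/-- **PSTEP, Galois side.** -/
theorem length_cotangent_le_pStep (p : ℕ) [hp : Fact p.Prime]
    (DQ : DeformationRingData 𝒪 ρbar 𝒟) (DQ' : DeformationRingData 𝒪 ρbar 𝒟')
    (ψ : DQ'.R →ₐ[𝒪] DQ.R) (hψ : IsLocalHom (ψ : DQ'.R →+* DQ.R))
    (hψρ : (DQ'.ρ.baseChangeAlong (ψ : DQ'.R →+* DQ.R) hψ).IsEquiv DQ.ρ)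
    (hquot : ∀ (R'' : Type) [CommRing R''] [IsLocalRing R''] [Algebra 𝒪 R'']
      (κ : DQ'.R →ₐ[𝒪] R'') (_ : Function.Surjective κ) (hκloc : IsLocalHom (κ : DQ'.R →+* R'')),
      𝒟' (DQ'.ρ.baseChangeAlong (κ : DQ'.R →+* R'') hκloc))
    (hflat : ∀ (R'' : Type) [CommRing R''] [IsLocalRing R''] [Algebra 𝒪 R'']
      (κ : DQ'.R →ₐ[𝒪] R'') (_ : Function.Surjective κ) (hκloc : IsLocalHom (κ : DQ'.R →+* R'')),
      (DQ'.ρ.baseChangeAlong (κ : DQ'.R →+* R'') hκloc).IsFlatAt p →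
      𝒟 (DQ'.ρ.baseChangeAlong (κ : DQ'.R →+* R'') hκloc))
    (lam : DQ.R →ₐ[𝒪] 𝒪) (hlam : IsLocalHom (lam : DQ.R →+* 𝒪))
    (h𝒟lam : 𝒟 (DQ.ρ.baseChangeAlong (lam : DQ.R →+* 𝒪) hlam))
    {A : ValuationSubring Qb} (hA : A.LiesOverPrime p)
    {b : Module.Basis (Fin 2) DQ'.R DQ'.ρ.V} (hb : OrdBasis A p DQ'.ρ b)
    {φ : GQ} (hφ : φ ∈ DA A)
    (hu : lam (ψ (matOf DQ'.ρ b φ 1 1)) ^ 2 ≠ 1) :
    Module.length 𝒪 (RingHom.ker ((lam.comp ψ : DQ'.R →ₐ[𝒪] 𝒪) : DQ'.R →+* 𝒪)).Cotangent ≤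
      Module.length 𝒪 (RingHom.ker (lam : DQ.R →+* 𝒪)).Cotangent +
        Module.length 𝒪 (𝒪 ⧸ Ideal.span {lam (ψ (matOf DQ'.ρ b φ 1 1)) ^ 2 - 1}) := by
  haveI : Finite (ResidueField DQ'.R) := finite_residueField_of_surjective DQ'.residue_surjective
  obtain ⟨m, hrel, hfl⟩ := hb.exists_wildElt hA
  set z := matOf DQ'.ρ b φ 1 1 with hz
  have hzb : DQ'.ρ.ρ φ (b 1) - z • b 1 ∈ Submodule.span DQ'.R {b 0} := by
    rw [apply_basis_eq DQ'.ρ b φ 1, add_sub_cancel_right]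
    exact Submodule.smul_mem _ _ (Submodule.mem_span_singleton_self _)
  have hrelz : (z ^ 2 - 1) * m = 0 := hrel φ hφ z hzb
  have hu' : (lam.comp ψ) z ^ 2 ≠ 1 := hu
  have hm0 : (lam.comp ψ) m = 0 := pi_eq_zero_of_rel (lam.comp ψ) hrelz hu'
  set 𝔫 : Ideal DQ'.R := Ideal.span {m} with h𝔫
  have h𝔫lam : 𝔫 ≤ RingHom.ker ((lam.comp ψ : DQ'.R →ₐ[𝒪] 𝒪) : DQ'.R →+* 𝒪) := by
    rw [h𝔫, Ideal.span_le]
    intro x hx
    rw [Set.mem_singleton_iff.mp hx]
    exact hm0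
  have h𝔫top : 𝔫 ≠ ⊤ := fun h => (RingHom.ker_ne_top _) (top_le_iff.mp (h ▸ h𝔫lam))
  letI := isLocalRing_quotient 𝔫 h𝔫top
  haveI := isAdicComplete_quotient 𝔫 h𝔫top
  haveI := isLocalHom_algebraMap_quotient (𝒪 := 𝒪) 𝔫 h𝔫top
  let κ : DQ'.R →ₐ[𝒪] (DQ'.R ⧸ 𝔫) := Ideal.Quotient.mkₐ 𝒪 𝔫
  have hκ : Function.Surjective κ := Ideal.Quotient.mkₐ_surjective 𝒪 𝔫
  have hκloc : IsLocalHom (κ : DQ'.R →+* DQ'.R ⧸ 𝔫) := isLocalHom_quotient_mk 𝔫 h𝔫top
  have hkerκ : RingHom.ker (κ : DQ'.R →+* DQ'.R ⧸ 𝔫) = 𝔫 := Ideal.Quotient.mkₐ_ker 𝒪 𝔫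
  have hflatκ : (DQ'.ρ.baseChangeAlong (κ : DQ'.R →+* DQ'.R ⧸ 𝔫) hκloc).IsFlatAt p := by
    refine isFlatAt_baseChangeAlong_of_levels _ hκloc hκ DQ'.ρ inferInstance fun I hI hfin => ?_
    refine hfl I (hI ?_) hfin
    rw [hkerκ]
    exact Ideal.subset_span (Set.mem_singleton m)
  have h1 := length_cotangent_le_of_universal DQ DQ' ψ hψ hψρ lam hlam h𝒟lam κ hκ hκloc
    (by rw [hkerκ]; exact h𝔫lam) (hflat _ κ hκ hκloc hflatκ) (hquot _ κ hκ hκloc)
  refine h1.trans (add_le_add_right ?_ _)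
  rw [hkerκ]
  exact length_cotImage_wild (lam.comp ψ) hrelz hu'

end PStep

end Fermat.Agent.S59lib.RT
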