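/-
S59lib / RT / Joins  (helper9) — Project I, block RT on trace rings: **joins exist** (`RT.HasJoins`) for the strict
ordinary and the flat types of S56 (`S56lib.Main.𝒟so`, `𝒟fl`).

Glue of the three bricks
* JOIN-core   (helper4, `Join/TrRing` : `joinTr`, `JoinPkg.toTrRingG`),
* JOIN-flat   (helper6, `Join/Flat`   : `isFlatAt_of_pair_isEquiv`),
* JOIN-strict (helper9, `RT/Fam/Main` : `𝒟so_of_family`, `𝒟fl_of_family`).
-/
import Mathlib
import Fermat.Agent.S59lib.RT.Aug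
import Fermat.Agent.S59lib.RT.GalStepP
import Fermat.Agent.S59lib.RT.Fam.Main
import Fermat.Agent.S59lib.Join.TrRing
import Fermat.Agent.S59lib.Join.Flat

set_option autoImplicit false
set_option linter.unusedSectionVars false
set_option linter.style.haveILetI false

noncomputable section

namespace Fermat.Agent.S59lib.RT

open IsLocalRing Polynomial Fermat.Agent.S59lib.Hub Fermat.Agent.S56lib.Dict Fermat.Agent.S56lib.Main
  Fermat.Agent.S59lib.Join

local notation "GQ" => (AlgebraicClosure ℚ ≃ₐ[ℚ] AlgebraicClosure ℚ)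

section Transport

variable {𝒪 : Type} [CommRing 𝒪] {A : Type} [CommRing A] [IsLocalRing A] [Algebra 𝒪 A]
  {ρ₁ ρ₂ : GaloisRepAdic A}

/-- the strict ordinary type of S56 is invariant under equivalence -/
theorem 𝒟so_of_isEquiv {p : ℕ} {Smin S : Finset ℕ} (h : ρ₁.IsEquiv ρ₂) (h1 : 𝒟so 𝒪 p Smin S ρ₁) :
    𝒟so 𝒪 p Smin S ρ₂ := by
  obtain ⟨e⟩ := h
  obtain ⟨⟨hdet, hso, hur⟩, hunip⟩ := h1
  exact ⟨⟨detIsCyclotomic_of_equiv e hdet, isStrictOrdinaryAt_of_equiv e hso,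
    fun q hq hqS => isUnramifiedAt_of_equiv e (hur q hq hqS)⟩,
    fun q hq hqp hqne => isUnipotentOnInertiaAt_of_equiv e (hunip q hq hqp hqne)⟩

/-- the flat type of S56 is invariant under equivalence -/
theorem 𝒟fl_of_isEquiv {p : ℕ} {Smin S : Finset ℕ} (h : ρ₁.IsEquiv ρ₂) (h1 : 𝒟fl 𝒪 p Smin S ρ₁) :
    𝒟fl 𝒪 p Smin S ρ₂ := by
  obtain ⟨e⟩ := h
  obtain ⟨⟨hdet, hfl, hur⟩, hunip⟩ := h1
  exact ⟨⟨detIsCyclotomic_of_equiv e hdet, isFlatAt_of_equiv e hfl,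
    fun q hq hqS => isUnramifiedAt_of_equiv e (hur q hq hqS)⟩,
    fun q hq hqp hqne => isUnipotentOnInertiaAt_of_equiv e (hunip q hq hqp hqne)⟩

/-- the strict ordinary type is monotone in the ramification set -/
theorem 𝒟so_mono {p : ℕ} {Smin S S' : Finset ℕ} (hS : S ⊆ S') {ρ : GaloisRepAdic A}
    (h : 𝒟so 𝒪 p Smin S ρ) : 𝒟so 𝒪 p Smin S' ρ :=
  ⟨⟨h.1.1, h.1.2.1, fun q hq hqS => h.1.2.2 q hq fun hq' => hqS (hS hq')⟩, h.2⟩

/-- the flat type is monotone in the ramification set -/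
theorem 𝒟fl_mono {p : ℕ} {Smin S S' : Finset ℕ} (hS : S ⊆ S') {ρ : GaloisRepAdic A}
    (h : 𝒟fl 𝒪 p Smin S ρ) : 𝒟fl 𝒪 p Smin S' ρ :=
  ⟨⟨h.1.1, h.1.2.1, fun q hq hqS => h.1.2.2 q hq fun hq' => hqS (hS hq')⟩, h.2⟩

/-- a representation of strict ordinary type `S` is unramified outside `S` -/
theorem isUnramifiedAt_of_𝒟so {p : ℕ} {Smin S : Finset ℕ} {ρ : GaloisRepAdic A}
    (h : 𝒟so 𝒪 p Smin S ρ) {q : ℕ} (hq : q.Prime) (hqS : q ∉ S) : ρ.IsUnramifiedAt q :=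
  h.1.2.2 q hq hqS

/-- a representation of flat type `S` is unramified outside `S` -/
theorem isUnramifiedAt_of_𝒟fl {p : ℕ} {Smin S : Finset ℕ} {ρ : GaloisRepAdic A}
    (h : 𝒟fl 𝒪 p Smin S ρ) {q : ℕ} (hq : q.Prime) (hqS : q ∉ S) : ρ.IsUnramifiedAt q :=
  h.1.2.2 q hq hqS

end Transport

variable {𝒪 : Type} [CommRing 𝒪] [IsDomain 𝒪] [IsDiscreteValuationRing 𝒪]
  [IsAdicComplete (maximalIdeal 𝒪) 𝒪] {ρbar : ResidualGaloisRep (ResidueField 𝒪)} {p : ℕ}

/-- **joins exist for the strict ordinary type** -/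
theorem hasJoins_𝒟so [hpf : Fact p.Prime] (hp2 : p ≠ 2) (habs : ρbar.IsAbsolutelyIrreducible)
    (h2 : IsUnit (2 : 𝒪))
    (hs₀ : ∃ (s₀ : GQ) (α β : ResidueField 𝒪), α ≠ β ∧
      LinearMap.charpoly (ρbar.ρ s₀) = (X - C α) * (X - C β))
    (Smin S : Finset ℕ) : HasJoins ρbar p (𝒟so 𝒪 p Smin S) := by
  intro FA FB _ _
  set P := joinTr FA FB habs h2 hs₀ with hP
  have hl : ∀ k, IsLocalHom (pairMap P.prA P.prB k : P.R →+* PairFam FA.R FB.R k) := by
    intro k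
    cases k
    · exact P.prB_local
    · exact P.prA_local
  have hty : 𝒟so 𝒪 p Smin S P.ρ := by
    refine Fam.𝒟so_of_family (A := PairFam FA.R FB.R) (pairMap P.prA P.prB) hl
      (fun t ht => P.joint_injective t (ht true) (ht false)) P.ρ hp2 Smin S ?_
    intro k
    cases k
    · exact 𝒟so_of_isEquiv (IsEquiv.symm' P.isEquivB) FB.isType
    · exact 𝒟so_of_isEquiv (IsEquiv.symm' P.isEquivA) FA.isType
  refine ⟨P.toTrRingG hpf.out.ne_zero FA.detCyc FB.detCyc hty, P.instFinite, P.prA, P.prB,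
    P.prA_local, P.prB_local, joinTr_prA_surjective FA FB habs h2 hs₀,
    joinTr_prB_surjective FA FB habs h2 hs₀, P.isEquivA, P.isEquivB⟩

/-- **joins exist for the flat type** -/
theorem hasJoins_𝒟fl [hpf : Fact p.Prime] [Finite (ResidueField 𝒪)] [CharZero 𝒪]
    (hp𝒪 : (p : 𝒪) ∈ maximalIdeal 𝒪) (habs : ρbar.IsAbsolutelyIrreducible)
    (h2 : IsUnit (2 : 𝒪))
    (hs₀ : ∃ (s₀ : GQ) (α β : ResidueField 𝒪), α ≠ β ∧
      LinearMap.charpoly (ρbar.ρ s₀) = (X - C α) * (X - C β))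
    (Smin S : Finset ℕ) : HasJoins ρbar p (𝒟fl 𝒪 p Smin S) := by
  intro FA FB _ _
  set P := joinTr FA FB habs h2 hs₀ with hP
  have hl : ∀ k, IsLocalHom (pairMap P.prA P.prB k : P.R →+* PairFam FA.R FB.R k) := by
    intro k
    cases k
    · exact P.prB_local
    · exact P.prA_local
  have hpR : (p : P.R) ∈ maximalIdeal P.R := by
    have h := map_nonunit (algebraMap 𝒪 P.R) (p : 𝒪) hp𝒪
    rwa [map_natCast] at h
  have hflat : P.ρ.IsFlatAt p :=
    isFlatAt_of_pair_isEquiv hpf.out hpR (finite_residueField_of_surjective P.residue_surjective) P.ρ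
      P.prA P.prB P.prA_local P.prB_local P.joint_injective
      (finite_quotient_span_natCast_pow_of_dvr (𝒪 := 𝒪) p hpf.out.ne_zero)
      (finite_quotient_span_natCast_pow_of_dvr (𝒪 := 𝒪) p hpf.out.ne_zero)
      FA.ρ FB.ρ P.isEquivA P.isEquivB FA.isType.1.2.1 FB.isType.1.2.1
  have hty : 𝒟fl 𝒪 p Smin S P.ρ := by
    refine Fam.𝒟fl_of_family (A := PairFam FA.R FB.R) (pairMap P.prA P.prB) hl
      (fun t ht => P.joint_injective t (ht true) (ht false)) P.ρ Smin S hflat ?_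
    intro k
    cases k
    · exact 𝒟fl_of_isEquiv (IsEquiv.symm' P.isEquivB) FB.isType
    · exact 𝒟fl_of_isEquiv (IsEquiv.symm' P.isEquivA) FA.isType
  refine ⟨P.toTrRingG hpf.out.ne_zero FA.detCyc FB.detCyc hty, P.instFinite, P.prA, P.prB,
    P.prA_local, P.prB_local, joinTr_prA_surjective FA FB habs h2 hs₀,
    joinTr_prB_surjective FA FB habs h2 hs₀, P.isEquivA, P.isEquivB⟩

end Fermat.Agent.S59lib.RT
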