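/-
S59lib / RT / QuotClosed  (helper9) — Project I, block RT on trace rings: the flat and the strict ordinary types of S56
(`S56lib.Main.𝒟fl`, `𝒟so`) are closed under unramified quotients (`RT.QuotClosed`).
-/
import Mathlib
import Fermat.Agent.S59lib.RT.Sigma
import Fermat.Agent.S56lib.Main.Final

set_option autoImplicit false
set_option linter.unusedSectionVars false
set_option linter.style.haveILetI false

noncomputable section

namespace Fermat.Agent.S59lib.RT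

open IsLocalRing Fermat.Agent.S56lib.Dict Fermat.Agent.S56lib.Main

variable {𝒪 : Type} [CommRing 𝒪] [IsDomain 𝒪] [IsDiscreteValuationRing 𝒪]
  [IsAdicComplete (maximalIdeal 𝒪) 𝒪]

theorem quotClosed_𝒟fl (p : ℕ) (Smin : Finset ℕ) : QuotClosed (𝒪 := 𝒪) (𝒟fl 𝒪 p Smin) := by
  intro S' q A B _ _ _ _ _ _ ψ hψ hsurj ρ hty hunr
  obtain ⟨⟨hdet, hflat, hur⟩, hunip⟩ := hty
  refine ⟨⟨detIsCyclotomic_baseChangeAlong _ hψ ρ hdet,
    isFlatAt_baseChangeAlong_of_surjective _ hψ hsurj ρ hflat, fun r hr hrS => ?_⟩,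
    fun r hr hrp hrne => isUnipotentOnInertiaAt_baseChangeAlong _ hψ ρ (hunip r hr hrp hrne)⟩
  by_cases hrq : r = q
  · rw [hrq]; exact hunr
  · exact isUnramifiedAt_baseChangeAlong _ hψ ρ
      (hur r hr fun h => (Finset.mem_insert.mp h).elim hrq hrS)

theorem quotClosed_𝒟so (p : ℕ) (Smin : Finset ℕ) : QuotClosed (𝒪 := 𝒪) (𝒟so 𝒪 p Smin) := by
  intro S' q A B _ _ _ _ _ _ ψ hψ hsurj ρ hty hunr
  obtain ⟨⟨hdet, hso, hur⟩, hunip⟩ := hty
  refine ⟨⟨detIsCyclotomic_baseChangeAlong _ hψ ρ hdet,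
    isStrictOrdinaryAt_baseChangeAlong _ hψ ρ hso, fun r hr hrS => ?_⟩,
    fun r hr hrp hrne => isUnipotentOnInertiaAt_baseChangeAlong _ hψ ρ (hunip r hr hrp hrne)⟩
  by_cases hrq : r = q
  · rw [hrq]; exact hunr
  · exact isUnramifiedAt_baseChangeAlong _ hψ ρ
      (hur r hr fun h => (Finset.mem_insert.mp h).elim hrq hrS)

end Fermat.Agent.S59lib.RT
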