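/-
S59lib / RT / PStep  (helper9) — Project I, block RT on trace rings: **the step at `p`** (`W` multiplicative at `p`,
`p ∤ N`).

`R₂` a finite trace ring of ORDINARY type `𝒟o` with an augmentation `lam` having the traces of the base point; `b` an
ordinary basis at a place `A ∣ p`, `φ ∈ D_A`, `z = (matOf ρ b φ) 1 1` (the unramified quotient character), `(lam z)² ≠ 1`.
The quotient `R₂ ⧸ (m)` by the wild element `m` of `R3.OrdBasis.exists_wildElt` is a trace ring of FLAT type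
`𝒟 (Smin ∪ Σ)` (`WildClosed`), the augmentation factors through it (`lam m = 0`), the Σ-chain bounds its cotangent space,
and the image of `(m)` in `Φ_{R₂}` is a quotient of `𝒪 ⧸ ((lam z)² − 1)`:

* `length_cotangent_le_pStep_aug` : `length Φ_lam ≤ length 𝒪/((lam z)² − 1) + (c₀ + ∑_{q ∈ Σ} length 𝒪/(c_q))`;
* `exists_point_of_pStep` : **R = T at the ordinary level and its consequence** (with (HS-p)).
-/
import Mathlib
import Fermat.Agent.S59lib.RT.Aug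
import Fermat.Agent.S59lib.RT.GalStepP
import Fermat.Agent.S59lib.R3.Strict

set_option autoImplicit false
set_option linter.unusedSectionVars false
set_option linter.style.haveILetI false

noncomputable section

namespace Fermat.Agent.S59lib.RT

open IsLocalRing Fermat.Agent.TeamA Fermat.Agent.TeamA.Rep Fermat.Agent.S43lib.B3
  Fermat.Agent.S59lib.Hub Fermat.Agent.S56lib.Dict Fermat.Agent.S59lib.N2 Fermat.Agent.S59lib.R3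
  Fermat.Agent.S19lib

local notation "Qb" => AlgebraicClosure ℚ
local notation "GQ" => (AlgebraicClosure ℚ ≃ₐ[ℚ] AlgebraicClosure ℚ)

variable {𝒪 : Type} [CommRing 𝒪] [IsDomain 𝒪] [IsDiscreteValuationRing 𝒪]
  [IsAdicComplete (maximalIdeal 𝒪) 𝒪] [Finite (ResidueField 𝒪)]
  {ρbar : ResidualGaloisRep (ResidueField 𝒪)} {p : ℕ}

/-- **the flat quotients of the ordinary type `𝒟o` are of the flat type `𝒟f`** -/
def WildClosed (p : ℕ)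
    (𝒟o 𝒟f : ∀ ⦃A : Type⦄ [CommRing A] [IsLocalRing A] [Algebra 𝒪 A], GaloisRepAdic A → Prop) : Prop :=
  ∀ {A B : Type} [CommRing A] [IsLocalRing A] [Algebra 𝒪 A] [CommRing B] [IsLocalRing B] [Algebra 𝒪 B]
    (ψ : A →ₐ[𝒪] B) (hψ : IsLocalHom (ψ : A →+* B)), Function.Surjective ψ →
    ∀ ρ : GaloisRepAdic A, 𝒟o ρ → (ρ.baseChangeAlong (ψ : A →+* B) hψ).IsFlatAt p →
      𝒟f (ρ.baseChangeAlong (ψ : A →+* B) hψ)

variable [hpf : Fact p.Prime]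

/-- **the step at `p` for augmented trace rings** -/
theorem length_cotangent_le_pStep_aug (hp𝒪 : (p : 𝒪) ∈ maximalIdeal 𝒪) (𝒟 : TypeFam 𝒪)
    (hquot : QuotClosed 𝒟) (Smin Sg : Finset ℕ) (B₀ : TrRingG 𝒪 ρbar p (𝒟 Smin))
    [Module.Finite 𝒪 B₀.R] (hmono : 𝒟 (Smin ∪ Sg) B₀.ρ) (π₀ : B₀.R →ₐ[𝒪] 𝒪) (c₀ : ℕ∞)
    (hmin : MinOut ρbar p 𝒟 Smin B₀.ρ π₀ c₀) (a : ℕ → 𝒪)
    (hSg : ∀ q ∈ Sg, SigmaOK ρbar p B₀.ρ π₀ a q)
    (hjoin : HasJoins ρbar p (𝒟 (Smin ∪ Sg)))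
    {𝒟o : ∀ ⦃A : Type⦄ [CommRing A] [IsLocalRing A] [Algebra 𝒪 A], GaloisRepAdic A → Prop}
    (hwild : WildClosed p 𝒟o (𝒟 (Smin ∪ Sg)))
    (R₂ : TrRingG 𝒪 ρbar p 𝒟o) [Module.Finite 𝒪 R₂.R]
    {A : ValuationSubring Qb} (hA : A.LiesOverPrime p) {b : Module.Basis (Fin 2) R₂.R R₂.ρ.V}
    (hb : OrdBasis A p R₂.ρ b) {φ : GQ} (hφ : φ ∈ DA A) (lam : R₂.R →ₐ[𝒪] 𝒪)
    (hlam : ∀ σ : GQ, lam (R₂.ρ.trace σ) = π₀ (B₀.ρ.trace σ))
    (hu : lam (matOf R₂.ρ b φ 1 1) ^ 2 ≠ 1) :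
    Module.length 𝒪 (RingHom.ker (lam : R₂.R →+* 𝒪)).Cotangent ≤
      Module.length 𝒪 (𝒪 ⧸ Ideal.span {lam (matOf R₂.ρ b φ 1 1) ^ 2 - 1}) +
        (c₀ + ∑ q ∈ Sg, Module.length 𝒪 (𝒪 ⧸ Ideal.span {cTame a q})) := by
  haveI hfinres : Finite (ResidueField R₂.R) := finite_residueField_of_surjective R₂.residue_surjective
  obtain ⟨m, hrel, hfl⟩ := hb.exists_wildElt hA
  set z := matOf R₂.ρ b φ 1 1 with hz
  have hzmem : R₂.ρ.ρ φ (b 1) - z • b 1 ∈ Submodule.span R₂.R {b 0} := by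
    rw [apply_basis_eq R₂.ρ b φ 1, add_sub_cancel_right]
    exact Submodule.smul_mem _ _ (Submodule.mem_span_singleton_self _)
  have hrel' := hrel φ hφ z hzmem
  have hm0 : lam m = 0 := pi_eq_zero_of_rel lam hrel' hu
  set I : Ideal R₂.R := Ideal.span {m} with hI
  have hIlam : I ≤ RingHom.ker (lam : R₂.R →+* 𝒪) := by
    rw [hI, Ideal.span_singleton_le_iff_mem]
    exact hm0
  have hItop : I ≠ ⊤ := by
    intro h
    have h1 : (1 : R₂.R) ∈ RingHom.ker (lam : R₂.R →+* 𝒪) := hIlam (h ▸ Submodule.mem_top)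
    rw [RingHom.mem_ker, map_one] at h1
    exact one_ne_zero h1
  haveI hlocQ : IsLocalRing (R₂.R ⧸ I) := isLocalRing_quotient I hItop
  haveI : IsLocalHom (algebraMap 𝒪 (R₂.R ⧸ I)) := isLocalHom_algebraMap_quotient I hItop
  set κ : R₂.R →ₐ[𝒪] R₂.R ⧸ I := Ideal.Quotient.mkₐ 𝒪 I with hκ
  have hκloc : IsLocalHom (κ : R₂.R →+* R₂.R ⧸ I) := isLocalHom_mkₐ I hItop
  have hκsurj : Function.Surjective κ := Ideal.Quotient.mkₐ_surjective 𝒪 I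
  have hκm : κ m = 0 := Ideal.Quotient.eq_zero_iff_mem.mpr (Ideal.mem_span_singleton_self m)
  -- the quotient is flat at `p`
  have hflatQ : (R₂.ρ.baseChangeAlong (κ : R₂.R →+* R₂.R ⧸ I) hκloc).IsFlatAt p :=
    isFlatAt_baseChangeAlong_of_levels _ hκloc hκsurj R₂.ρ hfinres
      fun I' hker hI' => hfl I' (hker hκm) hI'
  have htyQ : 𝒟 (Smin ∪ Sg) (R₂.ρ.baseChangeAlong (κ : R₂.R →+* R₂.R ⧸ I) hκloc) :=
    hwild κ hκloc hκsurj R₂.ρ R₂.isType hflatQ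
  let R' : TrRingG 𝒪 ρbar p (𝒟 (Smin ∪ Sg)) := trQuot R₂ I hItop htyQ
  haveI hfin : Module.Finite 𝒪 R'.R := Module.Finite.of_surjective κ.toLinearMap hκsurj
  let lam' : R'.R →ₐ[𝒪] 𝒪 := Ideal.Quotient.liftₐ I lam (fun x hx => hIlam hx)
  have hlam' : ∀ σ : GQ, lam' (R'.ρ.trace σ) = π₀ (B₀.ρ.trace σ) := by
    intro σ
    have h1 : R'.ρ.trace σ = κ (R₂.ρ.trace σ) :=
      trace_baseChangeAlong' (κ : R₂.R →+* R₂.R ⧸ I) hκloc R₂.ρ σ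
    rw [h1]
    exact hlam σ
  have h2 := length_cotangent_le_sigma_aug hp𝒪 𝒟 hquot Smin Sg B₀ hmono π₀ c₀ hmin a hSg hjoin R' lam'
    hlam'
  have hcomp : lam'.comp κ = lam := AlgHom.ext fun x => rfl
  have hker : RingHom.ker (κ : R₂.R →+* R₂.R ⧸ I) ≤ I := by
    intro x hx
    have : (Ideal.Quotient.mk I) x = 0 := hx
    exact Ideal.Quotient.eq_zero_iff_mem.mp this
  refine (length_cotangent_le_add lam lam' κ hκsurj hcomp I hker).trans ?_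
  exact add_le_add (length_cotImage_wild lam hrel' hu) h2

/-- **the unit root hypothesis**: on every finite trace ring of type `𝒟o` with an augmentation `lam` having the traces of
the base point there are an ordinary basis at a place over `p` and an element `φ` of the decomposition group whose
unramified quotient scalar is sent to `α` by `lam`. -/
def UnitRootAt (ρbar : ResidualGaloisRep (ResidueField 𝒪)) (p : ℕ)
    (𝒟o : ∀ ⦃A : Type⦄ [CommRing A] [IsLocalRing A] [Algebra 𝒪 A], GaloisRepAdic A → Prop)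
    (t₀ : GQ → 𝒪) (α : 𝒪) : Prop :=
  ∀ (R₂ : TrRingG 𝒪 ρbar p 𝒟o) [Module.Finite 𝒪 R₂.R] (lam : R₂.R →ₐ[𝒪] 𝒪),
    (∀ σ : GQ, lam (R₂.ρ.trace σ) = t₀ σ) →
    ∃ (A : ValuationSubring Qb) (_ : A.LiesOverPrime p) (b : Module.Basis (Fin 2) R₂.R R₂.ρ.V)
      (_ : OrdBasis A p R₂.ρ b) (φ : GQ) (_ : φ ∈ DA A), lam (matOf R₂.ρ b φ 1 1) = α

/-- **R = T at the ordinary level `N_Σ p`, and every representation of type `𝒟o` is a point of `T'`.** -/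
theorem exists_point_of_pStep (hp𝒪 : (p : 𝒪) ∈ maximalIdeal 𝒪) (𝒟 : TypeFam 𝒪)
    (hquot : QuotClosed 𝒟) (Smin Sg : Finset ℕ) (B₀ : TrRingG 𝒪 ρbar p (𝒟 Smin))
    [Module.Finite 𝒪 B₀.R] (hmono : 𝒟 (Smin ∪ Sg) B₀.ρ) (π₀ : B₀.R →ₐ[𝒪] 𝒪) (c₀ : ℕ∞)
    (hc₀ : c₀ ≠ ⊤) (hmin : MinOut ρbar p 𝒟 Smin B₀.ρ π₀ c₀) (a : ℕ → 𝒪)
    (hSg : ∀ q ∈ Sg, SigmaOK ρbar p B₀.ρ π₀ a q)
    (hjoin : HasJoins ρbar p (𝒟 (Smin ∪ Sg)))
    {𝒟o : ∀ ⦃A : Type⦄ [CommRing A] [IsLocalRing A] [Algebra 𝒪 A], GaloisRepAdic A → Prop}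
    (hwild : WildClosed p 𝒟o (𝒟 (Smin ∪ Sg))) (hjoinO : HasJoins ρbar p 𝒟o)
    (α : 𝒪) (hα : α ^ 2 ≠ 1) (hroot : UnitRootAt ρbar p 𝒟o (fun σ => π₀ (B₀.ρ.trace σ)) α)
    (T' : TrRingG 𝒪 ρbar p 𝒟o) [Module.Finite 𝒪 T'.R] [Module.IsTorsionFree 𝒪 T'.R]
    (π' : T'.R →ₐ[𝒪] 𝒪) (hπ' : ∀ σ : GQ, π' (T'.ρ.trace σ) = π₀ (B₀.ρ.trace σ))
    {ϖ : 𝒪} (hϖ : Irreducible ϖ)
    (hHS : Module.length 𝒪 (𝒪 ⧸ Ideal.span {α ^ 2 - 1}) +
        (c₀ + ∑ q ∈ Sg, Module.length 𝒪 (𝒪 ⧸ Ideal.span {cTame a q})) ≤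
      Module.length 𝒪 (𝒪 ⧸ NumCrit.congIdeal π'))
    (W : TrRingG 𝒪 ρbar p 𝒟o) [Module.Finite 𝒪 W.R] (ε : W.R →ₐ[𝒪] 𝒪) :
    ∃ χ : T'.R →ₐ[𝒪] 𝒪, ∀ σ : GQ, χ (T'.ρ.trace σ) = ε (W.ρ.trace σ) := by
  obtain ⟨J, hJfin, prA, prB, hA, hB, hsA, -, hEA, hEB⟩ := hjoinO T' W
  have e1 : ∀ σ, prA (J.ρ.trace σ) = T'.ρ.trace σ :=
    map_trace_of_isEquiv J.ρ T'.ρ (prA : J.R →+* T'.R) hA hEA
  have e2 : ∀ σ, prB (J.ρ.trace σ) = W.ρ.trace σ :=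
    map_trace_of_isEquiv J.ρ W.ρ (prB : J.R →+* W.R) hB hEB
  have hlam : ∀ σ : GQ, (π'.comp prA) (J.ρ.trace σ) = π₀ (B₀.ρ.trace σ) := fun σ => by
    show π' (prA (J.ρ.trace σ)) = _
    rw [e1, hπ']
  obtain ⟨A, hAp, b, hb, φ, hφ, hz⟩ := hroot J (π'.comp prA) hlam
  have hu : (π'.comp prA) (matOf J.ρ b φ 1 1) ^ 2 ≠ 1 := by rw [hz]; exact hα
  have hle := length_cotangent_le_pStep_aug hp𝒪 𝒟 hquot Smin Sg B₀ hmono π₀ c₀ hmin a hSg hjoin hwild J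
    hAp hb hφ (π'.comp prA) hlam hu
  rw [hz] at hle
  have hfin : Module.length 𝒪 (RingHom.ker ((π'.comp prA : J.R →ₐ[𝒪] 𝒪) : J.R →+* 𝒪)).Cotangent ≠ ⊤ := by
    refine ne_top_of_le_ne_top (WithTop.add_ne_top.mpr ⟨?_, ?_⟩) hle
    · exact NumCrit.length_quotient_span_singleton_ne_top (sub_ne_zero.mpr hα)
    · exact sigma_bound_ne_top hc₀ a Sg fun q hq => (hSg q hq).ne_zero
  obtain ⟨hinj, -⟩ := NumCrit.numCrit_ring prA hsA π' hϖ hfin (hle.trans hHS)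
  let e : J.R ≃ₐ[𝒪] T'.R := AlgEquiv.ofBijective prA ⟨hinj, hsA⟩
  refine ⟨(ε.comp prB).comp (e.symm : T'.R →ₐ[𝒪] J.R), fun σ => ?_⟩
  show ε (prB (e.symm (T'.ρ.trace σ))) = _
  have h3 : e.symm (T'.ρ.trace σ) = J.ρ.trace σ := by
    rw [AlgEquiv.symm_apply_eq]
    exact (e1 σ).symm
  rw [h3, e2]

end Fermat.Agent.S59lib.RT
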