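/-
S59lib / RT / OrdType  (helper9) — Project I, block RT on trace rings: **the ordinary type `𝒟ord`** of the step at `p`
(`W` multiplicative at `p`, `p ∤ N`): `ordinaryCondition` (determinant cyclotomic, ordinary at `p`, unramified outside
`S`) and unipotent inertia at the primes of `Smin`.

* `𝒟ord_of_𝒟so`            : strict ordinary type ⇒ ordinary type (the point `ρ_W`);
* `𝒟ord_of_isEquiv`, `𝒟ord_mono`, `isUnramifiedAt_of_𝒟ord`;
* `wildClosed_𝒟ord_𝒟fl`    : the flat quotients of the ordinary type are of the flat type (`RT.WildClosed`);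
* `𝒟ord_of_family`, **`hasJoins_𝒟ord`** : joins exist for the ordinary type (JOIN-ord, `Fam/Ord`).
-/
import Mathlib
import Fermat.Agent.S59lib.RT.Joins
import Fermat.Agent.S59lib.RT.PStep
import Fermat.Agent.S59lib.RT.Fam.Ord

set_option autoImplicit false
set_option linter.unusedSectionVars false
set_option linter.style.haveILetI false

noncomputable section

namespace Fermat.Agent.S59lib.RT

open IsLocalRing Polynomial Fermat.Agent.S59lib.Hub Fermat.Agent.S56lib.Dict Fermat.Agent.S56lib.Main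
  Fermat.Agent.S59lib.Join

local notation "GQ" => (AlgebraicClosure ℚ ≃ₐ[ℚ] AlgebraicClosure ℚ)

/-- **the ordinary type**: `ordinaryCondition` and unipotent inertia at the primes of `Smin` -/
def 𝒟ord (𝒪 : Type) [CommRing 𝒪] (p : ℕ) (Smin : Finset ℕ) (S' : Finset ℕ) :
    ∀ ⦃A : Type⦄ [CommRing A] [IsLocalRing A] [Algebra 𝒪 A], GaloisRepAdic A → Prop :=
  fun _A _ _ _ ρ => GaloisRep.ordinaryCondition 𝒪 p S' ρ ∧
    ∀ q ∈ Smin, q.Prime → q ≠ p → ρ.IsUnipotentOnInertiaAt q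

section Transport

variable {𝒪 : Type} [CommRing 𝒪] {A : Type} [CommRing A] [IsLocalRing A] [Algebra 𝒪 A]
  {ρ₁ ρ₂ : GaloisRepAdic A}

/-- ordinarity is invariant under equivalence -/
theorem isOrdinaryAt_of_equiv (e : GaloisRepAdic.Equiv ρ₁ ρ₂) {p : ℕ}
    (h : ρ₁.IsOrdinaryAt p) : ρ₂.IsOrdinaryAt p := by
  intro P hP
  obtain ⟨L, ⟨b, hb⟩, hD, hI⟩ := h P hP
  have hmem : ∀ y : ρ₂.V, y ∈ L.map (e.toLinearEquiv : ρ₁.V →ₗ[A] ρ₂.V) ↔
      e.toLinearEquiv.symm y ∈ L := by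
    intro y
    rw [Submodule.mem_map_equiv]
  refine ⟨L.map (e.toLinearEquiv : ρ₁.V →ₗ[A] ρ₂.V), ⟨b.map e.toLinearEquiv, ?_⟩, ?_, ?_⟩
  · rw [hb, Submodule.map_span, Set.image_singleton, Module.Basis.map_apply]
    rfl
  · intro σ hσ v hv
    rw [hmem] at hv ⊢
    rw [equiv_symm_apply_ρ]
    exact hD σ hσ _ hv
  · intro σ hσ v
    rw [hmem, map_sub, equiv_symm_apply_ρ]
    exact hI σ hσ _

/-- the strict ordinary type is contained in the ordinary type -/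
theorem 𝒟ord_of_𝒟so {p : ℕ} {Smin S : Finset ℕ} {ρ : GaloisRepAdic A} (h : 𝒟so 𝒪 p Smin S ρ) :
    𝒟ord 𝒪 p Smin S ρ :=
  ⟨⟨h.1.1, h.1.2.1.isOrdinaryAt, h.1.2.2⟩, h.2⟩

/-- the ordinary type is invariant under equivalence -/
theorem 𝒟ord_of_isEquiv {p : ℕ} {Smin S : Finset ℕ} (h : ρ₁.IsEquiv ρ₂) (h1 : 𝒟ord 𝒪 p Smin S ρ₁) :
    𝒟ord 𝒪 p Smin S ρ₂ := by
  obtain ⟨e⟩ := h
  obtain ⟨⟨hdet, hord, hur⟩, hunip⟩ := h1
  exact ⟨⟨detIsCyclotomic_of_equiv e hdet, isOrdinaryAt_of_equiv e hord,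
    fun q hq hqS => isUnramifiedAt_of_equiv e (hur q hq hqS)⟩,
    fun q hq hqp hqne => isUnipotentOnInertiaAt_of_equiv e (hunip q hq hqp hqne)⟩

/-- the ordinary type is monotone in the ramification set -/
theorem 𝒟ord_mono {p : ℕ} {Smin S S' : Finset ℕ} (hS : S ⊆ S') {ρ : GaloisRepAdic A}
    (h : 𝒟ord 𝒪 p Smin S ρ) : 𝒟ord 𝒪 p Smin S' ρ :=
  ⟨⟨h.1.1, h.1.2.1, fun q hq hqS => h.1.2.2 q hq fun hq' => hqS (hS hq')⟩, h.2⟩

/-- a representation of ordinary type `S` is unramified outside `S` -/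
theorem isUnramifiedAt_of_𝒟ord {p : ℕ} {Smin S : Finset ℕ} {ρ : GaloisRepAdic A}
    (h : 𝒟ord 𝒪 p Smin S ρ) {q : ℕ} (hq : q.Prime) (hqS : q ∉ S) : ρ.IsUnramifiedAt q :=
  h.1.2.2 q hq hqS

end Transport

section Wild

variable {𝒪 : Type} [CommRing 𝒪] [IsDomain 𝒪] [IsDiscreteValuationRing 𝒪]
  [IsAdicComplete (maximalIdeal 𝒪) 𝒪] [Finite (ResidueField 𝒪)]

/-- **the flat quotients of the ordinary type are of the flat type** -/
theorem wildClosed_𝒟ord_𝒟fl (p : ℕ) (Smin S : Finset ℕ) :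
    WildClosed (𝒪 := 𝒪) p (𝒟ord 𝒪 p Smin S) (𝒟fl 𝒪 p Smin S) := by
  intro A B _ _ _ _ _ _ ψ hψ _ ρ hty hflat
  obtain ⟨⟨hdet, -, hur⟩, hunip⟩ := hty
  exact ⟨⟨detIsCyclotomic_baseChangeAlong _ hψ ρ hdet, hflat,
    fun q hq hqS => isUnramifiedAt_baseChangeAlong _ hψ ρ (hur q hq hqS)⟩,
    fun q hq hqp hqne => isUnipotentOnInertiaAt_baseChangeAlong _ hψ ρ (hunip q hq hqp hqne)⟩

end Wild

section Family

variable {𝒪 : Type} [CommRing 𝒪] [IsNoetherianRing 𝒪]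
  {R : Type} [CommRing R] [IsLocalRing R] [Algebra 𝒪 R]
  {ι : Type} [Finite ι] [Nonempty ι] {A : ι → Type} [∀ i, CommRing (A i)] [∀ i, IsLocalRing (A i)]
  [∀ i, Algebra 𝒪 (A i)] [∀ i, Module.Finite 𝒪 (A i)]
  (φ : ∀ i, R →ₐ[𝒪] A i) (hφ : ∀ i, IsLocalHom (φ i : R →+* A i))
  (hinj : ∀ x : R, (∀ i, φ i x = 0) → x = 0) (ρ : GaloisRepAdic R)

include hinj in
/-- **the ordinary type descends along a jointly injective family** -/
theorem 𝒟ord_of_family {p : ℕ} [hpf : Fact p.Prime] (hp2 : p ≠ 2) (Smin S : Finset ℕ)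
    (h : ∀ i, 𝒟ord 𝒪 p Smin S (ρ.baseChangeAlong (φ i : R →+* A i) (hφ i))) : 𝒟ord 𝒪 p Smin S ρ :=
  ⟨⟨Fam.detIsCyclotomic_of_family (ψ := fun i => (φ i : R →+* A i)) hφ ρ (Fam.sat_of_algHom φ hinj p)
      fun i => (h i).1.1,
    Fam.isOrdinaryAt_of_family_ord (ψ := fun i => (φ i : R →+* A i)) hφ ρ hinj hp2
      (fun i => (h i).1.1) fun i => (h i).1.2.1,
    fun q hq hqS => Fam.isUnramifiedAt_of_family (ψ := fun i => (φ i : R →+* A i)) hφ ρ hinj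
      fun i => (h i).1.2.2 q hq hqS⟩,
    fun q hq hqp hqne => Fam.isUnipotentOnInertiaAt_of_family (ψ := fun i => (φ i : R →+* A i)) hφ ρ hinj
      fun i => (h i).2 q hq hqp hqne⟩

end Family

variable {𝒪 : Type} [CommRing 𝒪] [IsDomain 𝒪] [IsDiscreteValuationRing 𝒪]
  [IsAdicComplete (maximalIdeal 𝒪) 𝒪] {ρbar : ResidualGaloisRep (ResidueField 𝒪)} {p : ℕ}

/-- **joins exist for the ordinary type** -/
theorem hasJoins_𝒟ord [hpf : Fact p.Prime] (hp2 : p ≠ 2) (habs : ρbar.IsAbsolutelyIrreducible)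
    (h2 : IsUnit (2 : 𝒪))
    (hs₀ : ∃ (s₀ : GQ) (α β : ResidueField 𝒪), α ≠ β ∧
      LinearMap.charpoly (ρbar.ρ s₀) = (X - C α) * (X - C β))
    (Smin S : Finset ℕ) : HasJoins ρbar p (𝒟ord 𝒪 p Smin S) := by
  intro FA FB _ _
  set P := joinTr FA FB habs h2 hs₀ with hP
  have hl : ∀ k, IsLocalHom (pairMap P.prA P.prB k : P.R →+* PairFam FA.R FB.R k) := by
    intro k
    cases k
    · exact P.prB_local
    · exact P.prA_local
  have hty : 𝒟ord 𝒪 p Smin S P.ρ := by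
    refine 𝒟ord_of_family (A := PairFam FA.R FB.R) (pairMap P.prA P.prB) hl
      (fun t ht => P.joint_injective t (ht true) (ht false)) P.ρ hp2 Smin S ?_
    intro k
    cases k
    · exact 𝒟ord_of_isEquiv (IsEquiv.symm' P.isEquivB) FB.isType
    · exact 𝒟ord_of_isEquiv (IsEquiv.symm' P.isEquivA) FA.isType
  refine ⟨P.toTrRingG hpf.out.ne_zero FA.detCyc FB.detCyc hty, P.instFinite, P.prA, P.prB,
    P.prA_local, P.prB_local, joinTr_prA_surjective FA FB habs h2 hs₀,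
    joinTr_prB_surjective FA FB habs h2 hs₀, P.isEquivA, P.isEquivB⟩

end Fermat.Agent.S59lib.RT
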