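/-
S59lib / RT / PStepHecke  (helper9) — Project I, block PSTEP: **the Hecke side of `PStepCoreStmt`**, abstract form.

* `pstep_hecke_abs` : helper2's chain `HS.congL_chain_le` (levels `R0 → R0 ∏ q²`) followed by his `p`-step `HS.hs_pstep`
  (level `N → N p`): `(c₀ + ∑_q length 𝒪/(c_q)) + length 𝒪/(α² − 1) ≤ length 𝒪/η_π`;
* `eigO_top_ne_bot` : the eigenlattice at the top of the chain is non-zero.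
-/
import Mathlib
import Fermat.Agent.S59lib.HS.PStep

set_option autoImplicit false
set_option linter.unusedSectionVars false
set_option linter.unusedVariables false
set_option linter.style.haveILetI false

noncomputable section

namespace Fermat.Agent.S59lib.RT

open Module IsLocalRing CuspForm Fermat.Agent.S59lib.N3 Fermat.Agent.S59lib.HS
  Fermat.Agent.S59lib.NumCrit

variable {𝒪 : Type} [CommRing 𝒪] [IsDomain 𝒪] [IsDiscreteValuationRing 𝒪]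
  [IsAdicComplete (maximalIdeal 𝒪) 𝒪]
variable {p : ℕ} [Fact p.Prime]

omit [IsAdicComplete (maximalIdeal 𝒪) 𝒪] in
/-- the eigenlattice at the top of the chain is non-zero -/
theorem eigO_top_ne_bot (hp2 : p ≠ 2) (hp : (p : 𝒪) ∈ maximalIdeal 𝒪) (R0 : ℕ) [NeZero R0]
    (P : ℕ → Prop) (ev₀ : ℕ → 𝒪) {ℓ : ℕ} (hℓ : ℓ.Prime) (hPℓ : ¬ P ℓ)
    (hu : IsUnit (ev₀ ℓ - ((ℓ : 𝒪) + 1))) (l : List Nat.Primes) (hok : ChainOK p R0 P ev₀ l)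
    (hℓl : ¬ ℓ ∣ lvlP R0 l) (hne : eigO 𝒪 R0 P ev₀ ≠ ⊥) :
    haveI : NeZero (lvlP R0 l) := ⟨lvlP_ne_zero (NeZero.ne R0) l⟩
    eigO 𝒪 (lvlP R0 l) P (evP ev₀ l) ≠ ⊥ := by
  haveI : NeZero (lvlP R0 l) := ⟨lvlP_ne_zero (NeZero.ne R0) l⟩
  obtain ⟨-, h2⟩ := congL_chain hp2 hp R0 P ev₀ hℓ hPℓ hu l hok hℓl
  intro h
  apply hne
  apply Submodule.finrank_eq_zero.mp
  rw [← h2, h, finrank_bot]

/-- **the Hecke side of the `p`-step after the chain.** -/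
theorem pstep_hecke_abs (hp2 : p ≠ 2) (hp : (p : 𝒪) ∈ maximalIdeal 𝒪) {R0 : ℕ} [NeZero R0]
    (l : List Nat.Primes) {N : ℕ} [NeZero N] (hN : N = lvlP R0 l)
    (hpN : ¬ p ∣ N) {M : ℕ} [NeZero M] (hM : M = N * p) {S : Set ℕ}
    [hint : Fact (HasIntegralStructure M 2)] (θ : heckeAlgebra M 2 S →+* ResidueField 𝒪)
    (hS : ∀ q : ℕ, q.Prime → q ∣ M → q ∈ S)
    (π : heckeLocal M S 𝒪 θ →ₐ[𝒪] 𝒪) (P : ℕ → Prop) (hPp : P p)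
    (hPS : ∀ ℓ : ℕ, ℓ.Prime → ¬ ℓ ∣ M → (P ℓ ↔ ℓ ∈ S))
    (ev₀ : ℕ → 𝒪)
    (hev : ∀ (ℓ : ℕ) (hℓ : ℓ.Prime) (hℓM : ¬ ℓ ∣ M) (hℓS : ℓ ∉ S),
      π (heckeLocal.π M S 𝒪 θ (heckeAlgebra.T hℓ hℓM hℓS)) = evP ev₀ l ℓ)
    (t α β : 𝒪) (hα : α ^ 2 - t * α + (p : 𝒪) = 0) (hβ : β ^ 2 - t * β + (p : 𝒪) = 0)
    (hαβ : IsUnit (α - β))
    (hTp : ∀ x ∈ eigO 𝒪 N P (evP ev₀ l), tO 𝒪 (Fact.out : p.Prime) hpN x = t • x)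
    (hsq : ∀ q : ℕ, q.Prime → q ≠ p → q * q ∣ M → ¬ P q →
      evP ev₀ l q = 0 ∧ IsUnit (q : 𝒪) ∧ ¬ q * q * q ∣ M)
    (hone : ∀ (r M' : ℕ) [NeZero M'], r.Prime → r ≠ p → M = M' * r → ¬ r ∣ M' → ¬ P r →
      evP ev₀ l r * evP ev₀ l r = 1 ∧ ¬ ∃ χ : heckeAlgebra M' 2 S →+* ResidueField 𝒪,
        ∀ (ℓ : ℕ) (hℓ : ℓ.Prime) (hℓM : ¬ ℓ ∣ M) (hℓM' : ¬ ℓ ∣ M') (hℓS : ℓ ∉ S),
          χ (heckeAlgebra.T hℓ hℓM' hℓS) = θ (heckeAlgebra.T hℓ hℓM hℓS))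
    {ℓ₁ : ℕ} (hℓ₁ : ℓ₁.Prime) (hℓ₁N : ¬ ℓ₁ ∣ N) (hPℓ₁ : ¬ P ℓ₁)
    (hu : IsUnit (ev₀ ℓ₁ - ((ℓ₁ : 𝒪) + 1)))
    (hok : ChainOK p R0 P ev₀ l) (hne : eigO 𝒪 R0 P ev₀ ≠ ⊥)
    (c₀ : ℕ∞) (hbase : Module.finrank 𝒪 (eigO 𝒪 R0 P ev₀) * c₀ ≤ congL 𝒪 R0 P ev₀)
    (hrk1 : Module.finrank 𝒪 (eigO 𝒪 (N * p) (fun ℓ => P ℓ ∧ ℓ ≠ p)
        (Function.update (evP ev₀ l) p α)) ≤ Module.finrank 𝒪 (eigO 𝒪 N P (evP ev₀ l)))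
    (hrk2 : Module.finrank 𝒪 (eigO 𝒪 (N * p) P (evP ev₀ l)) ≤
      2 * Module.finrank 𝒪 (eigO 𝒪 N P (evP ev₀ l))) :
    (c₀ + (l.map fun q : Nat.Primes => Module.length 𝒪
        (𝒪 ⧸ (Ideal.span {cTw (q : ℕ) (ev₀ q)} : Ideal 𝒪))).sum) +
        Module.length 𝒪 (𝒪 ⧸ (Ideal.span {α ^ 2 - 1} : Ideal 𝒪)) ≤
      Module.length 𝒪 (𝒪 ⧸ congIdeal π) := by
  subst hN
  have hX := congL_chain_le hp2 hp R0 P ev₀ hℓ₁ hPℓ₁ hu l hok hℓ₁N c₀ hbase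
  have hneT := eigO_top_ne_bot hp2 hp R0 P ev₀ hℓ₁ hPℓ₁ hu l hok hℓ₁N hne
  have hu' : IsUnit (evP ev₀ l ℓ₁ - ((ℓ₁ : 𝒪) + 1)) := by
    rw [evP_of_not_dvd ev₀ R0 hℓ₁N]
    exact hu
  exact hs_pstep hp2 hp hpN hM θ hS π P hPp hPS (evP ev₀ l) hev t α β hα hβ hαβ hTp hsq hone hℓ₁
    hℓ₁N hPℓ₁ hu' hneT hrk1 hrk2 _ hX

end Fermat.Agent.S59lib.RT
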