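/-
S59lib / RT / PStepRank  (helper9) — Project I, block PSTEP: **the rank inputs of the Hecke side**, for the two modes
`Aux = ∅` and `Aux = {r₀}` at once.

`RankData p R0 D ev₀ l` : the chain hypothesis `ChainOK`, non-vanishing at the base level `R0`, `T_p` scalar on the
eigenlattice at the top `N = R0 ∏ q²` of the chain (TP), and the two rank bounds (RK1), (RK2) at the level `N p`.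

* `rankData_of_finite` (`Aux = ∅`) : helper4's `SMO.chainOK_of_finite`, `exists_tO_scalar_of_finite`, `hrk1_of_finite`,
  `hrk2_of_finite`;
* `rankData_of_aux` (`Aux = {r₀}`, `R0 = B r₀`) : helper2's `HS.chainOK_of_aux`, helper4's `SMO.exists_tO_scalar_aux`,
  `hrk1_aux`, `hrk2_aux`;
* `rankData_of_card_le_one` : both at once, for `D = Aux ∪ {p}`, `R0 = B ∏_{r ∈ Aux} r`, `Aux.card ≤ 1`.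
-/
import Mathlib
import Fermat.Agent.S59lib.HS.Rank
import Fermat.Agent.S59lib.SMO.PStepRk
import Fermat.Agent.S59lib.SMO.ChainRk

set_option autoImplicit false
set_option linter.unusedSectionVars false
set_option linter.unusedVariables false
set_option linter.style.haveILetI false

noncomputable section

namespace Fermat.Agent.S59lib.RT

open Module IsLocalRing Fermat.Agent.S59lib.N3 Fermat.Agent.S59lib.HS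

variable {𝒪 : Type} [CommRing 𝒪] [IsDomain 𝒪] [IsDiscreteValuationRing 𝒪] [CharZero 𝒪]
variable {p : ℕ} [Fact p.Prime]

/-- **the rank inputs of the Hecke side of the `p`-step** -/
def RankData (p : ℕ) [Fact p.Prime] (R0 : ℕ) [NeZero R0] (D : Finset ℕ) (ev₀ : ℕ → 𝒪)
    (l : List Nat.Primes) : Prop :=
  ChainOK p R0 (fun ℓ => ℓ ∈ D) ev₀ l ∧ eigO 𝒪 R0 (fun ℓ => ℓ ∈ D) ev₀ ≠ ⊥ ∧
  (∀ hpN : ¬ p ∣ lvlP R0 l, ∃ t : 𝒪,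
    ∀ x ∈ eigO 𝒪 (lvlP R0 l) (fun ℓ => ℓ ∈ D) (evP ev₀ l),
      tO 𝒪 (Fact.out : p.Prime) hpN x = t • x) ∧
  (∀ a' : ℕ → 𝒪, finrank 𝒪 (eigO 𝒪 (lvlP R0 l * p) (fun ℓ => ℓ ∈ D ∧ ℓ ≠ p) a') ≤
    finrank 𝒪 (eigO 𝒪 (lvlP R0 l) (fun ℓ => ℓ ∈ D) (evP ev₀ l))) ∧
  finrank 𝒪 (eigO 𝒪 (lvlP R0 l * p) (fun ℓ => ℓ ∈ D) (evP ev₀ l)) ≤
    2 * finrank 𝒪 (eigO 𝒪 (lvlP R0 l) (fun ℓ => ℓ ∈ D) (evP ev₀ l))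

/-- a prime dividing neither the base nor a member of the list does not divide `R0 ∏ q²` -/
theorem not_dvd_lvlP_of {R0 r : ℕ} (hr : r.Prime) (hrR : ¬ r ∣ R0) (l : List Nat.Primes)
    (hl : ∀ q ∈ l, ((q : Nat.Primes) : ℕ) ≠ r) : ¬ r ∣ lvlP R0 l :=
  not_dvd_lvlP hr hrR l hl

/-- **mode `Aux = ∅`** -/
theorem rankData_of_finite (hp2 : p ≠ 2) (hp : (p : 𝒪) ∈ maximalIdeal 𝒪) (R0 : ℕ) [NeZero R0]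
    (D : Finset ℕ) (hpD : p ∈ D) (hD : ∀ r ∈ D, r.Prime ∧ ¬ r ∣ R0) (ev₀ : ℕ → 𝒪)
    (hne : eigO 𝒪 R0 (fun ℓ => ℓ ∈ D) ev₀ ≠ ⊥) {ℓ₁ : ℕ} (hℓ₁ : ℓ₁.Prime) (hℓ₁D : ℓ₁ ∉ D)
    (hu : IsUnit (ev₀ ℓ₁ - ((ℓ₁ : 𝒪) + 1))) (l : List Nat.Primes) (hl : l.Nodup)
    (hℓ₁l : ¬ ℓ₁ ∣ lvlP R0 l)
    (hlq : ∀ q ∈ l, ¬ ((q : Nat.Primes) : ℕ) ∣ R0 ∧ ((q : Nat.Primes) : ℕ) ∉ D) :
    RankData (𝒪 := 𝒪) p R0 D ev₀ l := by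
  have hpp : p.Prime := Fact.out
  have hfin : {ℓ : ℕ | ℓ.Prime ∧ ℓ ∈ D}.Finite :=
    D.finite_toSet.subset fun ℓ h => Finset.mem_coe.2 h.2
  have hfin' : {ℓ : ℕ | ℓ ∈ D}.Finite := D.finite_toSet
  have hDl : ∀ r : ℕ, r.Prime → r ∈ D → ¬ r ∣ lvlP R0 l := fun r hr hrD =>
    not_dvd_lvlP hr (hD r hrD).2 l fun q hq h => (hlq q hq).2 (h ▸ hrD)
  have hlq' : ∀ q ∈ l, ¬ ((q : Nat.Primes) : ℕ) ∣ R0 ∧ ((q : Nat.Primes) : ℕ) ≠ p ∧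
      ¬ ((q : Nat.Primes) : ℕ) ∈ D := fun q hq =>
    ⟨(hlq q hq).1, fun h => (hlq q hq).2 (h ▸ hpD), (hlq q hq).2⟩
  have hok : ChainOK p R0 (fun ℓ => ℓ ∈ D) ev₀ l :=
    Fermat.Agent.S59lib.SMO.chainOK_of_finite hp2 hp R0 (fun ℓ => ℓ ∈ D) hfin ev₀ hℓ₁ hℓ₁D hu hne l
      hℓ₁l hl hlq' hDl
  have hneT : eigO 𝒪 (lvlP R0 l) (fun ℓ => ℓ ∈ D) (evP ev₀ l) ≠ ⊥ :=
    eigO_ne_bot_top hp2 hp R0 (fun ℓ => ℓ ∈ D) ev₀ hℓ₁ hℓ₁D hu hne l hok hℓ₁l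
  have hpN : ¬ p ∣ lvlP R0 l := hDl p hpp hpD
  refine ⟨hok, hne, fun hpN' => ?_, fun a' => ?_, ?_⟩
  · exact Fermat.Agent.S59lib.SMO.exists_tO_scalar_of_finite 𝒪 hpp hpN' (fun ℓ => ℓ ∈ D) hfin hDl
      hpD (evP ev₀ l)
  · refine Fermat.Agent.S59lib.SMO.hrk1_of_finite 𝒪 (fun ℓ => ℓ ∈ D) hfin (fun ℓ hℓ hℓD => ?_) hpN
      (evP ev₀ l) a' hneT
    by_cases hℓp : ℓ = p
    · exact Or.inl hℓp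
    · refine Or.inr fun hd => ?_
      rcases (Nat.Prime.dvd_mul hℓ).1 hd with h | h
      · exact hDl ℓ hℓ hℓD h
      · exact hℓp ((Nat.prime_dvd_prime_iff_eq hℓ hpp).1 h)
  · exact Fermat.Agent.S59lib.SMO.hrk2_of_finite 𝒪 hpp hpN (fun ℓ => ℓ ∈ D) hfin'
      (fun ℓ hℓD => ⟨(hD ℓ hℓD).1, Or.inr (hDl ℓ (hD ℓ hℓD).1 hℓD)⟩) hpD (evP ev₀ l) hneT

/-- **mode `Aux = {r₀}`**, `R0 = B r₀` -/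
theorem rankData_of_aux (hp2 : p ≠ 2) (hp : (p : 𝒪) ∈ maximalIdeal 𝒪) {B r₀ R0 : ℕ} [NeZero B]
    [NeZero R0] (hR0 : R0 = B * r₀) (hr₀ : r₀.Prime) (hr₀B : ¬ r₀ ∣ B) (hr₀p : r₀ ≠ p)
    (D : Finset ℕ) (hr₀D : r₀ ∈ D) (hpD : p ∈ D)
    (hD : ∀ r ∈ D, r.Prime ∧ (r = r₀ ∨ ¬ r ∣ B)) (ev₀ : ℕ → 𝒪)
    (hne : eigO 𝒪 B (fun ℓ => ℓ ∈ D) ev₀ ≠ ⊥) {ℓ₁ : ℕ} (hℓ₁ : ℓ₁.Prime) (hℓ₁D : ℓ₁ ∉ D)
    (hu : IsUnit (ev₀ ℓ₁ - ((ℓ₁ : 𝒪) + 1))) (l : List Nat.Primes) (hl : l.Nodup)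
    (hℓ₁l : ¬ ℓ₁ ∣ lvlP R0 l)
    (hlq : ∀ q ∈ l, ¬ ((q : Nat.Primes) : ℕ) ∣ R0 ∧ ((q : Nat.Primes) : ℕ) ∉ D) :
    RankData (𝒪 := 𝒪) p R0 D ev₀ l := by
  have hpp : p.Prime := Fact.out
  have hfin : {ℓ : ℕ | ℓ.Prime ∧ ℓ ∈ D}.Finite :=
    D.finite_toSet.subset fun ℓ h => Finset.mem_coe.2 h.2
  have hBR : B ∣ R0 := ⟨r₀, hR0⟩
  have hlvl : lvlP R0 l = lvlP B l * r₀ := lvlP_of_eq hR0 l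
  have hℓ₁lB : ¬ ℓ₁ ∣ lvlP B l := fun h => hℓ₁l (hlvl ▸ h.mul_right r₀)
  have hpB : ¬ p ∣ B := by
    rcases (hD p hpD).2 with h | h
    · exact absurd h.symm hr₀p
    · exact h
  -- the dropped primes do not divide `B ∏ q²`, except `r₀`
  have hDl : ∀ r : ℕ, r.Prime → r ∈ D → r ≠ r₀ → ¬ r ∣ lvlP B l := fun r hr hrD hrr₀ =>
    not_dvd_lvlP hr ((hD r hrD).2.resolve_left hrr₀) l fun q hq h => (hlq q hq).2 (h ▸ hrD)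
  have hr₀l : ¬ r₀ ∣ lvlP B l :=
    not_dvd_lvlP hr₀ hr₀B l fun q hq h => (hlq q hq).2 (h ▸ hr₀D)
  have hDl' : ∀ r : ℕ, r.Prime → r ∈ D → ¬ r ∣ lvlP B l := fun r hr hrD => by
    by_cases h : r = r₀
    · rw [h]; exact hr₀l
    · exact hDl r hr hrD h
  have hlq' : ∀ q ∈ l, ¬ ((q : Nat.Primes) : ℕ) ∣ B ∧ ((q : Nat.Primes) : ℕ) ≠ p ∧
      ¬ ((q : Nat.Primes) : ℕ) ∈ D := fun q hq =>
    ⟨fun h => (hlq q hq).1 (h.trans hBR), fun h => (hlq q hq).2 (h ▸ hpD), (hlq q hq).2⟩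
  have hokB : ChainOK p B (fun ℓ => ℓ ∈ D) ev₀ l :=
    Fermat.Agent.S59lib.SMO.chainOK_of_finite hp2 hp B (fun ℓ => ℓ ∈ D) hfin ev₀ hℓ₁ hℓ₁D hu hne l
      hℓ₁lB hl hlq' hDl'
  have hD2 : ∀ q ∈ D, q.Prime ∧ (q = r₀ ∨ ¬ q ∣ lvlP B l) := fun q hq =>
    ⟨(hD q hq).1, Or.inr (hDl' q (hD q hq).1 hq)⟩
  have hok : ChainOK p R0 (fun ℓ => ℓ ∈ D) ev₀ l :=
    chainOK_of_aux hp2 hp hR0 hr₀ hr₀B D hr₀D ev₀ hℓ₁ hℓ₁D hu hne l hokB hℓ₁lB hD2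
  have hneR : eigO 𝒪 R0 (fun ℓ => ℓ ∈ D) ev₀ ≠ ⊥ :=
    eigO_ne_bot_top_aux hp2 hp hR0 hr₀ hr₀B D hr₀D ev₀ hℓ₁ hℓ₁D hu hne [] trivial
      (fun h => hℓ₁lB ((show B ∣ lvlP B l from by
        rw [lvlP_eq, mul_assoc]; exact Dvd.intro _ rfl) |> h.trans))
      (fun q hq => ⟨(hD q hq).1, (hD q hq).2⟩)
  have hneB : eigO 𝒪 (lvlP B l) (fun ℓ => ℓ ∈ D) (evP ev₀ l) ≠ ⊥ :=
    eigO_ne_bot_top hp2 hp B (fun ℓ => ℓ ∈ D) ev₀ hℓ₁ hℓ₁D hu hne l hokB hℓ₁lB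
  have hpNB : ¬ p ∣ lvlP B l := hDl' p hpp hpD
  refine ⟨hok, hneR, fun hpN' => ?_, fun a' => ?_, ?_⟩
  · exact Fermat.Agent.S59lib.SMO.exists_tO_scalar_aux 𝒪 hlvl hr₀ hpp hr₀p hr₀l hpN' D
      (fun ℓ hℓD => ⟨(hD ℓ hℓD).1, Or.inr (hDl' ℓ (hD ℓ hℓD).1 hℓD)⟩) hr₀D hpD (evP ev₀ l) hneB
  · exact Fermat.Agent.S59lib.SMO.hrk1_aux 𝒪 hlvl hr₀ hpp hr₀p hr₀l hpNB D
      (fun ℓ hℓD => ⟨(hD ℓ hℓD).1, Or.inr (Or.inr (hDl' ℓ (hD ℓ hℓD).1 hℓD))⟩) hr₀D hpD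
      (evP ev₀ l) a' hneB
  · exact Fermat.Agent.S59lib.SMO.hrk2_aux 𝒪 hlvl hr₀ hpp hr₀p hr₀l hpNB D
      (fun ℓ hℓD => ⟨(hD ℓ hℓD).1, Or.inr (Or.inr (hDl' ℓ (hD ℓ hℓD).1 hℓD))⟩) hr₀D hpD
      (evP ev₀ l) hneB

/-- **both modes**: `R0 = B ∏_{r ∈ Aux} r`, `Aux.card ≤ 1`, `D = Aux ∪ {p}` -/
theorem rankData_of_card_le_one (hp2 : p ≠ 2) (hp : (p : 𝒪) ∈ maximalIdeal 𝒪) {B R0 : ℕ}
    [NeZero B] [NeZero R0] (Aux : Finset ℕ) (hcard : Aux.card ≤ 1)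
    (hR0 : R0 = B * ∏ r ∈ Aux, r) (hAux : ∀ r ∈ Aux, r.Prime ∧ ¬ r ∣ B ∧ r ≠ p)
    (hpB : ¬ p ∣ B) (ev₀ : ℕ → 𝒪) (hne : eigO 𝒪 B (fun ℓ => ℓ ∈ Aux ∪ {p}) ev₀ ≠ ⊥) {ℓ₁ : ℕ}
    (hℓ₁ : ℓ₁.Prime) (hℓ₁D : ℓ₁ ∉ Aux ∪ {p}) (hu : IsUnit (ev₀ ℓ₁ - ((ℓ₁ : 𝒪) + 1)))
    (l : List Nat.Primes) (hl : l.Nodup) (hℓ₁l : ¬ ℓ₁ ∣ lvlP R0 l)
    (hlq : ∀ q ∈ l, ¬ ((q : Nat.Primes) : ℕ) ∣ R0 ∧ ((q : Nat.Primes) : ℕ) ∉ Aux ∪ {p}) :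
    RankData (𝒪 := 𝒪) p R0 (Aux ∪ {p}) ev₀ l := by
  classical
  have hpp : p.Prime := Fact.out
  rcases Finset.eq_empty_or_nonempty Aux with h0 | ⟨r₀, hr₀⟩
  · subst h0
    have hRB : R0 = B := by rw [hR0, Finset.prod_empty, mul_one]
    subst hRB
    refine rankData_of_finite hp2 hp R0 (∅ ∪ {p}) (by simp) (fun r hr => ?_) ev₀ hne hℓ₁ hℓ₁D hu l
      hl hℓ₁l hlq
    have : r = p := by simpa using hr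
    rw [this]
    exact ⟨hpp, hpB⟩
  · have hA : Aux = {r₀} :=
      Finset.eq_singleton_iff_unique_mem.2 ⟨hr₀, fun x hx => Finset.card_le_one.1 hcard x hx r₀ hr₀⟩
    subst hA
    obtain ⟨hr₀p, hr₀B, hr₀ne⟩ := hAux r₀ (Finset.mem_singleton_self r₀)
    have hRB : R0 = B * r₀ := by rw [hR0, Finset.prod_singleton]
    refine rankData_of_aux hp2 hp hRB hr₀p hr₀B hr₀ne ({r₀} ∪ {p}) (by simp) (by simp)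
      (fun r hr => ?_) ev₀ hne hℓ₁ hℓ₁D hu l hl hℓ₁l hlq
    have : r = r₀ ∨ r = p := by simpa using hr
    rcases this with h | h
    · rw [h]; exact ⟨hr₀p, Or.inl rfl⟩
    · rw [h]; exact ⟨hpp, Or.inr hpB⟩

end Fermat.Agent.S59lib.RT
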