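/-
S59lib / RT / PStepSign  (helper9) — Project I, block PSTEP: **the signs at the `Aux`-free level `B`** for the base point
of a `W`-context with `p ∤ B`.

`exists_signs_hub_B` : from `Hub.OldAtAux` (the system of the base point `π₀` occurs at the level `B`, helper7) an
eigensystem `ev₀` with `ev₀ = aBase` off the primes of `B`, `ev₀ r² = 1` at the primes `r ∣ B`, and a non-zero
eigenlattice at the level `B` dropping `Aux ∪ {p}` (helper6's `Nu.exists_eigen_of_char`, helper5's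
`Min.HS6.exists_signs_of_anemic`, helper7's `WIn.hnew_B`).
-/
import Mathlib
import Fermat.Agent.S59lib.Hub.HSInst
import Fermat.Agent.S59lib.Nu.HSEig
import Fermat.Agent.S59lib.Min.HS6.Signs

set_option autoImplicit false
set_option linter.unusedSectionVars false
set_option linter.unusedVariables false
set_option linter.style.haveILetI false

noncomputable section

namespace Fermat.Agent.S59lib.RT

open Fermat.Agent.S43lib.Mod4 Fermat.Agent.S43lib.Mod4.Hub Fermat.Agent.S59lib.Hub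

open IsLocalRing CuspForm Fermat.Agent.S59lib.N3

variable (I : WIn) (𝒟 : DefType) (gs : GSFor I.p I.Smin 𝒟) (hT : I.HeckeTypeFor 𝒟)

set_option maxHeartbeats 1000000 in
/-- **the signs at the level `B`** (`p ∤ B`) -/
theorem exists_signs_hub_B (hpB : ¬ I.p ∣ I.B) (Sg : SideGal (I.mkCtx 𝒟 gs hT) ∅)
    (π₀ : (Tmin Sg).R →ₐ[Sg.𝒪] Sg.𝒪) (hold : OldAtAux (I.mkCtx 𝒟 gs hT) Sg π₀) :
    haveI : NeZero I.B := ⟨I.B_ne_zero⟩
    ∃ ev₀ : ℕ → Sg.𝒪, (∀ ℓ : ℕ, ¬ ℓ ∣ I.B → ev₀ ℓ = aBase Sg π₀ ℓ) ∧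
      (∀ r : ℕ, r.Prime → r ∣ I.B → ev₀ r * ev₀ r = 1) ∧
      eigO Sg.𝒪 I.B (fun ℓ => ℓ ∈ I.Aux ∪ {I.p}) ev₀ ≠ ⊥ := by
  classical
  haveI : NeZero I.B := ⟨I.B_ne_zero⟩
  letI : Algebra (ZMod I.p) (ResidueField Sg.𝒪) := Sg.instAlgebraZMod
  obtain ⟨B', hB'0, hB', χ', hχ'⟩ := hold
  have hBB : B' = I.B :=
    Nat.eq_of_mul_eq_mul_right (Nat.pos_of_ne_zero I.squarefree_auxProd.ne_zero)
      (show B' * I.auxProd = I.B * I.auxProd from hB'.symm)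
  subst hBB
  -- membership in the Hecke set
  have hSmem : ∀ ℓ : ℕ, ℓ ∈ (↑(Sg.S ∪ (I.mkCtx 𝒟 gs hT).Aux) : Set ℕ) ↔
      (ℓ = I.p ∨ ℓ ∈ I.B.primeFactors) ∨ ℓ ∈ I.Aux := by
    intro ℓ
    rw [Finset.mem_coe, Finset.mem_union, Finset.mem_union]
    constructor
    · rintro ((h | h) | h)
      · exact Or.inl (Finset.mem_insert.1 h)
      · exact absurd h (Finset.notMem_empty ℓ)
      · exact Or.inr h
    · rintro (h | h)
      · exact Or.inl (Or.inl (Finset.mem_insert.2 h))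
      · exact Or.inr h
  have hR0S : ∀ ℓ : ℕ, ℓ.Prime → ℓ ∉ (↑(Sg.S ∪ (I.mkCtx 𝒟 gs hT).Aux) : Set ℕ) →
      ¬ ℓ ∣ lvlTw (I.mkCtx 𝒟 gs hT) Sg.S := by
    intro ℓ hℓ hℓS hd
    rw [lvlTw_S Sg] at hd
    apply hℓS
    rw [hSmem]
    rcases Finset.mem_union.1 (I.R0_primes ℓ hℓ hd) with h | h
    · exact Or.inl (Finset.mem_insert.1 h)
    · exact Or.inr h
  -- the anemic eigenvector
  obtain ⟨x, hx0, hx⟩ := Fermat.Agent.S59lib.Nu.exists_eigen_of_char (𝒪 := Sg.𝒪) χ'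
  have hne : eigO Sg.𝒪 I.B (fun ℓ => (ℓ ∈ I.Aux ∪ {I.p}) ∨ ℓ ∈ I.B.primeFactors)
      (aBase Sg π₀) ≠ ⊥ := by
    intro h
    apply hx0
    have hxm : x ∈ eigO Sg.𝒪 I.B (fun ℓ => (ℓ ∈ I.Aux ∪ {I.p}) ∨ ℓ ∈ I.B.primeFactors)
        (aBase Sg π₀) := by
      refine ⟨fun ℓ hℓ hℓB hP => ?_, fun r hr hrB hP => ?_⟩
      · have hℓS : ℓ ∉ (↑(Sg.S ∪ (I.mkCtx 𝒟 gs hT).Aux) : Set ℕ) := by
          rw [hSmem]
          rintro ((h | h) | h)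
          · exact hP (Or.inl (Finset.mem_union_right _ (Finset.mem_singleton.2 h)))
          · exact hP (Or.inr h)
          · exact hP (Or.inl (Finset.mem_union_left _ h))
        rw [hx ℓ hℓ hℓB hℓS, hχ' ℓ hℓ hℓB (hR0S ℓ hℓ hℓS) hℓS,
          hev0_hub Sg π₀ ℓ hℓ (hR0S ℓ hℓ hℓS) hℓS]
      · exact absurd (Or.inr (Nat.mem_primeFactors.2 ⟨hr, hrB, NeZero.ne I.B⟩)) hP
    rw [h] at hxm
    exact (Submodule.mem_bot _).1 hxm
  -- the signs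
  obtain ⟨ev', h1, h2, h3⟩ := Fermat.Agent.S59lib.Min.HS6.exists_signs_of_anemic (𝒪 := Sg.𝒪)
    (M := I.B) I.B.primeFactors (fun ℓ => ℓ ∈ I.Aux ∪ {I.p})
    (S := (↑(Sg.S ∪ (I.mkCtx 𝒟 gs hT).Aux) : Set ℕ))
    (fun r hr => ⟨Nat.prime_of_mem_primeFactors hr, Nat.dvd_of_mem_primeFactors hr, fun h =>
      (Nat.prime_of_mem_primeFactors hr).one_lt.ne' (Nat.isUnit_iff.mp (I.B_sq r h))⟩)
    (fun q hq hqB => (hSmem q).2 (Or.inl (Or.inr (Nat.mem_primeFactors.2 ⟨hq, hqB, NeZero.ne I.B⟩))))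
    (fun ℓ hℓ hℓB hℓS hD => hℓS ((hSmem ℓ).2 (by
      rcases Finset.mem_union.1 hD with h | h
      · exact Or.inr h
      · exact Or.inl (Or.inl (Finset.mem_singleton.1 h)))))
    (aBase Sg π₀) hne
    (fun r hr M' _ hBM hrM' => by
      have hrp : r.Prime := Nat.prime_of_mem_primeFactors hr
      have hrB : r ∣ I.B := Nat.dvd_of_mem_primeFactors hr
      have hrne : r ≠ I.p := fun h => hpB (h ▸ hrB)
      refine I.hnew_B Sg.S rfl (fun ℓ => residue Sg.𝒪 (aBase Sg π₀ ℓ)) (fun ℓ hℓ hℓS hgood => ?_)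
        r M' hrp hrne hBM hrM'
      have hℓS' : ℓ ∉ (↑(Sg.S ∪ (I.mkCtx 𝒟 gs hT).Aux) : Set ℕ) := fun h =>
        hℓS (Finset.mem_coe.1 h)
      have h4 := I.residue_point_eq_ap 𝒟 gs hT Sg Sg.S (Sg.hgoodS (thyp_empty _)) π₀ ℓ hℓ
        (hR0S ℓ hℓ hℓS') hℓS' hgood
      rw [hev0_hub Sg π₀ ℓ hℓ (hR0S ℓ hℓ hℓS') hℓS'] at h4
      exact h4)
  refine ⟨ev', fun ℓ hℓB => h1 ℓ fun h => hℓB (Nat.dvd_of_mem_primeFactors h), fun r hr hrB =>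
    h2 r (Nat.mem_primeFactors.2 ⟨hr, hrB, NeZero.ne I.B⟩), h3⟩

end Fermat.Agent.S59lib.RT
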