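/-
S59lib / RT / PStepInst  (helper9) — Project I, block PSTEP on the hub: **proof of `PStepHeckeStmt`**, hence of
`Hub.PStepCoreStmt`.

The abstract chain + `p`-step `RT.pstep_hecke_abs` (helper2's `HS.congL_chain_le`, `HS.hs_pstep`) instantiated on the hub:
base level `R0 = B ∏ Aux` (`Aux.card ≤ 1`), dropped primes `D = Aux ∪ {p}`, the chain along the list of the primes of `Σ`
(`N = lvlTw P (Smin ∪ Σ) = R0 ∏ q²`), top level `lvlOrd = N p`;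
* the eigensystem `ev₀` = the system `aBase` of the base point with the signs at the primes of `B`
  (`RT.exists_signs_hub_B`, from helper7's `OldAtAux`);
* the rank inputs `RT.rankData_of_card_le_one` (helper4's strong multiplicity one, helper2's chain with one auxiliary prime);
* `hbase` = helper5's `Min.HS6.hbase_hub`; newness = helper7's `WIn.hone_hub`, `WIn.hone_hub_ord`.
-/
import Mathlib
import Fermat.Agent.S59lib.RT.PStepCore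
import Fermat.Agent.S59lib.RT.PStepHecke
import Fermat.Agent.S59lib.RT.PStepRank
import Fermat.Agent.S59lib.RT.PStepSign
import Fermat.Agent.S59lib.Min.HS6.HubBase

set_option autoImplicit false
set_option linter.unusedSectionVars false
set_option linter.unusedVariables false
set_option linter.style.haveILetI false

noncomputable section

namespace Fermat.Agent.S59lib.RT

open Fermat.Agent.S43lib.Mod4 Fermat.Agent.S43lib.Mod4.Hub Fermat.Agent.S59lib.Hub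

open IsLocalRing CuspForm Fermat.Agent.S59lib.N3 Fermat.Agent.S59lib.HS

local notation "GQ" => (AlgebraicClosure ℚ ≃ₐ[ℚ] AlgebraicClosure ℚ)
local notation "Qb" => AlgebraicClosure ℚ

variable (I : WIn) (𝒟 : DefType) (gs : GSFor I.p I.Smin 𝒟) (hT : I.HeckeTypeFor 𝒟)

set_option maxHeartbeats 4000000 in
set_option synthInstance.maxHeartbeats 400000 in
/-- **the Hecke side of `PStepCoreStmt`**, for any type of `W`-context -/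
theorem pstep_hecke_mk (hpB : ¬ I.p ∣ I.B) (hcard : I.Aux.card ≤ 1)
    (Sg : SideGal (I.mkCtx 𝒟 gs hT) ∅) (hty : TypeOK (I.mkCtx 𝒟 gs hT) Sg) {N : ℕ} (hN : N ∣ I.B)
    (hmod : I.IsMod N) (π₀ : (Tmin Sg).R →ₐ[Sg.𝒪] Sg.𝒪) (hold : OldAtAux (I.mkCtx 𝒟 gs hT) Sg π₀)
    (Sig : Finset ℕ) (hSig : Sg.good (Sg.S ∪ Sig)) (hdisj : Disjoint Sg.S Sig)
    (πS : (Sg.F (Sg.S ∪ Sig) hSig).R →ₐ[Sg.𝒪] Sg.𝒪)
    (hπStr : ∀ σ : GQ, πS ((Sg.F (Sg.S ∪ Sig) hSig).ρ.trace σ) = π₀ ((Tmin Sg).ρ.trace σ))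
    (Dt : OrdDatum Sg (Sg.S ∪ Sig))
    (π' : heckeLocal (lvlOrd (I.mkCtx 𝒟 gs hT) (Sg.S ∪ Sig))
      (↑((Sg.S ∪ Sig) ∪ (I.mkCtx 𝒟 gs hT).Aux) : Set ℕ) Sg.𝒪 Dt.θ →ₐ[Sg.𝒪] Sg.𝒪)
    (hπ' : ∀ σ : GQ, π' (Dt.H.ρ.trace σ) = π₀ ((Tmin Sg).ρ.trace σ)) :
    ∃ (N' : ℕ) (_ : NeZero N') (_ : N' = lvlTw (I.mkCtx 𝒟 gs hT) (Sg.S ∪ Sig)) (t : Sg.𝒪)
        (x : N3.MO Sg.𝒪 N'), x ≠ 0 ∧
      (∀ (ℓ : ℕ) (hℓ : ℓ.Prime) (hℓN' : ¬ ℓ ∣ N')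
        (hℓN : ¬ ℓ ∣ lvlTw (I.mkCtx 𝒟 gs hT) (Sg.S ∪ Sig))
        (hℓS : ℓ ∉ (↑((Sg.S ∪ Sig) ∪ (I.mkCtx 𝒟 gs hT).Aux) : Set ℕ)),
        N3.tO Sg.𝒪 hℓ hℓN' x =
          πS (heckeLocal.π (lvlTw (I.mkCtx 𝒟 gs hT) (Sg.S ∪ Sig))
            (↑((Sg.S ∪ Sig) ∪ (I.mkCtx 𝒟 gs hT).Aux) : Set ℕ) Sg.𝒪 (Sg.D.θ (Sg.S ∪ Sig) hSig)
            (heckeAlgebra.T hℓ hℓN hℓS)) • x) ∧
      (∀ hpN : ¬ (I.mkCtx 𝒟 gs hT).p ∣ N', N3.tO Sg.𝒪 (I.mkCtx 𝒟 gs hT).pp hpN x = t • x) ∧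
      ∀ α β : Sg.𝒪, IsUnit α → α ^ 2 - t * α + ((I.mkCtx 𝒟 gs hT).p : Sg.𝒪) = 0 →
        β ^ 2 - t * β + ((I.mkCtx 𝒟 gs hT).p : Sg.𝒪) = 0 → IsUnit (α - β) →
        Module.length Sg.𝒪 (Sg.𝒪 ⧸ Ideal.span {α ^ 2 - 1}) +
            (Module.length Sg.𝒪 (Sg.𝒪 ⧸ NumCrit.congIdeal π₀) +
              ∑ q ∈ Sig, Module.length Sg.𝒪 (Sg.𝒪 ⧸ Ideal.span {RT.cTame (aBase Sg π₀) q})) ≤
          Module.length Sg.𝒪 (Sg.𝒪 ⧸ NumCrit.congIdeal π') := by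
  classical
  haveI : NeZero I.B := ⟨I.B_ne_zero⟩
  haveI : NeZero I.R0 := ⟨I.R0_sq.ne_zero⟩
  letI : Algebra (ZMod I.p) (ResidueField Sg.𝒪) := Sg.instAlgebraZMod
  have hpp : I.p.Prime := I.pp
  have hpR0 : ¬ (I.mkCtx 𝒟 gs hT).p ∣ (I.mkCtx 𝒟 gs hT).R0 := fun h => hpB (I.p_dvd_R0_iff.1 h)
  have hSigp : ∀ q ∈ Sig, q.Prime := fun q hq => hSig.2.1 q (Finset.mem_union_right _ hq)
  have hBR0 : I.B ∣ I.R0 := ⟨I.auxProd, rfl⟩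
  have hR0S : lvlTw (I.mkCtx 𝒟 gs hT) Sg.S = I.R0 := lvlTw_S Sg
  have hR0N : I.R0 ∣ lvlTw (I.mkCtx 𝒟 gs hT) (Sg.S ∪ Sig) := R0_dvd_lvlTw (I.mkCtx 𝒟 gs hT) (Sg.S ∪ Sig)
  have hNM : lvlTw (I.mkCtx 𝒟 gs hT) (Sg.S ∪ Sig) ∣ lvlOrd (I.mkCtx 𝒟 gs hT) (Sg.S ∪ Sig) :=
    lvlTw_dvd_lvlOrd (Sg.S ∪ Sig)
  -- the list of the primes of `Σ`
  obtain ⟨l, hlnd, hlmem, hlall, hlvl, hsum⟩ := exists_list_sigma Sg Sig hSigp hdisj
  have hlvl' : lvlTw (I.mkCtx 𝒟 gs hT) (Sg.S ∪ Sig) = lvlP I.R0 l := hlvl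
  -- the signs
  obtain ⟨ev₀, hev₀, hsign, hneB⟩ := exists_signs_hub_B I 𝒟 gs hT hpB Sg π₀ hold
  -- membership facts
  have hpS : I.p ∈ Sg.S := Finset.mem_union_left _ I.hpSmin
  have hSigAux : ∀ q ∈ Sig, q ∉ I.Aux := fun q hq hA =>
    Finset.disjoint_left.1 hSig.2.2 (Finset.mem_union_right _ hq) hA
  have hSigS : ∀ q ∈ Sig, q ∉ Sg.S := fun q hq hS => Finset.disjoint_left.1 hdisj hS hq
  have hSigR0 : ∀ q ∈ Sig, ¬ q ∣ I.R0 := by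
    intro q hq hd
    rcases Finset.mem_union.1 (I.R0_primes q (hSigp q hq) hd) with h | h
    · exact hSigS q hq (Finset.mem_union_left _ h)
    · exact hSigAux q hq h
  have hAuxS : ∀ r ∈ I.Aux, r ∉ Sg.S := by
    intro r hr hS
    rcases Finset.mem_union.1 hS with h | h
    · exact Finset.disjoint_left.1 I.Aux_disj h hr
    · exact absurd h (Finset.notMem_empty r)
  -- the auxiliary non-Eisenstein prime
  obtain ⟨ℓ₁, hℓ₁, hℓ₁S₁, hℓ₁R, hℓ₁S, hu₁⟩ := hu_hub Sg π₀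
    ((lvlOrd (I.mkCtx 𝒟 gs hT) (Sg.S ∪ Sig)).primeFactors ∪ (I.Aux ∪ {I.p}))
  have hℓ₁M : ¬ ℓ₁ ∣ lvlOrd (I.mkCtx 𝒟 gs hT) (Sg.S ∪ Sig) := fun h =>
    hℓ₁S₁ (Finset.mem_union_left _ (Nat.mem_primeFactors.2 ⟨hℓ₁, h, NeZero.ne _⟩))
  have hℓ₁D : ℓ₁ ∉ I.Aux ∪ {I.p} := fun h => hℓ₁S₁ (Finset.mem_union_right _ h)
  have hℓ₁N : ¬ ℓ₁ ∣ lvlP I.R0 l := fun h => hℓ₁M ((hlvl' ▸ h : ℓ₁ ∣ lvlTw _ _).trans hNM)
  have hℓ₁B : ¬ ℓ₁ ∣ I.B := fun h => hℓ₁N ((h.trans hBR0).trans (hlvl' ▸ hR0N))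
  have hu : IsUnit (ev₀ ℓ₁ - ((ℓ₁ : Sg.𝒪) + 1)) := by
    rw [hev₀ ℓ₁ hℓ₁B]
    exact hu₁
  -- the rank data
  have hlq : ∀ q ∈ l, ¬ ((q : Nat.Primes) : ℕ) ∣ I.R0 ∧ ((q : Nat.Primes) : ℕ) ∉ I.Aux ∪ {I.p} := by
    intro q hq
    have hqS := hlmem q hq
    refine ⟨hSigR0 _ hqS, fun h => ?_⟩
    rcases Finset.mem_union.1 h with h | h
    · exact hSigAux _ hqS h
    · exact hSigS _ hqS (by rw [Finset.mem_singleton.1 h]; exact hpS)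
  obtain ⟨hok, hneR, hTP, hrk1, hrk2⟩ := rankData_of_card_le_one (𝒪 := Sg.𝒪) (p := I.p) I.hp2 Sg.hp𝒪
    (B := I.B) (R0 := I.R0) I.Aux hcard rfl
    (fun r hr => ⟨(I.Aux_spec r hr).1, (I.Aux_spec r hr).2.1, (I.Aux_spec r hr).2.2.1⟩) hpB ev₀ hneB
    hℓ₁ hℓ₁D hu l hlnd hℓ₁N hlq
  have hpN : ¬ I.p ∣ lvlP I.R0 l := fun h =>
    not_p_dvd_lvlTw hpR0 (Sg.S ∪ Sig) (hlvl'.symm ▸ h)
  obtain ⟨t, ht⟩ := hTP hpN
  -- the eigenvector at the top of the chain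
  have hneT : eigO Sg.𝒪 (lvlP I.R0 l) (fun ℓ => ℓ ∈ I.Aux ∪ {I.p}) (evP ev₀ l) ≠ ⊥ :=
    eigO_ne_bot_top I.hp2 Sg.hp𝒪 I.R0 (fun ℓ => ℓ ∈ I.Aux ∪ {I.p}) ev₀ hℓ₁ hℓ₁D hu hneR l hok hℓ₁N
  obtain ⟨x, hx, hx0⟩ := (Submodule.ne_bot_iff _).1 hneT
  -- the values of the system off the level
  have hevP : ∀ ℓ : ℕ, ¬ ℓ ∣ lvlP I.R0 l → evP ev₀ l ℓ = aBase Sg π₀ ℓ := by
    intro ℓ hℓN
    rw [evP_of_not_dvd ev₀ I.R0 hℓN]
    exact hev₀ ℓ fun h => hℓN ((h.trans hBR0).trans (hlvl' ▸ hR0N))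
  refine ⟨lvlP I.R0 l, inferInstance, hlvl'.symm, t, x, hx0, ?_, fun hpN' => ht x hx, ?_⟩
  · -- the eigenvector
    intro ℓ hℓ hℓN' hℓN hℓS
    rw [hev_hub Sg π₀ Sig hSig πS hπStr ℓ hℓ hℓN hℓS, ← hevP ℓ hℓN']
    refine hx.1 ℓ hℓ hℓN' fun hD => hℓS ?_
    rcases Finset.mem_union.1 hD with h | h
    · exact Finset.mem_coe.2 (Finset.mem_union_right _ h)
    · rw [Finset.mem_singleton.1 h]
      exact Finset.mem_coe.2 (Finset.mem_union_left _ (Finset.mem_union_left _ hpS))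
  · -- the inequality
    intro α β hαu hα hβ hαβ
    have hM : lvlOrd (I.mkCtx 𝒟 gs hT) (Sg.S ∪ Sig) = lvlP I.R0 l * I.p := by
      show lvlTw (I.mkCtx 𝒟 gs hT) (Sg.S ∪ Sig) * I.p = _
      rw [hlvl']
    have hNdvd : lvlP I.R0 l ∣ lvlOrd (I.mkCtx 𝒟 gs hT) (Sg.S ∪ Sig) := ⟨I.p, hM⟩
    have hN' : N ∣ M₀ (I.mkCtx 𝒟 gs hT) ∅ := by
      rw [M₀_empty]
      exact hN.trans hBR0
    -- `hbase`
    have hbase := Fermat.Agent.S59lib.Min.HS6.hbase_hub Sg hN' hmod hty π₀ ev₀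
      (fun ℓ hℓ hℓN hℓS => by
        rw [hev0_hub Sg π₀ ℓ hℓ hℓN hℓS]
        exact (hev₀ ℓ fun h => hℓN (hR0S ▸ h.trans hBR0)).symm)
      I.R0 (M₀_empty (I.mkCtx 𝒟 gs hT)).symm (fun ℓ => ℓ ∈ I.Aux ∪ {I.p})
      (fun ℓ hℓ hℓR => by
        constructor
        · intro h
          rcases Finset.mem_union.1 h with h | h
          · exact absurd (I.Aux_dvd ℓ h) hℓR
          · exact Finset.mem_singleton.1 h
        · intro h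
          exact Finset.mem_union_right _ (Finset.mem_singleton.2 h))
      (fun r M'' _ hr hRM hrM'' hrD => by
        have hrA : r ∉ I.Aux := fun h => hrD (Finset.mem_union_left _ h)
        have hrp : r ≠ I.p := fun h => hrD (Finset.mem_union_right _ (Finset.mem_singleton.2 h))
        have hrR : r ∣ I.R0 := ⟨M'', by rw [hRM, mul_comm]⟩
        have hrB : r ∣ I.B := by
          rcases (Nat.Prime.dvd_mul hr).1 hrR with h | h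
          · exact h
          · exact absurd (I.prime_dvd_auxProd hr h) hrA
        refine ⟨hsign r hr hrB, ?_⟩
        rintro ⟨χ, hχ⟩
        refine I.hone_hub 𝒟 gs hT Sg Sg.S (Sg.hgoodS (thyp_empty _)) r M'' hr hrp hrA
          (hR0S.trans hRM) hrM'' ⟨χ, fun ℓ hℓ hℓM hℓM'' hℓS => ?_⟩
        have hℓR : ¬ ℓ ∣ I.R0 := fun h => hℓM (hR0S ▸ h)
        refine (hχ ℓ hℓ hℓR hℓM'' hℓS).trans ?_
        rw [hev₀ ℓ fun h => hℓR (h.trans hBR0), residue_aBase Sg π₀ ℓ hℓ hℓM hℓS]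
        exact (hubHyp_hθ Sg Sg.S (Sg.hgoodS (thyp_empty _)) ℓ hℓ hℓM hℓS).symm)
    -- the abstract statement
    have key := pstep_hecke_abs (𝒪 := Sg.𝒪) (p := I.p) I.hp2 Sg.hp𝒪 (R0 := I.R0) l
      (N := lvlP I.R0 l) rfl hpN (M := lvlOrd (I.mkCtx 𝒟 gs hT) (Sg.S ∪ Sig)) hM
      (S := (↑((Sg.S ∪ Sig) ∪ (I.mkCtx 𝒟 gs hT).Aux) : Set ℕ)) Dt.θ
      (fun q hq hd => Finset.mem_coe.2 (lvlOrd_primes_mem hSig q hq hd)) π'
      (fun ℓ => ℓ ∈ I.Aux ∪ {I.p}) (Finset.mem_union_right _ (Finset.mem_singleton_self _))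
      (fun ℓ hℓ hℓM => by
        constructor
        · intro h
          exfalso
          rcases Finset.mem_union.1 h with h | h
          · exact hℓM (((I.Aux_dvd ℓ h).trans hR0N).trans hNM)
          · rw [Finset.mem_singleton.1 h] at hℓM
            exact hℓM ⟨lvlP I.R0 l, by rw [hM, mul_comm]⟩
        · intro h
          exact absurd (goodTw_hSdvd hSig ℓ (Finset.mem_coe.1 h)).2 hℓM)
      ev₀
      (fun ℓ hℓ hℓM hℓS => by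
        rw [hev_hub_ord Sg π₀ (Sg.S ∪ Sig) Dt π' hπ' ℓ hℓ hℓM hℓS]
        exact (hevP ℓ fun h => hℓM (h.trans hNdvd)).symm)
      t α β hα hβ hαβ ht
      (fun q hq hqp hqq hqD => by
        -- `q² ∣ N p`, `q ≠ p` : `q ∈ Σ`
        have h2 : q ^ 2 ∣ lvlTw (I.mkCtx 𝒟 gs hT) (Sg.S ∪ Sig) := by
          rw [← pow_dvd_lvlOrd_iff hq hqp (Sg.S ∪ Sig) 2, pow_two]
          exact hqq
        have h3 : q ∣ tp (I.mkCtx 𝒟 gs hT) (Sg.S ∪ Sig) := by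
          by_contra h
          exact not_sq_dvd_lvlTw (I.mkCtx 𝒟 gs hT) hq (Sg.S ∪ Sig) h h2
        obtain ⟨h4, h5⟩ := prime_dvd_tp (I.mkCtx 𝒟 gs hT) hq h3
        have hqSig : q ∈ Sig := by
          rcases Finset.mem_union.1 h4 with h | h
          · rcases Finset.mem_union.1 h with h' | h'
            · exact absurd h' h5
            · exact absurd h' (Finset.notMem_empty q)
          · exact h
        obtain ⟨q', hq'l, hq'q⟩ := hlall q hqSig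
        refine ⟨?_, isUnit_natCast_of_prime_ne Sg.hp𝒪 hq hqp, fun h => ?_⟩
        · rw [← hq'q]
          exact evP_of_mem ev₀ hq'l
        · refine lvlOrd_hcube hpR0 hSig q hq ?_
          have : q ^ 3 = q * q * q := by ring
          rw [this]
          exact h)
      (fun r M' _ hr hrp hMr hrM' hrD => by
        have hrA : r ∉ I.Aux := fun h => hrD (Finset.mem_union_left _ h)
        refine ⟨?_, I.hone_hub_ord 𝒟 gs hT Sg (Sg.S ∪ Sig) hSig Dt r M' hr hrp hrA hMr hrM'⟩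
        -- `r ∥ N p`, `r ≠ p`, `r ∉ Aux` : `r ∣ B`
        have hrd : r ∣ lvlOrd (I.mkCtx 𝒟 gs hT) (Sg.S ∪ Sig) := ⟨M', by rw [hMr, mul_comm]⟩
        have hr2 : ¬ r ^ 2 ∣ lvlOrd (I.mkCtx 𝒟 gs hT) (Sg.S ∪ Sig) := by
          intro h
          rw [hMr, pow_two] at h
          exact hrM' ((Nat.mul_dvd_mul_iff_right hr.pos).1 h)
        have hrd' : r ∣ lvlTw (I.mkCtx 𝒟 gs hT) (Sg.S ∪ Sig) := by
          have := (pow_dvd_lvlOrd_iff (P := I.mkCtx 𝒟 gs hT) hr hrp (Sg.S ∪ Sig) 1).1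
            (by rw [pow_one]; exact hrd)
          rwa [pow_one] at this
        have hr2' : ¬ r ^ 2 ∣ lvlTw (I.mkCtx 𝒟 gs hT) (Sg.S ∪ Sig) := fun h =>
          hr2 ((pow_dvd_lvlOrd_iff (P := I.mkCtx 𝒟 gs hT) hr hrp (Sg.S ∪ Sig) 2).2 h)
        have hrS : r ∈ I.Smin := I.mem_Smin_of_dvd_lvlTw 𝒟 gs hT (Sg.S ∪ Sig) hr hrA hrd' hr2'
        have hrB : r ∣ I.B := (I.mem_Smin_iff hr hrp).1 hrS
        have hrl : ∀ q ∈ l, r ≠ ((q : Nat.Primes) : ℕ) := fun q hq h =>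
          hSigS _ (hlmem q hq) (h ▸ Finset.mem_union_left _ hrS)
        rw [evP_of_forall_ne ev₀ r hrl]
        exact hsign r hr hrB)
      hℓ₁ hℓ₁N hℓ₁D hu hok hneR
      (Module.length Sg.𝒪 (Sg.𝒪 ⧸ NumCrit.congIdeal π₀)) hbase.le (hrk1 _) hrk2
    -- the shape of the sum
    have hs : (l.map fun q : Nat.Primes => Module.length Sg.𝒪
        (Sg.𝒪 ⧸ (Ideal.span {cTw (q : ℕ) (ev₀ q)} : Ideal Sg.𝒪))).sum =
        ∑ q ∈ Sig, Module.length Sg.𝒪 (Sg.𝒪 ⧸ Ideal.span {RT.cTame (aBase Sg π₀) q}) := by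
      refine (hsum fun q => Module.length Sg.𝒪
        (Sg.𝒪 ⧸ (Ideal.span {cTw q (ev₀ q)} : Ideal Sg.𝒪))).trans ?_
      refine Finset.sum_congr rfl fun q hq => ?_
      rw [span_cTw_eq_span_cTame Sg ev₀ q]
      have : RT.cTame ev₀ q = RT.cTame (aBase Sg π₀) q := by
        unfold RT.cTame
        rw [hev₀ q fun h => hSigR0 q hq (h.trans hBR0)]
      rw [this]
    rw [hs] at key
    rw [add_comm]
    exact key

/-- **the Hecke side of `PStepCoreStmt`** -/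
theorem pStepHeckeStmt : PStepHeckeStmt := by
  intro I hfl hRO hbad hpB hcard Sg N hN hmod π₀ hold Sig hSig hdisj πS hπStr Dt π' hπ'
  exact pstep_hecke_mk I (fun 𝒪 _ S' => Fermat.Agent.S56lib.Main.𝒟fl 𝒪 I.p I.Smin S')
    (Fermat.Agent.S59lib.StrictFam.gs_surj_flat I.p I.hp2 I.Smin I.hpSmin) (I.heckeType_flat hfl)
    hpB hcard Sg (I.typeOK_ctxFlat hfl Sg) hN hmod π₀ hold Sig hSig hdisj πS hπStr Dt π' hπ'

/-- **`Hub.PStepCoreStmt`** -/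
theorem pStepCoreStmt : PStepCoreStmt := pStepCoreStmt_of pStepHeckeStmt

end Fermat.Agent.S59lib.RT
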