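/-
S59lib / RT / UnitRoot  (helper9) — Project I, block RT on trace rings, seam (S-root): **the unit root at the base point**.

* `exists_basis_matOf_map` : a basis of a base change `ρ ⊗_ψ O` along a surjection lifts to a basis of `ρ`;
* `eq_of_unit_roots` : the unit root of `X² − t X + p` is unique;
* **`unitRootAt_of_heckeDatum`** : `RT.UnitRootAt` for the base point `π₀` of a Hecke datum of level prime to `p`:
  every ordinary trace ring with an augmentation having the traces of the base point has unramified quotient scalar `α`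
  (the unit root of `X² − a_p X + p`) at the Frobenius element `globFrobAt p` (Carayol + lifting of bases + the pointwise
  PS5 `unitRoot_eq_point`).
-/
import Fermat.Agent.S59lib.RT.UnitRootPt
import Fermat.Agent.S59lib.RT.PStep
import Fermat.Agent.S59lib.Min.Carayol
import Fermat.Agent.S59lib.Join.Core

set_option autoImplicit false
set_option linter.unusedSectionVars false
set_option linter.style.haveILetI false

noncomputable section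

namespace Fermat.Agent.S59lib.RT

open IsLocalRing Fermat.Agent.S19lib Fermat.Agent.TeamA.Rep

/-- `ℚ̄` -/
local notation "Qb" => AlgebraicClosure ℚ
/-- `G_ℚ` -/
local notation "GQ" => (AlgebraicClosure ℚ ≃ₐ[ℚ] AlgebraicClosure ℚ)

section Lift

variable {T O : Type} [CommRing T] [IsLocalRing T] [CommRing O] [IsLocalRing O]

/-- the matrix of an endomorphism in a basis transformed by an invertible matrix -/
theorem exists_basis_conj {V : Type*} [AddCommGroup V] [Module T V] (b : Module.Basis (Fin 2) T V)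
    (P : Matrix (Fin 2) (Fin 2) T) (hP : IsUnit P.det) :
    ∃ b' : Module.Basis (Fin 2) T V, ∀ f : Module.End T V,
      P * LinearMap.toMatrix b' b' f = LinearMap.toMatrix b b f * P := by
  have hPdet : IsUnit (LinearMap.toMatrix b b (Matrix.toLin b b P)).det := by
    rw [LinearMap.toMatrix_toLin]; exact hP
  let e := LinearEquiv.ofIsUnitDet hPdet
  have he : (e : V →ₗ[T] V) = Matrix.toLin b b P := rfl
  refine ⟨b.map e, fun f => ?_⟩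
  have h1 : LinearMap.toMatrix (b.map e) (b.map e) f =
      LinearMap.toMatrix b b ((e.symm : V →ₗ[T] V) ∘ₗ f ∘ₗ (e : V →ₗ[T] V)) := by
    ext i j
    rw [LinearMap.toMatrix_apply, LinearMap.toMatrix_apply, Module.Basis.map_apply,
      Module.Basis.map_repr, LinearEquiv.trans_apply]
    rfl
  have h2 : LinearMap.toMatrix b b (e : V →ₗ[T] V) = P := by rw [he, LinearMap.toMatrix_toLin]
  have h3 : P * LinearMap.toMatrix b b (e.symm : V →ₗ[T] V) = 1 := by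
    rw [← h2, ← LinearMap.toMatrix_comp b b b]
    have : (e : V →ₗ[T] V) ∘ₗ (e.symm : V →ₗ[T] V) = LinearMap.id := by
      ext x; simp
    rw [this, LinearMap.toMatrix_id]
  rw [h1, LinearMap.toMatrix_comp b b b, LinearMap.toMatrix_comp b b b, h2, ← Matrix.mul_assoc,
    ← Matrix.mul_assoc, h3, Matrix.one_mul]

/-- **a basis of a base change along a surjection lifts** -/
theorem exists_basis_matOf_map (ψ : T →+* O) (hψ : IsLocalHom ψ) (hsurj : Function.Surjective ψ)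
    (ρ : GaloisRepAdic T) (ρ' : GaloisRepAdic O) (b' : Module.Basis (Fin 2) O ρ'.V)
    (h : (ρ.baseChangeAlong ψ hψ).IsEquiv ρ') :
    ∃ b : Module.Basis (Fin 2) T ρ.V, ∀ σ, (matOf ρ b σ).map ψ = matOf ρ' b' σ := by
  haveI := hψ
  let b₀ : Module.Basis (Fin 2) T ρ.V := Module.finBasisOfFinrankEq T ρ.V ρ.finrank_eq
  obtain ⟨M, M', h1, h2, hc⟩ := Fermat.Agent.TeamA.Rep.exists_conj_of_isEquiv _ _
    (Fermat.Agent.TeamA.Rep.bcBasis ψ hψ ρ b₀) b' h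
  -- lift `M'`
  choose l hl using hsurj
  let P : Matrix (Fin 2) (Fin 2) T := Matrix.of fun i j => l (M' i j)
  have hPM : P.map ψ = M' := by
    ext i j
    rw [Matrix.map_apply]
    exact hl _
  have hPdet : IsUnit P.det := by
    have h3 : ψ P.det = M'.det := by rw [RingHom.map_det, RingHom.mapMatrix_apply, hPM]
    have h4 : IsUnit M'.det := by
      have : M'.det * M.det = 1 := by rw [← Matrix.det_mul, h2, Matrix.det_one]
      exact IsUnit.of_mul_eq_one _ this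
    rw [← h3] at h4
    exact isUnit_of_map_unit ψ _ h4
  obtain ⟨b, hb⟩ := exists_basis_conj b₀ P hPdet
  refine ⟨b, fun σ => ?_⟩
  have h5 : M' * (matOf ρ b σ).map ψ = (matOf ρ b₀ σ).map ψ * M' := by
    have := congrArg (fun X : Matrix (Fin 2) (Fin 2) T => X.map ψ) (hb (ρ.ρ σ))
    simp only [Matrix.map_mul, hPM] at this
    exact this
  have h6 := hc σ
  rw [Fermat.Agent.TeamA.Rep.matOf_baseChangeAlong] at h6
  calc (matOf ρ b σ).map ψ = M * M' * (matOf ρ b σ).map ψ := by rw [h1, Matrix.one_mul]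
    _ = M * ((matOf ρ b₀ σ).map ψ * M') := by rw [Matrix.mul_assoc, h5]
    _ = matOf ρ' b' σ * (M * M') := by rw [← Matrix.mul_assoc, h6, Matrix.mul_assoc]
    _ = matOf ρ' b' σ := by rw [h1, Matrix.mul_one]

end Lift

/-- **the unit root of `X² − t X + p` is unique** -/
theorem eq_of_unit_roots {O : Type*} [CommRing O] [IsDomain O] {t q u α : O} (hq : ¬ IsUnit q)
    (hu : IsUnit u) (hα : IsUnit α) (h1 : u ^ 2 - t * u + q = 0) (h2 : α ^ 2 - t * α + q = 0) :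
    u = α := by
  have h3 : (u - α) * (u + α - t) = 0 := by linear_combination h1 - h2
  rcases mul_eq_zero.mp h3 with h | h
  · exact sub_eq_zero.mp h
  · exfalso
    apply hq
    have h4 : q = α * u := by linear_combination h2 - α * h
    rw [h4]
    exact hα.mul hu

section Root

open Fermat.Agent.S59lib.Hub Fermat.Agent.S59lib.R3 Fermat.Agent.S43lib.B3 Fermat.Agent.TeamA.Rep ExtCitation

variable {p : ℕ} {N : ℕ} [NeZero N] {S : Finset ℕ}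
  {𝒪 : Type} [CommRing 𝒪] [IsDomain 𝒪] [IsDiscreteValuationRing 𝒪]
  [IsAdicComplete (IsLocalRing.maximalIdeal 𝒪) 𝒪] [Finite (ResidueField 𝒪)] [CharZero 𝒪]
  {θ : CuspForm.heckeAlgebra N 2 (↑S : Set ℕ) →+* IsLocalRing.ResidueField 𝒪}
  {T : Type} [CommRing T] [IsLocalRing T] [IsNoetherianRing T]
  [IsAdicComplete (IsLocalRing.maximalIdeal T) T] [Algebra 𝒪 T] [IsLocalHom (algebraMap 𝒪 T)]
  [Module.Finite 𝒪 T] [Module.Free 𝒪 T]
  {ρbar : ResidualGaloisRep (ResidueField 𝒪)}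
  {O₁ : Type} [CommRing O₁] [IsDomain O₁] [IsDiscreteValuationRing O₁]
  [IsAdicComplete (maximalIdeal O₁) O₁] [Finite (ResidueField O₁)] [CharZero O₁]
  [Algebra 𝒪 O₁] [IsLocalHom (algebraMap 𝒪 O₁)]

omit [IsAdicComplete (IsLocalRing.maximalIdeal 𝒪) 𝒪] [Finite (ResidueField 𝒪)] [CharZero 𝒪]
  [IsAdicComplete (maximalIdeal O₁) O₁] [Finite (ResidueField O₁)] [IsDiscreteValuationRing O₁]
  [IsLocalHom (algebraMap 𝒪 O₁)] in
/-- a homomorphism from a discrete valuation ring of residue characteristic `p` to a domain of characteristic zero is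
injective -/
theorem algebraMap_injective_of_charZero (hp0 : p ≠ 0) (hp𝒪 : (p : 𝒪) ∈ IsLocalRing.maximalIdeal 𝒪) :
    Function.Injective (algebraMap 𝒪 O₁) := by
  rw [injective_iff_map_eq_zero]
  intro x hx
  by_contra hx0
  obtain ⟨ϖ, hϖ⟩ := IsDiscreteValuationRing.exists_irreducible 𝒪
  obtain ⟨n, u, hxu⟩ := IsDiscreteValuationRing.eq_unit_mul_pow_irreducible hx0 hϖ
  have hϖ0 : algebraMap 𝒪 O₁ ϖ = 0 := by
    rw [hxu, map_mul, map_pow] at hx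
    rcases mul_eq_zero.mp hx with h | h
    · exact absurd h ((u.isUnit.map (algebraMap 𝒪 O₁)).ne_zero)
    · exact eq_zero_of_pow_eq_zero h
  have hpϖ : (p : 𝒪) ∈ Ideal.span {ϖ} := by
    rw [← hϖ.maximalIdeal_eq]
    exact hp𝒪
  obtain ⟨c, hc⟩ := Ideal.mem_span_singleton'.mp hpϖ
  have h0 : ((p : ℕ) : O₁) = 0 := by
    have := congrArg (algebraMap 𝒪 O₁) hc
    rw [map_mul, hϖ0, mul_zero, map_natCast] at this
    exact this.symm
  exact hp0 (by exact_mod_cast h0)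

/-- **(S-root), the point**: on a trace ring of ordinary type with an augmentation having the traces of the point `π₀`
of a Hecke datum of level prime to `p`, the unramified quotient scalar at the Frobenius element `globFrobAt p` is sent
to a unit root of `X² − a_p X + p` (`a_p` the `T_p`-eigenvalue of a character `χ'` extending the point). -/
theorem unitRoot_of_point [hpf : Fact p.Prime] (hp2 : p ≠ 2)
    (hp𝒪 : (p : 𝒪) ∈ IsLocalRing.maximalIdeal 𝒪) (hpN : ¬ p ∣ N)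
    (hpS : p ∈ S) (hNS : ∀ q : ℕ, q.Prime → q ∣ N → q ∈ S)
    (H : CuspForm.HeckeGaloisRepDatum N (↑S : Set ℕ) 𝒪 θ T)
    (habs : ρbar.IsAbsolutelyIrreducible)
    (hresH : H.ρ.residual.IsEquiv (ρbar.baseChangeAlong (ResidueField.map (algebraMap 𝒪 T))))
    (π₀ : T →ₐ[𝒪] 𝒪)
    (S' : Set ℕ) (hS' : S' ⊆ (↑S : Set ℕ)) (hpS' : p ∉ S')
    (χ' : CuspForm.heckeAlgebra N 2 S' →+* O₁)
    (hχ' : ∀ (ℓ : ℕ) (hℓ : ℓ.Prime) (hℓN : ¬ ℓ ∣ N) (hℓS : ℓ ∉ (↑S : Set ℕ)),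
      χ' (CuspForm.heckeAlgebra.T hℓ hℓN (fun h => hℓS (hS' h))) =
        algebraMap 𝒪 O₁ (π₀ (H.π (CuspForm.heckeAlgebra.T hℓ hℓN hℓS))))
    {𝒟o : ∀ ⦃A : Type⦄ [CommRing A] [IsLocalRing A] [Algebra 𝒪 A], GaloisRepAdic A → Prop}
    (h𝒟o : ∀ {A : Type} [CommRing A] [IsLocalRing A] [Algebra 𝒪 A] (ρ : GaloisRepAdic A),
      𝒟o ρ → ρ.IsOrdinaryAt p)
    (R₂ : TrRingG 𝒪 ρbar p 𝒟o) (lam : R₂.R →ₐ[𝒪] 𝒪)
    (hlam : ∀ σ : GQ, lam (R₂.ρ.trace σ) = π₀ (H.ρ.trace σ)) :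
    ∃ (A : ValuationSubring Qb) (_ : A.LiesOverPrime p) (b : Module.Basis (Fin 2) R₂.R R₂.ρ.V)
      (_ : OrdBasis A p R₂.ρ b) (φ : GQ) (_ : φ ∈ DA A), IsUnit (lam (matOf R₂.ρ b φ 1 1)) ∧
        algebraMap 𝒪 O₁ (lam (matOf R₂.ρ b φ 1 1)) ^ 2 -
          χ' (CuspForm.heckeAlgebra.T hpf.out hpN hpS') * algebraMap 𝒪 O₁ (lam (matOf R₂.ρ b φ 1 1)) +
            (p : O₁) = 0 := by
  have hp := hpf.out
  set v : Nat.Primes := ⟨p, hp⟩ with hv
  set A := primeLocalPlace v with hAdef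
  have hA : A.LiesOverPrime p := Fermat.Agent.S56lib.TWSel.primeLocalPlace_liesOverPrime v
  set φ := globFrobAt v with hφdef
  have hφ : A.IsFrobeniusAt φ p := globFrobAt_isFrobeniusAt v
  have hφD : φ ∈ DA A := hφ.mem_decompositionSubgroup
  obtain ⟨b₂, hb₂⟩ := exists_ordBasis (A := A) R₂.detCyc (h𝒟o _ R₂.isType) hA
  -- the unit
  have hunit : IsUnit (lam (matOf R₂.ρ b₂ φ 1 1)) := by
    have h1 : IsUnit (LinearMap.det (R₂.ρ.ρ φ)) :=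
      LinearMap.isUnit_det _ ((Group.isUnit φ).map R₂.ρ.ρ)
    rw [hb₂.det_eq hφD] at h1
    exact (isUnit_of_mul_isUnit_right h1).map lam
  refine ⟨A, hA, b₂, hb₂, φ, hφD, hunit, ?_⟩
  -- the two representations over `𝒪`
  have hlamloc : IsLocalHom (lam : R₂.R →+* 𝒪) := isLocalHom_aug lam
  have hπ₀loc : IsLocalHom (π₀ : T →+* 𝒪) := isLocalHom_aug π₀
  set ρ' := R₂.ρ.baseChangeAlong (lam : R₂.R →+* 𝒪) hlamloc with hρ'
  set ρ'' := H.ρ.baseChangeAlong (π₀ : T →+* 𝒪) hπ₀loc with hρ''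
  have hres' : ρ'.residual.IsAbsolutelyIrreducible :=
    Fermat.Agent.S59lib.Join.residual_absIrr_of_isEquiv habs ρ'
      (residual_isEquiv_baseChangeAlong lam hlamloc R₂.ρ R₂.residual_isEquiv)
  have hres'' : ρ''.residual.IsAbsolutelyIrreducible :=
    Fermat.Agent.S59lib.Join.residual_absIrr_of_isEquiv habs ρ''
      (residual_isEquiv_baseChangeAlong π₀ hπ₀loc H.ρ hresH)
  have htr : ∀ g, ρ''.trace g = ρ'.trace g := by
    intro g
    rw [hρ', hρ'', trace_baseChangeAlong', trace_baseChangeAlong']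
    exact (hlam g).symm
  have hE : ρ''.IsEquiv ρ' := Fermat.Agent.S59lib.Min.isEquiv_of_trace_eq ρ'' ρ' hres'' hres' htr
  -- the lifted basis
  obtain ⟨b, hb⟩ := exists_basis_matOf_map (π₀ : T →+* 𝒪) hπ₀loc
    (fun o => ⟨algebraMap 𝒪 T o, by simp⟩) H.ρ ρ' (bcBasis (lam : R₂.R →+* 𝒪) hlamloc R₂.ρ b₂) hE
  have hent : ∀ σ i j, π₀ (matOf H.ρ b σ i j) = lam (matOf R₂.ρ b₂ σ i j) := by
    intro σ i j
    have h1 := congrFun (congrFun (hb σ) i) j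
    rw [matOf_baseChangeAlong, Matrix.map_apply, Matrix.map_apply] at h1
    exact h1
  -- PS5 at the point
  let ψ : T →ₐ[𝒪] O₁ := (Algebra.ofId 𝒪 O₁).comp π₀
  have hψ : ∀ t : T, ψ t = algebraMap 𝒪 O₁ (π₀ t) := fun t => rfl
  exact unitRoot_eq_point hp hp2 hp𝒪 hpN hpS hNS H b ψ S' hS' hpS' χ' hχ' A hA
    (fun σ hσ j => by
      show algebraMap 𝒪 O₁ (π₀ (matOf H.ρ b σ 1 j)) = _
      rw [hent]
      by_cases hj : (1 : Fin 2) = j
      · rw [← hj, hb₂.matOf_11 hσ, map_one, map_one, Matrix.one_apply_eq]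
      · have hj0 : j = 0 := by
          fin_cases j
          · rfl
          · exact absurd rfl hj
        rw [hj0, hb₂.matOf_10 (Fermat.Agent.S19lib.F.IA_le_DA A hσ), map_zero, map_zero,
          Matrix.one_apply_ne (by decide)])
    φ hφ (by
      show algebraMap 𝒪 O₁ (π₀ (matOf H.ρ b φ 1 0)) = _
      rw [hent, hb₂.matOf_10 hφD, map_zero, map_zero])
    (algebraMap 𝒪 O₁ (lam (matOf R₂.ρ b₂ φ 1 1))) (by
      show algebraMap 𝒪 O₁ (π₀ (matOf H.ρ b φ 1 1)) = _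
      rw [hent])

/-- **(S-root): the unit root at the base point** (`χ'` with values in an extension `O₁` of `𝒪`). -/
theorem unitRootAt_of_heckeDatum [hpf : Fact p.Prime] (hp2 : p ≠ 2)
    (hp𝒪 : (p : 𝒪) ∈ IsLocalRing.maximalIdeal 𝒪) (hpN : ¬ p ∣ N)
    (hpS : p ∈ S) (hNS : ∀ q : ℕ, q.Prime → q ∣ N → q ∈ S)
    (H : CuspForm.HeckeGaloisRepDatum N (↑S : Set ℕ) 𝒪 θ T)
    (habs : ρbar.IsAbsolutelyIrreducible)
    (hresH : H.ρ.residual.IsEquiv (ρbar.baseChangeAlong (ResidueField.map (algebraMap 𝒪 T))))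
    (π₀ : T →ₐ[𝒪] 𝒪)
    (S' : Set ℕ) (hS' : S' ⊆ (↑S : Set ℕ)) (hpS' : p ∉ S')
    (χ' : CuspForm.heckeAlgebra N 2 S' →+* O₁)
    (hχ' : ∀ (ℓ : ℕ) (hℓ : ℓ.Prime) (hℓN : ¬ ℓ ∣ N) (hℓS : ℓ ∉ (↑S : Set ℕ)),
      χ' (CuspForm.heckeAlgebra.T hℓ hℓN (fun h => hℓS (hS' h))) =
        algebraMap 𝒪 O₁ (π₀ (H.π (CuspForm.heckeAlgebra.T hℓ hℓN hℓS))))
    (α : 𝒪) (hαu : IsUnit α)
    (hα : algebraMap 𝒪 O₁ α ^ 2 - χ' (CuspForm.heckeAlgebra.T hpf.out hpN hpS') * algebraMap 𝒪 O₁ α +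
      (p : O₁) = 0)
    {𝒟o : ∀ ⦃A : Type⦄ [CommRing A] [IsLocalRing A] [Algebra 𝒪 A], GaloisRepAdic A → Prop}
    (h𝒟o : ∀ {A : Type} [CommRing A] [IsLocalRing A] [Algebra 𝒪 A] (ρ : GaloisRepAdic A),
      𝒟o ρ → ρ.IsOrdinaryAt p) :
    UnitRootAt ρbar p 𝒟o (fun σ => π₀ (H.ρ.trace σ)) α := by
  intro R₂ _ lam hlam
  obtain ⟨A, hA, b₂, hb₂, φ, hφD, hunit, hu⟩ := unitRoot_of_point hp2 hp𝒪 hpN hpS hNS H habs hresH π₀
    S' hS' hpS' χ' hχ' h𝒟o R₂ lam hlam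
  refine ⟨A, hA, b₂, hb₂, φ, hφD, ?_⟩
  have hpnu : ¬ IsUnit ((p : ℕ) : O₁) := by
    intro h
    rw [← map_natCast (algebraMap 𝒪 O₁)] at h
    exact (IsLocalRing.mem_maximalIdeal _).mp hp𝒪 (isUnit_of_map_unit (algebraMap 𝒪 O₁) _ h)
  exact algebraMap_injective_of_charZero (O₁ := O₁) hpf.out.ne_zero hp𝒪
    (eq_of_unit_roots hpnu (hunit.map _) (hαu.map _) hu hα)

/-- **(S-root), existence**: one ordinary trace ring with a point having the traces of the base point produces the unit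
root `α` and `RT.UnitRootAt` for it. -/
theorem exists_unitRootAt [hpf : Fact p.Prime] (hp2 : p ≠ 2)
    (hp𝒪 : (p : 𝒪) ∈ IsLocalRing.maximalIdeal 𝒪) (hpN : ¬ p ∣ N)
    (hpS : p ∈ S) (hNS : ∀ q : ℕ, q.Prime → q ∣ N → q ∈ S)
    (H : CuspForm.HeckeGaloisRepDatum N (↑S : Set ℕ) 𝒪 θ T)
    (habs : ρbar.IsAbsolutelyIrreducible)
    (hresH : H.ρ.residual.IsEquiv (ρbar.baseChangeAlong (ResidueField.map (algebraMap 𝒪 T))))
    (π₀ : T →ₐ[𝒪] 𝒪)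
    (S' : Set ℕ) (hS' : S' ⊆ (↑S : Set ℕ)) (hpS' : p ∉ S')
    (χ' : CuspForm.heckeAlgebra N 2 S' →+* O₁)
    (hχ' : ∀ (ℓ : ℕ) (hℓ : ℓ.Prime) (hℓN : ¬ ℓ ∣ N) (hℓS : ℓ ∉ (↑S : Set ℕ)),
      χ' (CuspForm.heckeAlgebra.T hℓ hℓN (fun h => hℓS (hS' h))) =
        algebraMap 𝒪 O₁ (π₀ (H.π (CuspForm.heckeAlgebra.T hℓ hℓN hℓS))))
    {𝒟o : ∀ ⦃A : Type⦄ [CommRing A] [IsLocalRing A] [Algebra 𝒪 A], GaloisRepAdic A → Prop}
    (h𝒟o : ∀ {A : Type} [CommRing A] [IsLocalRing A] [Algebra 𝒪 A] (ρ : GaloisRepAdic A),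
      𝒟o ρ → ρ.IsOrdinaryAt p)
    (T' : TrRingG 𝒪 ρbar p 𝒟o) (π' : T'.R →ₐ[𝒪] 𝒪)
    (hπ' : ∀ σ : GQ, π' (T'.ρ.trace σ) = π₀ (H.ρ.trace σ)) :
    ∃ α : 𝒪, IsUnit α ∧
      algebraMap 𝒪 O₁ α ^ 2 - χ' (CuspForm.heckeAlgebra.T hpf.out hpN hpS') * algebraMap 𝒪 O₁ α +
        (p : O₁) = 0 ∧
      UnitRootAt ρbar p 𝒟o (fun σ => π₀ (H.ρ.trace σ)) α := by
  obtain ⟨A, hA, b₂, hb₂, φ, hφD, hunit, hu⟩ := unitRoot_of_point hp2 hp𝒪 hpN hpS hNS H habs hresH π₀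
    S' hS' hpS' χ' hχ' h𝒟o T' π' hπ'
  exact ⟨_, hunit, hu, unitRootAt_of_heckeDatum hp2 hp𝒪 hpN hpS hNS H habs hresH π₀ S' hS' hpS' χ' hχ'
    _ hunit hu h𝒟o⟩

end Root

section Self

open Fermat.Agent.S59lib.Hub Fermat.Agent.S59lib.R3

variable {p : ℕ} {N : ℕ} [NeZero N] {S : Finset ℕ}
  {𝒪 : Type} [CommRing 𝒪] [IsDomain 𝒪] [IsDiscreteValuationRing 𝒪]
  [IsAdicComplete (IsLocalRing.maximalIdeal 𝒪) 𝒪] [Finite (ResidueField 𝒪)] [CharZero 𝒪]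
  {θ : CuspForm.heckeAlgebra N 2 (↑S : Set ℕ) →+* IsLocalRing.ResidueField 𝒪}
  {T : Type} [CommRing T] [IsLocalRing T] [IsNoetherianRing T]
  [IsAdicComplete (IsLocalRing.maximalIdeal T) T] [Algebra 𝒪 T] [IsLocalHom (algebraMap 𝒪 T)]
  [Module.Finite 𝒪 T] [Module.Free 𝒪 T]
  {ρbar : ResidualGaloisRep (ResidueField 𝒪)}

/-- (the instance search for this is expensive in the presence of the S55lib instances) -/
local instance (priority := 10000) isLocalHom_algebraMap_self'' {R : Type} [CommRing R] :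
    IsLocalHom (algebraMap R R) := ⟨fun _ h => h⟩

/-- **(S-root), existence, `χ'` with values in `𝒪`.** -/
theorem exists_unitRootAt_self [hpf : Fact p.Prime] (hp2 : p ≠ 2)
    (hp𝒪 : (p : 𝒪) ∈ IsLocalRing.maximalIdeal 𝒪) (hpN : ¬ p ∣ N)
    (hpS : p ∈ S) (hNS : ∀ q : ℕ, q.Prime → q ∣ N → q ∈ S)
    (H : CuspForm.HeckeGaloisRepDatum N (↑S : Set ℕ) 𝒪 θ T)
    (habs : ρbar.IsAbsolutelyIrreducible)
    (hresH : H.ρ.residual.IsEquiv (ρbar.baseChangeAlong (ResidueField.map (algebraMap 𝒪 T))))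
    (π₀ : T →ₐ[𝒪] 𝒪)
    (S' : Set ℕ) (hS' : S' ⊆ (↑S : Set ℕ)) (hpS' : p ∉ S')
    (χ' : CuspForm.heckeAlgebra N 2 S' →+* 𝒪)
    (hχ' : ∀ (ℓ : ℕ) (hℓ : ℓ.Prime) (hℓN : ¬ ℓ ∣ N) (hℓS : ℓ ∉ (↑S : Set ℕ)),
      χ' (CuspForm.heckeAlgebra.T hℓ hℓN (fun h => hℓS (hS' h))) =
        π₀ (H.π (CuspForm.heckeAlgebra.T hℓ hℓN hℓS)))
    {𝒟o : ∀ ⦃A : Type⦄ [CommRing A] [IsLocalRing A] [Algebra 𝒪 A], GaloisRepAdic A → Prop}
    (h𝒟o : ∀ {A : Type} [CommRing A] [IsLocalRing A] [Algebra 𝒪 A] (ρ : GaloisRepAdic A),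
      𝒟o ρ → ρ.IsOrdinaryAt p)
    (T' : TrRingG 𝒪 ρbar p 𝒟o) (π' : T'.R →ₐ[𝒪] 𝒪)
    (hπ' : ∀ σ : GQ, π' (T'.ρ.trace σ) = π₀ (H.ρ.trace σ)) :
    ∃ α : 𝒪, IsUnit α ∧
      α ^ 2 - χ' (CuspForm.heckeAlgebra.T hpf.out hpN hpS') * α + (p : 𝒪) = 0 ∧
      UnitRootAt ρbar p 𝒟o (fun σ => π₀ (H.ρ.trace σ)) α :=
  exists_unitRootAt (O₁ := 𝒪) hp2 hp𝒪 hpN hpS hNS H habs hresH π₀ S' hS' hpS' χ' hχ' h𝒟o T' π' hπ'

/-- **(S-root), `χ'` and `α` with values in `𝒪`.** -/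
theorem unitRootAt_of_heckeDatum_self [hpf : Fact p.Prime] (hp2 : p ≠ 2)
    (hp𝒪 : (p : 𝒪) ∈ IsLocalRing.maximalIdeal 𝒪) (hpN : ¬ p ∣ N)
    (hpS : p ∈ S) (hNS : ∀ q : ℕ, q.Prime → q ∣ N → q ∈ S)
    (H : CuspForm.HeckeGaloisRepDatum N (↑S : Set ℕ) 𝒪 θ T)
    (habs : ρbar.IsAbsolutelyIrreducible)
    (hresH : H.ρ.residual.IsEquiv (ρbar.baseChangeAlong (ResidueField.map (algebraMap 𝒪 T))))
    (π₀ : T →ₐ[𝒪] 𝒪)
    (S' : Set ℕ) (hS' : S' ⊆ (↑S : Set ℕ)) (hpS' : p ∉ S')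
    (χ' : CuspForm.heckeAlgebra N 2 S' →+* 𝒪)
    (hχ' : ∀ (ℓ : ℕ) (hℓ : ℓ.Prime) (hℓN : ¬ ℓ ∣ N) (hℓS : ℓ ∉ (↑S : Set ℕ)),
      χ' (CuspForm.heckeAlgebra.T hℓ hℓN (fun h => hℓS (hS' h))) =
        π₀ (H.π (CuspForm.heckeAlgebra.T hℓ hℓN hℓS)))
    (α : 𝒪) (hαu : IsUnit α)
    (hα : α ^ 2 - χ' (CuspForm.heckeAlgebra.T hpf.out hpN hpS') * α + (p : 𝒪) = 0)
    {𝒟o : ∀ ⦃A : Type⦄ [CommRing A] [IsLocalRing A] [Algebra 𝒪 A], GaloisRepAdic A → Prop}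
    (h𝒟o : ∀ {A : Type} [CommRing A] [IsLocalRing A] [Algebra 𝒪 A] (ρ : GaloisRepAdic A),
      𝒟o ρ → ρ.IsOrdinaryAt p) :
    UnitRootAt ρbar p 𝒟o (fun σ => π₀ (H.ρ.trace σ)) α :=
  unitRootAt_of_heckeDatum (O₁ := 𝒪) hp2 hp𝒪 hpN hpS hNS H habs hresH π₀ S' hS' hpS' χ' hχ' α hαu hα h𝒟o

end Self

end Fermat.Agent.S59lib.RT
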