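/-
S59lib / RT / PStepCore  (helper9) — Project I, block PSTEP on the hub: **the unit root on the hub** and the brick
`Hub.PStepCoreStmt`.

* `unitRootAt_hub` : `RT.UnitRootAt` for a point `π` of a Hecke ring `Sg.F S'` of the hub (level `lvlTw P S'` prime to
  `p`): if `χ'` is a character of a Hecke algebra of that level containing `T_p` which extends the point, every unit root
  `α` of `X² − χ'(T_p) X + p` is the unit root of all the ordinary trace rings over the point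
  (`RT.unitRootAt_of_heckeDatum_self`).
-/
import Mathlib
import Fermat.Agent.S59lib.Hub.PStepAsm
import Fermat.Agent.S59lib.RT.UnitRoot
import Fermat.Agent.S59lib.N3.Char
import Fermat.Agent.S59lib.Nu.Stmt

set_option autoImplicit false
set_option linter.unusedSectionVars false
set_option linter.unusedVariables false
set_option linter.style.haveILetI false

noncomputable section

namespace Fermat.Agent.S59lib.RT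

open Fermat.Agent.S43lib.Mod4 Fermat.Agent.S43lib.Mod4.Hub Fermat.Agent.S59lib.Hub

open IsLocalRing Polynomial CuspForm

local notation "GQ" => (AlgebraicClosure ℚ ≃ₐ[ℚ] AlgebraicClosure ℚ)
local notation "Qb" => AlgebraicClosure ℚ

section Roots

variable {p : ℕ} {N : ℕ} [NeZero N] {S : Finset ℕ}
  {𝒪 : Type} [CommRing 𝒪] [IsDomain 𝒪] [IsDiscreteValuationRing 𝒪]
  [IsAdicComplete (IsLocalRing.maximalIdeal 𝒪) 𝒪] [Finite (ResidueField 𝒪)] [CharZero 𝒪]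
  {θ : CuspForm.heckeAlgebra N 2 (↑S : Set ℕ) →+* IsLocalRing.ResidueField 𝒪}
  {T : Type} [CommRing T] [IsLocalRing T] [IsNoetherianRing T]
  [IsAdicComplete (IsLocalRing.maximalIdeal T) T] [Algebra 𝒪 T] [IsLocalHom (algebraMap 𝒪 T)]
  [Module.Finite 𝒪 T] [Module.Free 𝒪 T]
  {ρbar : ResidualGaloisRep (ResidueField 𝒪)}

/-- **the two roots from a `T_p`-eigenvector**: an eigenvector `x ≠ 0` of the anemic system `a` of the point `π₀` in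
`𝒪 ⊗ L_N` with `T_p x = t x`, and one ordinary point over the base traces, produce the roots `α` (a unit) and `β` of
`X² − t X + p`, with `α − β` a unit, and `RT.UnitRootAt` for `α`. -/
theorem exists_roots_of_eigen [hpf : Fact p.Prime] (hp2 : p ≠ 2)
    (hp𝒪 : (p : 𝒪) ∈ IsLocalRing.maximalIdeal 𝒪) (hpN : ¬ p ∣ N)
    (hpS : p ∈ S) (hNS : ∀ q : ℕ, q.Prime → q ∣ N → q ∈ S)
    (H : CuspForm.HeckeGaloisRepDatum N (↑S : Set ℕ) 𝒪 θ T)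
    (habs : ρbar.IsAbsolutelyIrreducible)
    (hresH : H.ρ.residual.IsEquiv (ρbar.baseChangeAlong (ResidueField.map (algebraMap 𝒪 T))))
    (π₀ : T →ₐ[𝒪] 𝒪) (t : 𝒪) (x : N3.MO 𝒪 N) (hx0 : x ≠ 0)
    (hx : ∀ (ℓ : ℕ) (hℓ : ℓ.Prime) (hℓN : ¬ ℓ ∣ N) (hℓS : ℓ ∉ (↑S : Set ℕ)),
      N3.tO 𝒪 hℓ hℓN x = π₀ (H.π (CuspForm.heckeAlgebra.T hℓ hℓN hℓS)) • x)
    (hTp : N3.tO 𝒪 hpf.out hpN x = t • x)
    {𝒟o : ∀ ⦃A : Type⦄ [CommRing A] [IsLocalRing A] [Algebra 𝒪 A], GaloisRepAdic A → Prop}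
    (h𝒟o : ∀ {A : Type} [CommRing A] [IsLocalRing A] [Algebra 𝒪 A] (ρ : GaloisRepAdic A),
      𝒟o ρ → ρ.IsOrdinaryAt p)
    (T' : TrRingG 𝒪 ρbar p 𝒟o) (π' : T'.R →ₐ[𝒪] 𝒪)
    (hπ' : ∀ σ : GQ, π' (T'.ρ.trace σ) = π₀ (H.ρ.trace σ)) :
    ∃ α β : 𝒪, IsUnit α ∧ α ^ 2 - t * α + (p : 𝒪) = 0 ∧ β ^ 2 - t * β + (p : 𝒪) = 0 ∧
      IsUnit (α - β) ∧ UnitRootAt ρbar p 𝒟o (fun σ => π₀ (H.ρ.trace σ)) α := by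
  classical
  have hp := hpf.out
  set S₁ : Set ℕ := (↑S : Set ℕ) \ {p} with hS₁def
  have hS₁ : S₁ ⊆ (↑S : Set ℕ) := Set.diff_subset
  have hpS₁ : p ∉ S₁ := fun h => h.2 rfl
  have hNS₁ : ∀ q : ℕ, q.Prime → q ∣ N → q ∈ S₁ := fun q hq hqN =>
    ⟨Finset.mem_coe.2 (hNS q hq hqN), fun h => hpN ((Set.mem_singleton_iff.mp h) ▸ hqN)⟩
  set a : ℕ → 𝒪 := fun ℓ => if h : ℓ.Prime ∧ ¬ ℓ ∣ N ∧ ℓ ∉ (↑S : Set ℕ) then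
    π₀ (H.π (CuspForm.heckeAlgebra.T h.1 h.2.1 h.2.2)) else 0 with hadef
  have ha : ∀ (ℓ : ℕ) (hℓ : ℓ.Prime) (hℓN : ¬ ℓ ∣ N) (hℓS : ℓ ∉ (↑S : Set ℕ)),
      π₀ (H.π (CuspForm.heckeAlgebra.T hℓ hℓN hℓS)) = a ℓ := by
    intro ℓ hℓ hℓN hℓS
    rw [hadef]
    simp only
    rw [dif_pos ⟨hℓ, hℓN, hℓS⟩]
  set a' : ℕ → 𝒪 := Function.update a p t with ha'
  obtain ⟨χ', hχ'⟩ := N3.exists_char_of_eigen (S := S₁) hNS₁ a' x hx0 (by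
    intro ℓ hℓ hℓN hℓS₁
    by_cases hℓp : ℓ = p
    · subst hℓp
      rw [ha', Function.update_self]
      exact hTp
    · rw [ha', Function.update_of_ne hℓp]
      have hℓS : ℓ ∉ (↑S : Set ℕ) := fun hℓS => hℓS₁ ⟨hℓS, fun h => hℓp (Set.mem_singleton_iff.mp h)⟩
      rw [← ha ℓ hℓ hℓN hℓS]
      exact hx ℓ hℓ hℓN hℓS)
  have hχ'' : ∀ (ℓ : ℕ) (hℓ : ℓ.Prime) (hℓN : ¬ ℓ ∣ N) (hℓS : ℓ ∉ (↑S : Set ℕ)),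
      χ' (CuspForm.heckeAlgebra.T hℓ hℓN (fun h => hℓS (hS₁ h))) =
        π₀ (H.π (CuspForm.heckeAlgebra.T hℓ hℓN hℓS)) := by
    intro ℓ hℓ hℓN hℓS
    have hℓp : ℓ ≠ p := by
      rintro rfl
      exact hℓS (Finset.mem_coe.2 hpS)
    rw [hχ' ℓ hℓ hℓN, ha', Function.update_of_ne hℓp, ha ℓ hℓ hℓN hℓS]
  obtain ⟨α, hαu, hα, hroot⟩ := exists_unitRootAt_self hp2 hp𝒪 hpN hpS hNS H habs hresH π₀ S₁ hS₁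
    hpS₁ χ' hχ'' h𝒟o T' π' hπ'
  rw [hχ' p hp hpN hpS₁, ha', Function.update_self] at hα
  have hαβ : α * (t - α) = (p : 𝒪) := by linear_combination (-1 : 𝒪) * hα
  have hβm : t - α ∈ IsLocalRing.maximalIdeal 𝒪 := by
    obtain ⟨u, rfl⟩ := hαu
    have h1 : t - (u : 𝒪) = ((u⁻¹ : 𝒪ˣ) : 𝒪) * (p : 𝒪) := by
      rw [← hαβ, ← mul_assoc, Units.inv_mul, one_mul]
    rw [h1]
    exact Ideal.mul_mem_left _ _ hp𝒪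
  refine ⟨α, t - α, hαu, hα, by linear_combination hα, ?_, hroot⟩
  by_contra hnu
  have h1 : α - (t - α) ∈ IsLocalRing.maximalIdeal 𝒪 := hnu
  have h2 : α ∈ IsLocalRing.maximalIdeal 𝒪 := by
    have := Ideal.add_mem _ h1 hβm
    rwa [sub_add_cancel] at this
  exact h2 hαu

end Roots

variable {P : Ctx}

/-- **the unit root on the hub** -/
theorem unitRootAt_hub (Sg : SideGal P ∅) (hpR0 : ¬ P.p ∣ P.R0) (S' : Finset ℕ) (hS' : Sg.good S')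
    (π : (Sg.F S' hS').R →ₐ[Sg.𝒪] Sg.𝒪)
    (S₁ : Set ℕ) (hS₁ : S₁ ⊆ (↑(S' ∪ P.Aux) : Set ℕ)) (hpS₁ : P.p ∉ S₁)
    (χ' : heckeAlgebra (lvlTw P S') 2 S₁ →+* Sg.𝒪)
    (hχ' : ∀ (ℓ : ℕ) (hℓ : ℓ.Prime) (hℓN : ¬ ℓ ∣ lvlTw P S') (hℓS : ℓ ∉ (↑(S' ∪ P.Aux) : Set ℕ)),
      χ' (heckeAlgebra.T hℓ hℓN (fun h => hℓS (hS₁ h))) =
        π (heckeLocal.π (lvlTw P S') (↑(S' ∪ P.Aux) : Set ℕ) Sg.𝒪 (Sg.D.θ S' hS')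
          (heckeAlgebra.T hℓ hℓN hℓS)))
    (α : Sg.𝒪) (hαu : IsUnit α)
    (hα : α ^ 2 - χ' (heckeAlgebra.T P.pp (not_p_dvd_lvlTw hpR0 S') hpS₁) * α + (P.p : Sg.𝒪) = 0)
    {𝒟o : ∀ ⦃A : Type⦄ [CommRing A] [IsLocalRing A] [Algebra Sg.𝒪 A], GaloisRepAdic A → Prop}
    (h𝒟o : ∀ {A : Type} [CommRing A] [IsLocalRing A] [Algebra Sg.𝒪 A] (ρ : GaloisRepAdic A),
      𝒟o ρ → ρ.IsOrdinaryAt P.p) :
    UnitRootAt Sg.ρbar P.p 𝒟o (fun σ => π ((Sg.F S' hS').ρ.trace σ)) α := by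
  haveI : Fact P.p.Prime := ⟨P.pp⟩
  have hχ'' : ∀ (ℓ : ℕ) (hℓ : ℓ.Prime) (hℓN : ¬ ℓ ∣ lvlTw P S')
      (hℓS : ℓ ∉ (↑(S' ∪ P.Aux) : Set ℕ)),
      χ' (heckeAlgebra.T hℓ hℓN (fun h => hℓS (hS₁ h))) =
        π ((Sg.D.H S' hS').π (heckeAlgebra.T hℓ hℓN hℓS)) := by
    intro ℓ hℓ hℓN hℓS
    rw [Sg.D.H_π S' hS']
    exact hχ' ℓ hℓ hℓN hℓS
  exact unitRootAt_of_heckeDatum_self (p := P.p) (N := lvlTw P S') (S := S' ∪ P.Aux) P.hp2 Sg.hp𝒪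
    (not_p_dvd_lvlTw hpR0 S') (Sg.D.p_mem' S' hS') (Sg.D.primes_mem S' hS') (Sg.D.H S' hS') Sg.habs
    (Sg.F S' hS').residual_isEquiv π S₁ hS₁ hpS₁ χ' hχ'' α hαu hα h𝒟o

/-- **the two roots on the hub** -/
theorem exists_roots_hub (Sg : SideGal P ∅) (hpR0 : ¬ P.p ∣ P.R0) (S' : Finset ℕ) (hS' : Sg.good S')
    (π : (Sg.F S' hS').R →ₐ[Sg.𝒪] Sg.𝒪) (t : Sg.𝒪) (x : N3.MO Sg.𝒪 (lvlTw P S')) (hx0 : x ≠ 0)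
    (hx : ∀ (ℓ : ℕ) (hℓ : ℓ.Prime) (hℓN : ¬ ℓ ∣ lvlTw P S') (hℓS : ℓ ∉ (↑(S' ∪ P.Aux) : Set ℕ)),
      N3.tO Sg.𝒪 hℓ hℓN x =
        π (heckeLocal.π (lvlTw P S') (↑(S' ∪ P.Aux) : Set ℕ) Sg.𝒪 (Sg.D.θ S' hS')
          (heckeAlgebra.T hℓ hℓN hℓS)) • x)
    (hTp : N3.tO Sg.𝒪 P.pp (not_p_dvd_lvlTw hpR0 S') x = t • x)
    {𝒟o : ∀ ⦃A : Type⦄ [CommRing A] [IsLocalRing A] [Algebra Sg.𝒪 A], GaloisRepAdic A → Prop}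
    (h𝒟o : ∀ {A : Type} [CommRing A] [IsLocalRing A] [Algebra Sg.𝒪 A] (ρ : GaloisRepAdic A),
      𝒟o ρ → ρ.IsOrdinaryAt P.p)
    (T' : TrRingG Sg.𝒪 Sg.ρbar P.p 𝒟o) (π' : T'.R →ₐ[Sg.𝒪] Sg.𝒪)
    (hπ' : ∀ σ : GQ, π' (T'.ρ.trace σ) = π ((Sg.F S' hS').ρ.trace σ)) :
    ∃ α β : Sg.𝒪, IsUnit α ∧ α ^ 2 - t * α + (P.p : Sg.𝒪) = 0 ∧ β ^ 2 - t * β + (P.p : Sg.𝒪) = 0 ∧
      IsUnit (α - β) ∧ UnitRootAt Sg.ρbar P.p 𝒟o (fun σ => π ((Sg.F S' hS').ρ.trace σ)) α := by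
  haveI : Fact P.p.Prime := ⟨P.pp⟩
  refine exists_roots_of_eigen (p := P.p) (N := lvlTw P S') (S := S' ∪ P.Aux) P.hp2 Sg.hp𝒪
    (not_p_dvd_lvlTw hpR0 S') (Sg.D.p_mem' S' hS') (Sg.D.primes_mem S' hS') (Sg.D.H S' hS') Sg.habs
    (Sg.F S' hS').residual_isEquiv π t x hx0 ?_ hTp h𝒟o T' π' hπ'
  intro ℓ hℓ hℓN hℓS
  rw [Sg.D.H_π S' hS']
  exact hx ℓ hℓ hℓN hℓS

/-- **The Hecke side of `PStepCoreStmt`** (statement): a `T_p`-eigenvector of the system of the point at the level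
`lvlTw P (Smin ∪ Σ)` and the growth of the congruence ideal at `p` for the roots of `X² − t X + p` (helper2's `HS.hs_pstep`
on the hub). -/
def PStepHeckeStmt : Prop :=
  ∀ (I : WIn) (hfl : I.p ∣ I.B → Fermat.Agent.S59lib.ModPInertiaIrreducible I.W I.p),
    ResOrdStmt → ¬ I.W.IsGoodPrimeFor I.p → ¬ I.p ∣ I.B → I.Aux.card ≤ 1 →
    ∀ (Sg : SideGal (I.ctxFlat hfl) ∅) {N : ℕ}, N ∣ I.B → I.IsMod N →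
    ∀ (π₀ : (Tmin Sg).R →ₐ[Sg.𝒪] Sg.𝒪), OldAtAux (I.ctxFlat hfl) Sg π₀ →
    ∀ (Sig : Finset ℕ) (hSig : Sg.good (Sg.S ∪ Sig)),
      Disjoint Sg.S Sig →
    ∀ (πS : (Sg.F (Sg.S ∪ Sig) hSig).R →ₐ[Sg.𝒪] Sg.𝒪),
      (∀ σ : GQ, πS ((Sg.F (Sg.S ∪ Sig) hSig).ρ.trace σ) = π₀ ((Tmin Sg).ρ.trace σ)) →
    ∀ (Dt : OrdDatum Sg (Sg.S ∪ Sig))
      (π' : heckeLocal (lvlOrd (I.ctxFlat hfl) (Sg.S ∪ Sig))
        (↑((Sg.S ∪ Sig) ∪ (I.ctxFlat hfl).Aux) : Set ℕ) Sg.𝒪 Dt.θ →ₐ[Sg.𝒪] Sg.𝒪),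
      (∀ σ : GQ, π' (Dt.H.ρ.trace σ) = π₀ ((Tmin Sg).ρ.trace σ)) →
      ∃ (N' : ℕ) (_ : NeZero N') (_ : N' = lvlTw (I.ctxFlat hfl) (Sg.S ∪ Sig)) (t : Sg.𝒪)
          (x : N3.MO Sg.𝒪 N'), x ≠ 0 ∧
        (∀ (ℓ : ℕ) (hℓ : ℓ.Prime) (hℓN' : ¬ ℓ ∣ N')
          (hℓN : ¬ ℓ ∣ lvlTw (I.ctxFlat hfl) (Sg.S ∪ Sig))
          (hℓS : ℓ ∉ (↑((Sg.S ∪ Sig) ∪ (I.ctxFlat hfl).Aux) : Set ℕ)),
          N3.tO Sg.𝒪 hℓ hℓN' x =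
            πS (heckeLocal.π (lvlTw (I.ctxFlat hfl) (Sg.S ∪ Sig))
              (↑((Sg.S ∪ Sig) ∪ (I.ctxFlat hfl).Aux) : Set ℕ) Sg.𝒪 (Sg.D.θ (Sg.S ∪ Sig) hSig)
              (heckeAlgebra.T hℓ hℓN hℓS)) • x) ∧
        (∀ hpN : ¬ (I.ctxFlat hfl).p ∣ N', N3.tO Sg.𝒪 (I.ctxFlat hfl).pp hpN x = t • x) ∧
        ∀ α β : Sg.𝒪, IsUnit α → α ^ 2 - t * α + ((I.ctxFlat hfl).p : Sg.𝒪) = 0 →
          β ^ 2 - t * β + ((I.ctxFlat hfl).p : Sg.𝒪) = 0 → IsUnit (α - β) →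
          Module.length Sg.𝒪 (Sg.𝒪 ⧸ Ideal.span {α ^ 2 - 1}) +
              (Module.length Sg.𝒪 (Sg.𝒪 ⧸ NumCrit.congIdeal π₀) +
                ∑ q ∈ Sig, Module.length Sg.𝒪 (Sg.𝒪 ⧸ Ideal.span {RT.cTame (aBase Sg π₀) q})) ≤
            Module.length Sg.𝒪 (Sg.𝒪 ⧸ NumCrit.congIdeal π')

/-- **`PStepCoreStmt` from its Hecke side**: the unit root (S-root) is produced here. -/
theorem pStepCoreStmt_of (hH : PStepHeckeStmt) : PStepCoreStmt := by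
  intro I hfl hRO hbad hpB hcard Sg N hN hmod π₀ hold Sig hSig hdisj Dt π' hπ'
  have hpR0 : ¬ (I.ctxFlat hfl).p ∣ (I.ctxFlat hfl).R0 := fun h => hpB (I.p_dvd_R0_iff.1 h)
  -- the point of `𝕋_Σ`
  obtain ⟨ν, hν⟩ := Fermat.Agent.S59lib.Nu.nuStmt (I.ctxFlat hfl) Sg (Sg.S ∪ Sig) hSig
  set πS : (Sg.F (Sg.S ∪ Sig) hSig).R →ₐ[Sg.𝒪] Sg.𝒪 := π₀.comp ν with hπS
  have hπStr : ∀ σ : GQ, πS ((Sg.F (Sg.S ∪ Sig) hSig).ρ.trace σ) = π₀ ((Tmin Sg).ρ.trace σ) :=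
    fun σ => by rw [hπS, AlgHom.comp_apply, hν σ]
  -- the ordinary trace ring
  have htyO := I.ordDatum_isType hfl hRO hbad hpB Sg (Sg.S ∪ Sig) hSig Dt
  let T' : TrRingG Sg.𝒪 Sg.ρbar (I.ctxFlat hfl).p (RT.𝒟ord Sg.𝒪 I.p I.Smin (Sg.S ∪ Sig)) :=
    trOrdOf Sg (Sg.S ∪ Sig) hSig Dt htyO
  -- the Hecke side
  obtain ⟨N', hN'0, hN', t, x, hx0, hx, hTp, hle⟩ := hH I hfl hRO hbad hpB hcard Sg hN hmod π₀ hold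
    Sig hSig hdisj πS hπStr Dt π' hπ'
  subst hN'
  obtain ⟨α, β, hαu, hα, hβ, hαβ, hroot⟩ := exists_roots_hub Sg hpR0 (Sg.S ∪ Sig) hSig πS t x hx0
    (fun ℓ hℓ hℓN hℓS => hx ℓ hℓ hℓN hℓN hℓS) (hTp _) (𝒟o := RT.𝒟ord Sg.𝒪 I.p I.Smin (Sg.S ∪ Sig)) (fun ρ h => h.1.2.1) T' π'
    (fun σ => (hπ' σ).trans (hπStr σ).symm)
  refine ⟨α, ?_, hle α β hαu hα hβ hαβ⟩
  have hfun : (fun σ => πS ((Sg.F (Sg.S ∪ Sig) hSig).ρ.trace σ)) =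
      fun σ => π₀ ((Tmin Sg).ρ.trace σ) := funext hπStr
  rw [← hfun]
  exact hroot

end Fermat.Agent.S59lib.RT
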